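import Mathlib
import Fermat.Agent.S44.L.Top

/-!
# PROGRAM MR (S44), strand H = `L.Top.HDivStatement`: brick statements

Statement-level file (helper170, sub-captain H).  `HDivStatement` says: the multiplicative Hecke
operator `T_ℓ` (`ℓ ∤ N' p`) preserves "`p ∣ ord` of the reduction at every FINITE place of the
reduced function field `K = redField N' A ⊆ κ((q))`".

Route (no function field of level `N' ℓ`, no degree `ℓ + 1`, no irreducibility of the modular
equation modulo `p`): on `κ((q))` put `φ = (q ↦ q^ℓ)`, `c_∞ = (q ↦ q^{ℓ²})`, `c_i = (q ↦ zⁱ q)`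
(`i < ℓ`).  Then `φ (T_ℓ b) = c_∞ b · ∏_i c_i b` (formal), the conjugates `c_x` split into
classes, the product over a class is the NORM of `c_x b` from `E_x = φ(K)(c_x(K))` to `φ(K)`
(`VirtNormStatement`, a char-`p` port of `S48/G1/F1/VirtNormDiv`), norms preserve
"unit times `p`-th power" at discrete valuation subrings (`NormPDivStatement`), and a place of
`E_x` over a finite place of `φ(K)` restricts to a finite place of `c_x(K)` because `c_x(j̄)` is
integral over `κ[φ(j̄)]` (modular equation, `ModEqStatement`).

Bricks: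
* `RedHeckeStatement` : reduction commutes with `heckeFb` (up to a constant);
* `HeckeMemStatement` : `T_ℓ` preserves `redField N' A`;
* `RedFinStatement`   : `redField N A` contains the constants and `j̄`, and is finite over
  `κ(j̄)`; `κ` is infinite;
* `SepSeriesStatement`: a subfield of `κ((q))` algebraic over `κ(t)`, `p ∤ ord t`, is separable
  over `κ(t)` (formal);
* `DvrStatement`      : valuation subrings of a field finite over `κ₀(t)` that contain `κ₀`
  are trivial or discrete (level-free);
* `ModEqStatement`    : `j̄(q^{ℓ²})` and `j̄(zⁱ q)` are integral over `κ[j̄(q^ℓ)]` (formal);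
* `NormPDivStatement` : norms preserve `PDivAt` over a discrete valuation subring (level-free);
* `VirtNormStatement` : virtual norms preserve `PDivAt` at good places (level-free);
* `Assembly`          : the wiring.
-/

set_option autoImplicit false

open HahnSeries ModularCurve

namespace Fermat.Agent.S44.H

open Fermat.Agent.S30 Fermat.Agent.S30.Producer Fermat.Agent.S44.Contract
open Fermat.Agent.S44.L.Top

/-! ### The concrete bricks (reduction at the Gauss valuation) -/

/-- **(H.1) Reduction commutes with the Hecke operator.**  There is a primitive `ℓ`-th root of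
unity `z` of `κ` such that: if `g` is a reduction of `G` and `g'` a reduction of `T_ℓ G`, then
`g' = c · T_ℓ g` for a nonzero constant `c` (`T_ℓ` on `κ((q))` is `Congr.heckeMul ℓ _ z`). -/
def RedHeckeStatement : Prop :=
  ∀ (p N' : ℕ) [NeZero N'] [NeZero p], p.Prime → ¬ p ∣ N' →
    ∀ A : ValuationSubring Qb, A.LiesOverPrime p →
    ∀ (ℓ : ℕ) (hℓ : ℓ.Prime), ¬ ℓ ∣ N' * p →
    ∃ z : (IsLocalRing.ResidueField A)ˣ, IsPrimitiveRoot z ℓ ∧
      ∀ (G : FN (N' * p)) (g g' : LaurentSeries (IsLocalRing.ResidueField A)), G ≠ 0 →
        RedAt (N' * p) A G g → RedAt (N' * p) A (E4.heckeFb (N' * p) ℓ G) g' →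
        ∃ c : IsLocalRing.ResidueField A, c ≠ 0 ∧
          g' = HahnSeries.C c * Congr.heckeMul ℓ hℓ.pos z g

/-- **(H.2) `T_ℓ` preserves the reduced function field** of level `N'` (`ℓ ∤ N' p`). -/
def HeckeMemStatement : Prop :=
  ∀ (p N' : ℕ) [NeZero N'], p.Prime → ¬ p ∣ N' →
    ∀ A : ValuationSubring Qb, A.LiesOverPrime p →
    ∀ (ℓ : ℕ) (hℓ : ℓ.Prime), ¬ ℓ ∣ N' * p →
    ∀ z : (IsLocalRing.ResidueField A)ˣ, IsPrimitiveRoot z ℓ →
    ∀ b : LaurentSeries (IsLocalRing.ResidueField A), b ∈ redField N' A →
      Congr.heckeMul ℓ hℓ.pos z b ∈ redField N' A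

/-- **(H.3a) Structure of the reduced function field.**  `redField N A` contains the constants
and `j̄ = jqModC κ`; the constants form an infinite subfield `κ₀`; and `redField N A` is
finite-dimensional over `κ₀(j̄)`. -/
def RedFinStatement : Prop :=
  ∀ (p N : ℕ) [NeZero N], p.Prime → ∀ A : ValuationSubring Qb, A.LiesOverPrime p →
    ∃ (κ₀ : Subfield (redField N A)) (t : redField N A),
      (∀ x : redField N A, x ∈ κ₀ ↔
        ∃ c : IsLocalRing.ResidueField A,
          (x : LaurentSeries (IsLocalRing.ResidueField A)) = HahnSeries.C c) ∧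
      (∀ c : IsLocalRing.ResidueField A, HahnSeries.C c ∈ redField N A) ∧
      (t : LaurentSeries (IsLocalRing.ResidueField A)) = jqModC (IsLocalRing.ResidueField A) ∧
      Infinite κ₀ ∧
      FiniteDimensional (IntermediateField.adjoin κ₀ {t}) (redField N A)

/-! ### The formal bricks (Laurent series over a field) -/

/-- **(H.3b) Algebraic over `κ(t)` inside `κ((q))` implies separable** (characteristic `p`,
`p`-th roots exist in `κ`, `p ∤ ord t`).  `k` is a subfield of `κ((q))` containing the
constants, `κ₀` its subfield of constants. -/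
def SepSeriesStatement : Prop :=
  ∀ (κ : Type) [Field κ] (p : ℕ) [CharP κ p], p.Prime → (∀ c : κ, ∃ d : κ, d ^ p = c) →
    ∀ (k : Subfield (LaurentSeries κ)) (κ₀ : Subfield k) (t : k),
      (∀ x : k, x ∈ κ₀ ↔ ∃ c : κ, (x : LaurentSeries κ) = HahnSeries.C c) →
      (∀ c : κ, HahnSeries.C c ∈ k) →
      (t : LaurentSeries κ) ≠ 0 → ¬ (p : ℤ) ∣ (t : LaurentSeries κ).order →
      Algebra.IsAlgebraic (IntermediateField.adjoin κ₀ {t}) k →
      Algebra.IsSeparable (IntermediateField.adjoin κ₀ {t}) k

/-- **(H.4) The modular equation, integral form** (any field with a primitive `ℓ`-th root of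
unity `z`): `j(q^{ℓ²})` and `j(zⁱ q)` are integral over `κ[j(q^ℓ)]`. -/
def ModEqStatement : Prop :=
  ∀ (κ : Type) [Field κ] (ℓ : ℕ) (hℓ : ℓ.Prime) (z : κˣ), IsPrimitiveRoot z ℓ →
    IsIntegral (Algebra.adjoin κ {Congr.expand ℓ hℓ.pos (jqModC κ)})
        (Congr.expand (ℓ * ℓ) (Nat.mul_pos hℓ.pos hℓ.pos) (jqModC κ)) ∧
      ∀ i : ℕ, IsIntegral (Algebra.adjoin κ {Congr.expand ℓ hℓ.pos (jqModC κ)})
        (Congr.rescale (z ^ i) (jqModC κ))

/-! ### The level-free bricks (fields and valuation subrings) -/

/-- **(H.3c) Valuation subrings of a function field in one variable are trivial or discrete.**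
`k` finite over `κ₀(t)`; a valuation subring of `k` containing `κ₀` is `⊤` or a discrete
valuation ring. -/
def DvrStatement : Prop :=
  ∀ (k : Type) [Field k] (κ₀ : Subfield k) (t : k),
    FiniteDimensional (IntermediateField.adjoin κ₀ {t}) k →
    ∀ w : ValuationSubring k, (∀ s : k, s ∈ κ₀ → s ∈ w) →
      w = ⊤ ∨ IsDiscreteValuationRing w

/-- **(H.5) Norms preserve "unit times `p`-th power".**  `L / K` finite separable, `w` a
discrete valuation subring of `K`; if `y ∈ Lˣ` is a unit times a `p`-th power at every valuation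
subring of `L` lying over `w`, then so is `N_{L/K} y` at `w`. -/
def NormPDivStatement : Prop :=
  ∀ (K L : Type) [Field K] [Field L] [Algebra K L] [FiniteDimensional K L]
    [Algebra.IsSeparable K L] (p : ℕ) (w : ValuationSubring K), IsDiscreteValuationRing w →
    ∀ y : L, y ≠ 0 →
      (∀ W : ValuationSubring L, W.comap (algebraMap K L) = w → PDivAt p W y) →
      PDivAt p w (Algebra.norm K y)

/-- **(H.6) Virtual norms preserve `PDivAt` at good places** (level-free; characteristic-free
port of `S48/G1/F1/VirtNormDiv`).  `φ, c x : k →+* LS` field embeddings agreeing on an infinite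
subfield `κ₀` of `k`, separated by `t`, `k` separable over `κ₀(t)`; `T : k → k` with
`φ (T b) = ∏ x, c x b`; the good valuation subrings of `k` are trivial or discrete, and a
valuation subring of `LS` that is good along `φ` is good along every `c x`.  Then `T` preserves
"`PDivAt p w` for every good `w`". -/
def VirtNormStatement : Prop :=
  ∀ (k LS : Type) [Field k] [Field LS] (p : ℕ) (ι : Type) [Fintype ι]
    (κ₀ : Subfield k) (φ : k →+* LS) (c : ι → k →+* LS) (T : k → k) (t : k)
    (good : ValuationSubring k → Prop),
    Infinite κ₀ →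
    (∀ s : k, s ∈ κ₀ → ∀ x, c x s = φ s) →
    (∀ b : k, φ (T b) = ∏ x, c x b) →
    Function.Injective (fun x => c x t) →
    Algebra.IsSeparable (IntermediateField.adjoin κ₀ {t}) k →
    (∀ w : ValuationSubring k, good w → w = ⊤ ∨ IsDiscreteValuationRing w) →
    (∀ (x : ι) (V : ValuationSubring LS), good (V.comap φ) → good (V.comap (c x))) →
    ∀ b : k, b ≠ 0 → (∀ w : ValuationSubring k, good w → PDivAt p w b) →
      ∀ w : ValuationSubring k, good w → PDivAt p w (T b)

/-! ### The assembly -/

/-- **(H.7) The wiring** of `HDivStatement` from the bricks and `KappaStatement`. -/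
def Assembly : Prop :=
  KappaStatement → RedHeckeStatement → HeckeMemStatement → RedFinStatement →
    SepSeriesStatement → ModEqStatement → DvrStatement → (NormPDivStatement → VirtNormStatement) →
    NormPDivStatement → HDivStatement

/-- Strand H from its bricks. -/
theorem hDivStatement_of_bricks (hκ : KappaStatement) (h1 : RedHeckeStatement)
    (h2 : HeckeMemStatement) (h3a : RedFinStatement) (h3b : SepSeriesStatement)
    (h4 : ModEqStatement) (h3c : DvrStatement) (h6 : NormPDivStatement → VirtNormStatement)
    (h5 : NormPDivStatement) (hA : Assembly) : HDivStatement :=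
  hA hκ h1 h2 h3a h3b h4 h3c h6 h5

end Fermat.Agent.S44.H
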