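import Mathlib
import Fermat.Agent.S44.H.Bricks

/-!
# PROGRAM MR (S44), strand H, brick (H.3b) = `SepSeriesStatement`

A subfield `k` of `κ((q))` (characteristic `p`, `κ` closed under `p`-th roots) that contains the
constants and is algebraic over `F = κ₀(t)` with `p ∤ ord t` is separable over `F`.

Proof (no `q^{1/p}`, no transcendence of `t`):

* `eq_zero_of_sum_eq_zero_of_order_inj` : a finite sum of Laurent series whose nonzero terms have
  pairwise distinct orders vanishes only if every term vanishes;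
* `eq_zero_of_sum_pow_mul_pow` : `∑_{r<p} t^r s_r^p = 0`, `t ≠ 0`, `p ∤ ord t` ⟹ all `s_r = 0`;
* `isDec_of_mem` : every `f ∈ F` is `∑_{r<p} t^r c_r^p` with `c_r ∈ F`;
* `linearIndependent_pow_char` : an `F`-linearly independent finite family `(y_i)` of `k` has
  `(y_i^p)` `F`-linearly independent;
* `sepSeries` : an inseparable minimal polynomial is `g(Y^p)`, which is a linear relation among
  the `(x^i)^p`, `i ≤ deg g < deg minpoly`.
-/

set_option autoImplicit false

namespace Fermat.Agent.S44.H.SepSeries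

open Polynomial

/-! ### The order lemma in `κ((q))` -/

/-- **(O)** A finite sum of Laurent series whose nonzero terms have pairwise distinct orders
vanishes only if every term vanishes. -/
theorem eq_zero_of_sum_eq_zero_of_order_inj {κ : Type} [Field κ] {ι : Type} (s : Finset ι)
    (f : ι → LaurentSeries κ)
    (hinj : ∀ i ∈ s, ∀ j ∈ s, f i ≠ 0 → f j ≠ 0 → (f i).order = (f j).order → i = j)
    (hsum : ∑ i ∈ s, f i = 0) : ∀ i ∈ s, f i = 0 := by
  classical
  intro i₁ hi₁
  by_contra hfi₁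
  have hs' : (s.filter (fun i => f i ≠ 0)).Nonempty := ⟨i₁, Finset.mem_filter.2 ⟨hi₁, hfi₁⟩⟩
  obtain ⟨i₀, hi₀, hmin⟩ := Finset.exists_min_image _ (fun i => (f i).order) hs'
  obtain ⟨hi₀s, hfi₀⟩ := Finset.mem_filter.1 hi₀
  have hc : (∑ i ∈ s, f i).coeff (f i₀).order = (f i₀).coeff (f i₀).order := by
    rw [HahnSeries.coeff_sum]
    refine Finset.sum_eq_single_of_mem i₀ hi₀s ?_
    intro j hj hji
    by_cases hfj : f j = 0
    · simp [hfj]
    · have hle := hmin j (Finset.mem_filter.2 ⟨hj, hfj⟩)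
      exact HahnSeries.coeff_eq_zero_of_lt_order
        (lt_of_le_of_ne hle (fun h => hji (hinj j hj i₀ hi₀s hfj hfi₀ h.symm)))
  rw [hsum] at hc
  have hc0 : (f i₀).coeff (f i₀).order = 0 := by rw [← hc]; rfl
  exact hfi₀ (HahnSeries.coeff_order_eq_zero.1 hc0)

/-- **(O')** `∑_{r<p} t^r s_r^p = 0` with `t ≠ 0` and `p ∤ ord t` forces every `s_r = 0`. -/
theorem eq_zero_of_sum_pow_mul_pow {κ : Type} [Field κ] {p : ℕ} (hp : p.Prime)
    {t : LaurentSeries κ} (ht0 : t ≠ 0) (hpt : ¬ (p : ℤ) ∣ t.order) (s : ℕ → LaurentSeries κ)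
    (hsum : ∑ r ∈ Finset.range p, t ^ r * s r ^ p = 0) : ∀ r ∈ Finset.range p, s r = 0 := by
  have h := eq_zero_of_sum_eq_zero_of_order_inj (Finset.range p) (fun r => t ^ r * s r ^ p) ?_ hsum
  · intro r hr
    rcases mul_eq_zero.1 (h r hr) with h1 | h1
    · exact absurd h1 (pow_ne_zero _ ht0)
    · exact pow_eq_zero_iff hp.ne_zero |>.1 h1
  · intro i hi j hj hfi hfj hord
    have hsi : s i ≠ 0 := fun h0 => hfi (by simp [h0, hp.ne_zero])
    have hsj : s j ≠ 0 := fun h0 => hfj (by simp [h0, hp.ne_zero])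
    rw [HahnSeries.order_mul (pow_ne_zero _ ht0) (pow_ne_zero _ hsi),
      HahnSeries.order_mul (pow_ne_zero _ ht0) (pow_ne_zero _ hsj)] at hord
    simp only [HahnSeries.order_pow, nsmul_eq_mul] at hord
    have hdvd : (p : ℤ) ∣ ((i : ℤ) - j) * t.order :=
      ⟨(s j).order - (s i).order, by linarith⟩
    have hpZ : Prime (p : ℤ) := Nat.prime_iff_prime_int.1 hp
    rcases hpZ.dvd_or_dvd hdvd with h1 | h1
    · have hi' := Finset.mem_range.1 hi
      have hj' := Finset.mem_range.1 hj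
      have h0 : (i : ℤ) - j = 0 := by
        apply Int.eq_zero_of_abs_lt_dvd h1
        rw [abs_lt]
        constructor <;> omega
      omega
    · exact absurd h1 hpt

/-! ### Decomposition of `κ₀(t)` along `1, t, …, t^{p-1}` over its `p`-th powers -/

section Decomp

variable {κ : Type} [Field κ] (k : Subfield (LaurentSeries κ)) (κ₀ : Subfield k) (t : k)

/-- `y = ∑_{r<p} t^r c_r^p` with all `c_r ∈ κ₀(t)`. -/
def IsDec (p : ℕ) (y : k) : Prop :=
  ∃ c : ℕ → k, (∀ r, c r ∈ IntermediateField.adjoin κ₀ {t}) ∧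
    y = ∑ r ∈ Finset.range p, t ^ r * c r ^ p

variable {k κ₀ t}

theorem isDec_zero {p : ℕ} (hp : p ≠ 0) : IsDec k κ₀ t p 0 :=
  ⟨fun _ => 0, fun _ => zero_mem _, by simp [hp]⟩

theorem IsDec.add {p : ℕ} [Fact p.Prime] [CharP k p] {y y' : k} (h : IsDec k κ₀ t p y)
    (h' : IsDec k κ₀ t p y') : IsDec k κ₀ t p (y + y') := by
  obtain ⟨c, hc, rfl⟩ := h
  obtain ⟨c', hc', rfl⟩ := h'
  refine ⟨fun r => c r + c' r, fun r => add_mem (hc r) (hc' r), ?_⟩
  rw [← Finset.sum_add_distrib]
  refine Finset.sum_congr rfl fun r _ => ?_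
  rw [add_pow_char, mul_add]

theorem IsDec.mul_pow {p : ℕ} {y w : k} (h : IsDec k κ₀ t p y)
    (hw : w ∈ IntermediateField.adjoin κ₀ {t}) : IsDec k κ₀ t p (y * w ^ p) := by
  obtain ⟨c, hc, rfl⟩ := h
  refine ⟨fun r => c r * w, fun r => mul_mem (hc r) hw, ?_⟩
  rw [Finset.sum_mul]
  refine Finset.sum_congr rfl fun r _ => ?_
  rw [_root_.mul_pow, mul_assoc]

theorem isDec_monomial {p : ℕ} (hp : p ≠ 0) (a' : κ₀) (n : ℕ) :
    IsDec k κ₀ t p (((a' : k)) ^ p * t ^ n) := by
  classical
  refine ⟨fun r => if r = n % p then (a' : k) * t ^ (n / p) else 0, fun r => ?_, ?_⟩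
  · by_cases hr : r = n % p
    · simp only [hr, if_true]
      exact mul_mem (IntermediateField.algebraMap_mem _ a')
        (pow_mem (IntermediateField.mem_adjoin_simple_self κ₀ t) _)
    · simp only [hr, if_false]
      exact zero_mem _
  · rw [Finset.sum_eq_single (n % p)]
    · simp only [if_true]
      rw [mul_pow, ← pow_mul, mul_left_comm, ← pow_add, Nat.mod_add_div']
    · intro r _ hr
      simp [hr, hp]
    · intro h
      exact absurd (Finset.mem_range.2 (Nat.mod_lt n (Nat.pos_of_ne_zero hp))) h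

end Decomp

/-! ### Frobenius keeps `κ₀(t)`-linear independence inside `k` -/

section Main

variable {κ : Type} [Field κ] {p : ℕ} {k : Subfield (LaurentSeries κ)} {κ₀ : Subfield k} {t : k}

/-- `p`-th roots in the field of constants `κ₀`. -/
theorem exists_pow_eq_const (hroot : ∀ c : κ, ∃ d : κ, d ^ p = c)
    (hκ₀ : ∀ x : k, x ∈ κ₀ ↔ ∃ c : κ, (x : LaurentSeries κ) = HahnSeries.C c)
    (hC : ∀ c : κ, HahnSeries.C c ∈ k) (a : κ₀) : ∃ a' : κ₀, ((a' : k)) ^ p = (a : k) := by
  obtain ⟨c, hc⟩ := (hκ₀ (a : k)).1 a.2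
  obtain ⟨d, hd⟩ := hroot c
  refine ⟨⟨⟨HahnSeries.C d, hC d⟩, (hκ₀ _).2 ⟨d, rfl⟩⟩, ?_⟩
  apply Subtype.ext
  rw [SubmonoidClass.coe_pow]
  show (HahnSeries.C d) ^ p = _
  rw [hc, ← map_pow, hd]

/-- Polynomials in `t` over `κ₀` decompose along `1, t, …, t^{p-1}`. -/
theorem isDec_aeval [Fact p.Prime] [CharP k p] (hroot : ∀ c : κ, ∃ d : κ, d ^ p = c)
    (hκ₀ : ∀ x : k, x ∈ κ₀ ↔ ∃ c : κ, (x : LaurentSeries κ) = HahnSeries.C c)
    (hC : ∀ c : κ, HahnSeries.C c ∈ k) (A : Polynomial κ₀) :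
    IsDec k κ₀ t p (Polynomial.aeval t A) := by
  induction A using Polynomial.induction_on' with
  | add A B hA hB =>
    rw [map_add]
    exact hA.add hB
  | monomial n a =>
    obtain ⟨a', ha'⟩ := exists_pow_eq_const hroot hκ₀ hC a
    rw [Polynomial.aeval_monomial]
    have h1 : algebraMap κ₀ k a = (a' : k) ^ p := ha'.symm
    rw [h1]
    exact isDec_monomial (Fact.out : p.Prime).ne_zero a' n

/-- **(C)** Every element of `κ₀(t)` is `∑_{r<p} t^r c_r^p` with `c_r ∈ κ₀(t)`. -/
theorem isDec_of_mem [Fact p.Prime] [CharP k p] (hroot : ∀ c : κ, ∃ d : κ, d ^ p = c)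
    (hκ₀ : ∀ x : k, x ∈ κ₀ ↔ ∃ c : κ, (x : LaurentSeries κ) = HahnSeries.C c)
    (hC : ∀ c : κ, HahnSeries.C c ∈ k) {f : k}
    (hf : f ∈ IntermediateField.adjoin κ₀ {t}) : IsDec k κ₀ t p f := by
  have hp0 : p ≠ 0 := (Fact.out : p.Prime).ne_zero
  obtain ⟨r, s, rfl⟩ := (IntermediateField.mem_adjoin_simple_iff κ₀ f).1 hf
  by_cases hs : Polynomial.aeval t s = 0
  · rw [hs, div_zero]
    exact isDec_zero hp0
  · have hw : (Polynomial.aeval t s)⁻¹ ∈ IntermediateField.adjoin κ₀ {t} := by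
      rw [IntermediateField.mem_adjoin_simple_iff]
      exact ⟨1, s, by simp⟩
    have h1 := (isDec_aeval (t := t) hroot hκ₀ hC (r * s ^ (p - 1))).mul_pow hw
    have hpow : (Polynomial.aeval t s) ^ (p - 1) * Polynomial.aeval t s
        = (Polynomial.aeval t s) ^ p := by
      rw [← pow_succ, Nat.sub_add_cancel (Nat.one_le_iff_ne_zero.2 hp0)]
    have hS : (Polynomial.aeval t s) ^ p ≠ 0 := pow_ne_zero _ hs
    have heq : Polynomial.aeval t r / Polynomial.aeval t s
        = Polynomial.aeval t (r * s ^ (p - 1)) * ((Polynomial.aeval t s)⁻¹) ^ p := by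
      rw [div_eq_iff hs, inv_pow, map_mul, map_pow]
      calc Polynomial.aeval t r
          = Polynomial.aeval t r * ((Polynomial.aeval t s) ^ p * ((Polynomial.aeval t s) ^ p)⁻¹) := by
            rw [mul_inv_cancel₀ hS, mul_one]
        _ = Polynomial.aeval t r * (Polynomial.aeval t s) ^ (p - 1)
              * ((Polynomial.aeval t s) ^ p)⁻¹ * Polynomial.aeval t s := by
            rw [← hpow]
            ring
    rw [heq]
    exact h1

/-- **(B)** An `F`-linearly independent finite family of `k` stays `F`-linearly independent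
after raising to the `p`-th power (`F = κ₀(t)`, `p ∤ ord t`). -/
theorem linearIndependent_pow_char [Fact p.Prime] [CharP k p]
    (hroot : ∀ c : κ, ∃ d : κ, d ^ p = c)
    (hκ₀ : ∀ x : k, x ∈ κ₀ ↔ ∃ c : κ, (x : LaurentSeries κ) = HahnSeries.C c)
    (hC : ∀ c : κ, HahnSeries.C c ∈ k)
    (ht0 : (t : LaurentSeries κ) ≠ 0) (hpt : ¬ (p : ℤ) ∣ (t : LaurentSeries κ).order)
    {n : ℕ} (y : Fin n → k) (hy : LinearIndependent (IntermediateField.adjoin κ₀ {t}) y) :
    LinearIndependent (IntermediateField.adjoin κ₀ {t}) (fun i => y i ^ p) := by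
  have hp : p.Prime := Fact.out
  rw [Fintype.linearIndependent_iff] at hy ⊢
  intro g hg i
  have hdec : ∀ i, IsDec k κ₀ t p ((g i : k)) := fun i => isDec_of_mem hroot hκ₀ hC (g i).2
  choose c hcF hcEq using hdec
  have hrel : ∑ r ∈ Finset.range p, t ^ r * (∑ i, c i r * y i) ^ p = 0 := by
    rw [← hg]
    simp only [sum_pow_char, mul_pow, Finset.mul_sum]
    rw [Finset.sum_comm]
    refine Finset.sum_congr rfl fun i _ => ?_
    rw [Algebra.smul_def]
    show _ = (g i : k) * y i ^ p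
    rw [hcEq i, Finset.sum_mul]
    refine Finset.sum_congr rfl fun r _ => ?_
    ring
  have hrel' : ∑ r ∈ Finset.range p, (t : LaurentSeries κ) ^ r
      * ((∑ i, c i r * y i : k) : LaurentSeries κ) ^ p = 0 := by
    have h := congrArg (fun z : k => (z : LaurentSeries κ)) hrel
    simpa using h
  have hzero := eq_zero_of_sum_pow_mul_pow hp ht0 hpt
    (fun r => ((∑ i, c i r * y i : k) : LaurentSeries κ)) hrel'
  have hc0 : ∀ r ∈ Finset.range p, ∀ i, c i r = 0 := by
    intro r hr i
    have h1 : (∑ i, c i r * y i : k) = 0 := Subtype.ext (hzero r hr)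
    have h2 := hy (fun i => ⟨c i r, hcF i r⟩) (by
      rw [← h1]
      refine Finset.sum_congr rfl fun i _ => ?_
      rw [Algebra.smul_def]
      rfl) i
    exact congrArg Subtype.val h2
  have h3 : (g i : k) = 0 := by
    rw [hcEq i]
    refine Finset.sum_eq_zero fun r hr => ?_
    rw [hc0 r hr i, zero_pow hp.ne_zero, mul_zero]
  exact Subtype.ext h3

/-- **(H.3b)** `SepSeriesStatement`: a subfield of `κ((q))` algebraic over `κ₀(t)`, `p ∤ ord t`,
is separable over `κ₀(t)`. -/
theorem sepSeries : SepSeriesStatement := by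
  intro κ _ p _ hp hroot k κ₀ t hκ₀ hC ht0 hpt halg
  haveI : Fact p.Prime := ⟨hp⟩
  haveI hL : CharP (LaurentSeries κ) p :=
    charP_of_injective_ringHom (f := (HahnSeries.C : κ →+* LaurentSeries κ))
      HahnSeries.C_injective p
  haveI hk : CharP k p := (RingHom.charP_iff k.subtype Subtype.val_injective p).2 hL
  haveI hF : CharP (IntermediateField.adjoin κ₀ {t}) p :=
    (Algebra.charP_iff (IntermediateField.adjoin κ₀ {t}) k p).2 hk
  rw [Algebra.isSeparable_def]
  intro x
  have hx : IsIntegral (IntermediateField.adjoin κ₀ {t}) x := (halg.isAlgebraic x).isIntegral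
  rcases Polynomial.separable_or p (minpoly.irreducible hx) with h | ⟨_, g, hg, hgm⟩
  · exact h
  · exfalso
    have hgx : Polynomial.aeval (x ^ p) g = 0 := by
      rw [← Polynomial.expand_aeval, hgm, minpoly.aeval]
    have hdeg : (minpoly (IntermediateField.adjoin κ₀ {t}) x).natDegree = g.natDegree * p := by
      rw [← hgm, Polynomial.natDegree_expand]
    have hd1 : 0 < g.natDegree := by
      have h0 := minpoly.natDegree_pos hx
      rw [hdeg] at h0
      exact Nat.pos_of_mul_pos_right h0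
    have hle : g.natDegree + 1 ≤ (minpoly (IntermediateField.adjoin κ₀ {t}) x).natDegree := by
      rw [hdeg]
      nlinarith [hp.two_le]
    have hli : LinearIndependent (IntermediateField.adjoin κ₀ {t})
        (fun i : Fin (g.natDegree + 1) => x ^ (i : ℕ)) :=
      (linearIndependent_pow (K := IntermediateField.adjoin κ₀ {t}) x).comp (Fin.castLE hle)
        (Fin.castLE_injective hle)
    have hB := linearIndependent_pow_char hroot hκ₀ hC ht0 hpt _ hli
    rw [Fintype.linearIndependent_iff] at hB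
    have hrel : ∑ i : Fin (g.natDegree + 1), g.coeff (i : ℕ) • (x ^ (i : ℕ)) ^ p = 0 := by
      rw [← hgx, Polynomial.aeval_eq_sum_range, Finset.sum_range]
      refine Finset.sum_congr rfl fun i _ => ?_
      rw [← pow_mul, ← pow_mul, mul_comm]
    have h0 := hB (fun i => g.coeff (i : ℕ)) hrel (Fin.last _)
    simp only [Fin.val_last] at h0
    exact hg.ne_zero (Polynomial.leadingCoeff_eq_zero.1 h0)

end Main

end Fermat.Agent.S44.H.SepSeries
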