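import Mathlib
import Fermat.Agent.S44.H.Bricks
import Fermat.Agent.S44.L.Hecke

/-!
# PROGRAM MR (S44), strand H, row H.2: `HeckeMemStatement`

The multiplicative Hecke operator `T_ℓ` (`ℓ ∤ N' p`) on `κ((q))` preserves the reduced function
field `redField N' A` (helper142).

* `mem_redField_iff : x ∈ redField N A ↔ x ∈ redSet N A` — the set `redSet N A` of reductions
  `Ū / V̄` of quotients of integral `q`-series of `Fb N` is already a subfield of `κ((q))`
  (`redSubfield`), so the `Subfield.closure` in the definition of `redField` adds nothing;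
* `exists_of_mem_redField` : the same, as an existence statement (witnesses `U`, `V`);
* `heckeMul_ne_zero` : `T_ℓ` of a nonzero series is nonzero (field coefficients);
* `heckeMem : HeckeMemStatement`.

Proof of `heckeMem`: for `b = Ū / V̄`, `T_ℓ b = red (T_ℓ U) / red (T_ℓ V)` where `T_ℓ` on
`A((q))` uses the unit `Congr.unitA` of the chosen primitive `ℓ`-th root of unity `E4.zetaU ℓ`
(its residue is still primitive since `ℓ ≠ p`: `L.Hecke.isPrimitiveRoot_residue`), `T_ℓ U` and
`T_ℓ V` lie in `Fb N'` (`HeckeGood.heckeMul_mem_modularFunctionFieldBar`, `ℓ ∤ N'`), and the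
operator does not depend on the primitive root (`HeckeGood.heckeMul_eq_of_isPrimitiveRoot`).
-/

set_option autoImplicit false

open HahnSeries ModularCurve

namespace Fermat.Agent.S44.H.HeckeMem

open Fermat.Agent.S30 Fermat.Agent.S30.Producer Fermat.Agent.S44.Contract

/-! ### `redSet` is a subfield -/

section RedSet

variable (N : ℕ) (A : ValuationSubring Qb)

theorem zero_mem_redSet : (0 : LaurentSeries (IsLocalRing.ResidueField A)) ∈ redSet N A := by
  refine ⟨0, 1, ?_, ?_, ?_, ?_⟩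
  · rw [map_zero]
    exact zero_mem _
  · rw [map_one]
    exact one_mem _
  · rw [map_one]
    exact one_ne_zero
  · rw [zero_mul, map_zero]

theorem one_mem_redSet : (1 : LaurentSeries (IsLocalRing.ResidueField A)) ∈ redSet N A := by
  refine ⟨1, 1, ?_, ?_, ?_, ?_⟩
  · rw [map_one]
    exact one_mem _
  · rw [map_one]
    exact one_mem _
  · rw [map_one]
    exact one_ne_zero
  · rw [one_mul]

variable {N A}

theorem add_mem_redSet {x y : LaurentSeries (IsLocalRing.ResidueField A)}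
    (hx : x ∈ redSet N A) (hy : y ∈ redSet N A) : x + y ∈ redSet N A := by
  obtain ⟨U₁, V₁, hU₁, hV₁, hV₁0, h₁⟩ := hx
  obtain ⟨U₂, V₂, hU₂, hV₂, hV₂0, h₂⟩ := hy
  refine ⟨U₁ * V₂ + U₂ * V₁, V₁ * V₂, ?_, ?_, ?_, ?_⟩
  · rw [map_add, map_mul, map_mul]
    exact add_mem (mul_mem hU₁ hV₂) (mul_mem hU₂ hV₁)
  · rw [map_mul]
    exact mul_mem hV₁ hV₂
  · rw [map_mul]
    exact mul_ne_zero hV₁0 hV₂0
  · rw [map_mul, map_add, map_mul, map_mul, ← h₁, ← h₂]
    ring

theorem neg_mem_redSet {x : LaurentSeries (IsLocalRing.ResidueField A)}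
    (hx : x ∈ redSet N A) : -x ∈ redSet N A := by
  obtain ⟨U, V, hU, hV, hV0, h⟩ := hx
  refine ⟨-U, V, ?_, hV, hV0, ?_⟩
  · rw [map_neg]
    exact neg_mem hU
  · rw [map_neg, ← h, neg_mul]

theorem mul_mem_redSet {x y : LaurentSeries (IsLocalRing.ResidueField A)}
    (hx : x ∈ redSet N A) (hy : y ∈ redSet N A) : x * y ∈ redSet N A := by
  obtain ⟨U₁, V₁, hU₁, hV₁, hV₁0, h₁⟩ := hx
  obtain ⟨U₂, V₂, hU₂, hV₂, hV₂0, h₂⟩ := hy
  refine ⟨U₁ * U₂, V₁ * V₂, ?_, ?_, ?_, ?_⟩
  · rw [map_mul]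
    exact mul_mem hU₁ hU₂
  · rw [map_mul]
    exact mul_mem hV₁ hV₂
  · rw [map_mul]
    exact mul_ne_zero hV₁0 hV₂0
  · rw [map_mul, map_mul, ← h₁, ← h₂]
    ring

theorem inv_mem_redSet {x : LaurentSeries (IsLocalRing.ResidueField A)}
    (hx : x ∈ redSet N A) : x⁻¹ ∈ redSet N A := by
  obtain ⟨U, V, hU, hV, hV0, h⟩ := hx
  by_cases hU0 : Congr.red A U = 0
  · have hx0 : x = 0 := by
      rw [hU0] at h
      rcases mul_eq_zero.1 h with h' | h'
      · exact h'
      · exact absurd h' hV0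
    rw [hx0, inv_zero]
    exact zero_mem_redSet N A
  · have hx0 : x ≠ 0 := by
      rintro rfl
      rw [zero_mul] at h
      exact hU0 h.symm
    refine ⟨V, U, hV, hU, hU0, ?_⟩
    rw [← h, ← mul_assoc, inv_mul_cancel₀ hx0, one_mul]

variable (N A)

/-- The reductions of quotients of integral `q`-series of `Fb N`, as a subfield of `κ((q))`. -/
noncomputable def redSubfield : Subfield (LaurentSeries (IsLocalRing.ResidueField A)) where
  carrier := redSet N A
  mul_mem' := fun hx hy => mul_mem_redSet hx hy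
  one_mem' := one_mem_redSet N A
  add_mem' := fun hx hy => add_mem_redSet hx hy
  zero_mem' := zero_mem_redSet N A
  neg_mem' := fun hx => neg_mem_redSet hx
  inv_mem' := fun _ hx => inv_mem_redSet hx

theorem mem_redSubfield {x : LaurentSeries (IsLocalRing.ResidueField A)} :
    x ∈ redSubfield N A ↔ x ∈ redSet N A := Iff.rfl

/-- The reduced function field is the subfield `redSubfield` of reductions. -/
theorem redField_eq_redSubfield : redField N A = redSubfield N A :=
  le_antisymm (Subfield.closure_le.2 fun _ hx => hx) fun _ hx => Subfield.subset_closure hx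

variable {N A}

/-- **`redField = redSet`**: every element of the reduced function field is the reduction
`Ū / V̄` of a quotient of integral `q`-series of `Fb N`. -/
theorem mem_redField_iff {x : LaurentSeries (IsLocalRing.ResidueField A)} :
    x ∈ redField N A ↔ x ∈ redSet N A := by
  rw [redField_eq_redSubfield]
  exact Iff.rfl

/-- Witness form of `mem_redField_iff`. -/
theorem exists_of_mem_redField {x : LaurentSeries (IsLocalRing.ResidueField A)}
    (hx : x ∈ redField N A) :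
    ∃ U V : LaurentSeries A, Congr.incl A U ∈ E4.Fb N ∧ Congr.incl A V ∈ E4.Fb N ∧
      Congr.red A V ≠ 0 ∧ x * Congr.red A V = Congr.red A U :=
  mem_redField_iff.1 hx

/-- Membership from witnesses. -/
theorem mem_redField_of_red {x : LaurentSeries (IsLocalRing.ResidueField A)}
    {U V : LaurentSeries A} (hU : Congr.incl A U ∈ E4.Fb N) (hV : Congr.incl A V ∈ E4.Fb N)
    (hV0 : Congr.red A V ≠ 0) (h : x * Congr.red A V = Congr.red A U) : x ∈ redField N A :=
  mem_redField_iff.2 ⟨U, V, hU, hV, hV0, h⟩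

end RedSet

/-! ### The Hecke operator on `κ((q))` -/

/-- Over a field, the multiplicative Hecke operator maps nonzero series to nonzero series. -/
theorem heckeMul_ne_zero {K : Type*} [Field K] {ℓ : ℕ} (hℓ : 0 < ℓ) {z : Kˣ}
    (hz : IsPrimitiveRoot z ℓ) {f : LaurentSeries K} (hf : f ≠ 0) :
    Congr.heckeMul ℓ hℓ z f ≠ 0 := by
  intro h0
  have h1 := Congr.heckeMul_mul ℓ hℓ z hz f f⁻¹
  have h2 : Congr.heckeMul ℓ hℓ z (1 : LaurentSeries K) = 1 :=
    map_one (Congr.heckeMulHom ℓ hℓ z hz)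
  rw [mul_inv_cancel₀ hf, h0, zero_mul, h2] at h1
  exact one_ne_zero h1

/-- Reduction commutes with the multiplicative Hecke operator. -/
theorem red_heckeMul (A : ValuationSubring Qb) {ℓ : ℕ} (hℓ : 0 < ℓ) (z : Aˣ)
    (U : LaurentSeries A) :
    Congr.red A (Congr.heckeMul ℓ hℓ z U) =
      Congr.heckeMul ℓ hℓ
        (Units.map ((IsLocalRing.residue A : A →+* IsLocalRing.ResidueField A) :
          A →* IsLocalRing.ResidueField A) z) (Congr.red A U) :=
  Congr.coeffMap_heckeMul (IsLocalRing.residue A) ℓ hℓ z U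

/-- **(H.2)** `T_ℓ` preserves the reduced function field of level `N'` (`ℓ ∤ N' p`). -/
theorem heckeMem : HeckeMemStatement := by
  intro p N' _ hp _ A hA ℓ hℓ hℓN z hz b hb
  have : Fact p.Prime := ⟨hp⟩
  have hℓN' : ¬ ℓ ∣ N' := fun h => hℓN (Dvd.dvd.mul_right h p)
  have hℓp : ℓ ≠ p := fun h => hℓN (h ▸ Dvd.intro_left N' rfl)
  have hζ : IsPrimitiveRoot (E4.zetaU ℓ) ℓ := E4.zetaU_spec hℓ.pos
  have hζ' : IsPrimitiveRoot ((E4.zetaU ℓ : Qbˣ) : Qb) ℓ := IsPrimitiveRoot.coe_units_iff.2 hζ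
  have h1 : ((E4.zetaU ℓ : Qbˣ) : Qb) ^ ℓ = 1 := hζ'.pow_eq_one
  have hzb := Fermat.Agent.S44.L.Hecke.isPrimitiveRoot_residue A hA hℓ hℓp hζ' h1
  rw [HeckeGood.heckeMul_eq_of_isPrimitiveRoot hℓ.pos hz hzb]
  obtain ⟨U, V, hU, hV, hV0, hbV⟩ := exists_of_mem_redField hb
  refine mem_redField_of_red (U := Congr.heckeMul ℓ hℓ.pos (Congr.unitA A hℓ.pos h1) U)
    (V := Congr.heckeMul ℓ hℓ.pos (Congr.unitA A hℓ.pos h1) V) ?_ ?_ ?_ ?_
  · rw [Congr.incl_heckeMul A hℓ.pos (E4.zetaU ℓ) h1]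
    exact HeckeGood.heckeMul_mem_modularFunctionFieldBar N' hℓ hℓN' hζ hU
  · rw [Congr.incl_heckeMul A hℓ.pos (E4.zetaU ℓ) h1]
    exact HeckeGood.heckeMul_mem_modularFunctionFieldBar N' hℓ hℓN' hζ hV
  · rw [red_heckeMul]
    exact heckeMul_ne_zero hℓ.pos hzb hV0
  · rw [red_heckeMul, red_heckeMul, ← Congr.heckeMul_mul ℓ hℓ.pos _ hzb, hbV]

end Fermat.Agent.S44.H.HeckeMem
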