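import Mathlib
import Fermat.Agent.S44.H.Bricks
import Fermat.Agent.S24.Modular.M3

/-!
# PROGRAM MR (S44), strand H, row MR.H.3, leaf (R): relations over `ℚ̄[j]` reduce (helper7)

`N` a level, `A` a valuation subring of `ℚ̄`, `κ` its residue field.  More than
`[F_N : ℚ̄(j)]` integral `q`-series `Y i` with `incl (Y i) ∈ F_N` satisfy a nontrivial relation
`∑ P_i(j̄) · red (Y i) = 0` with `P_i ∈ κ[X]` (`exists_relation_int`): a `ℚ̄(j)`-dependence,
denominators cleared, is scaled by a coefficient of maximal valuation to a relation over `A[X]`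
with one coefficient equal to `1` (`exists_scale`), and reduced.
-/

set_option autoImplicit false

open HahnSeries ModularCurve Polynomial

namespace Fermat.Agent.S44.H.RedRel

open Fermat.Agent.S30 Fermat.Agent.S30.Producer

/-! ### Scaling a finite family of polynomials into a valuation subring -/

/-- A finite family of polynomials over `K`, not all zero, can be scaled by a nonzero constant
so that all coefficients lie in the valuation subring `A` and one of them is `1`. -/
theorem exists_scale {K : Type*} [Field K] (A : ValuationSubring K) {ι : Type*} [Fintype ι]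
    (R : ι → Polynomial K) (h : ∃ i, R i ≠ 0) :
    ∃ (a : K) (Q : ι → Polynomial A), a ≠ 0 ∧
      (∀ i, (Q i).map A.subtype = Polynomial.C a * R i) ∧ ∃ i n, (Q i).coeff n = 1 := by
  classical
  obtain ⟨i₀, hi₀⟩ := h
  let T : Finset (Σ _ : ι, ℕ) := Finset.univ.sigma fun i => (R i).support
  have hT : T.Nonempty := by
    obtain ⟨n, hn⟩ := Polynomial.nonempty_support_iff.mpr hi₀
    exact ⟨⟨i₀, n⟩, Finset.mem_sigma.mpr ⟨Finset.mem_univ _, hn⟩⟩
  obtain ⟨⟨i₁, n₁⟩, hmem, hmax⟩ :=
    Finset.exists_max_image T (fun x => A.valuation ((R x.1).coeff x.2)) hT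
  have hb : (R i₁).coeff n₁ ≠ 0 := Polynomial.mem_support_iff.mp (Finset.mem_sigma.mp hmem).2
  have hvb : 0 < A.valuation ((R i₁).coeff n₁) := (Valuation.pos_iff _).mpr hb
  have hlift : ∀ i, Polynomial.C ((R i₁).coeff n₁)⁻¹ * R i ∈ Polynomial.lifts A.subtype := by
    intro i
    rw [Polynomial.lifts_iff_coeff_lifts]
    intro n
    rw [Polynomial.coeff_C_mul]
    have hA : ((R i₁).coeff n₁)⁻¹ * (R i).coeff n ∈ A := by
      by_cases hn : n ∈ (R i).support
      · have h1 := hmax ⟨i, n⟩ (Finset.mem_sigma.mpr ⟨Finset.mem_univ _, hn⟩)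
        rw [← A.valuation_le_one_iff, map_mul, map_inv₀]
        exact (inv_mul_le_one₀ hvb).mpr h1
      · rw [Polynomial.notMem_support_iff.mp hn, mul_zero]
        exact A.zero_mem
    exact ⟨⟨_, hA⟩, rfl⟩
  choose Q hQ using fun i => (Polynomial.mem_lifts _).mp (hlift i)
  refine ⟨((R i₁).coeff n₁)⁻¹, Q, inv_ne_zero hb, hQ, i₁, n₁, ?_⟩
  apply Subtype.ext
  have h2 := congrArg (fun p : Polynomial K => p.coeff n₁) (hQ i₁)
  simp only [Polynomial.coeff_map, Polynomial.coeff_C_mul] at h2
  rw [inv_mul_cancel₀ hb] at h2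
  exact h2

/-! ### The reductions of `j` -/

variable (A : ValuationSubring Qb)

theorem incl_jqModC : Congr.incl A (jqModC A) = jqModC Qb :=
  map_jqModC A.subtype

theorem red_jqModC :
    Congr.red A (jqModC A) = jqModC (IsLocalRing.ResidueField A) :=
  map_jqModC (IsLocalRing.residue A)

theorem incl_C (a : A) : Congr.incl A (HahnSeries.C a) = HahnSeries.C (a : Qb) :=
  coeffMap_single A.subtype 0 a

theorem red_C (a : A) :
    Congr.red A (HahnSeries.C a) = HahnSeries.C (IsLocalRing.residue A a) :=
  coeffMap_single (IsLocalRing.residue A) 0 a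

/-- `incl` of a polynomial in `j` with coefficients in `A`. -/
theorem incl_eval₂ (Q : Polynomial A) :
    Congr.incl A (Q.eval₂ HahnSeries.C (jqModC A)) =
      (Q.map A.subtype).eval₂ HahnSeries.C (jqModC Qb) := by
  rw [Polynomial.hom_eval₂, Polynomial.eval₂_map, incl_jqModC]
  congr 1
  exact RingHom.ext fun a => incl_C A a

/-- `red` of a polynomial in `j` with coefficients in `A`. -/
theorem red_eval₂ (Q : Polynomial A) :
    Congr.red A (Q.eval₂ HahnSeries.C (jqModC A)) =
      (Q.map (IsLocalRing.residue A)).eval₂ HahnSeries.C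
        (jqModC (IsLocalRing.ResidueField A)) := by
  rw [Polynomial.hom_eval₂, Polynomial.eval₂_map, red_jqModC]
  congr 1
  exact RingHom.ext fun a => red_C A a

/-- The coercion of a polynomial in `j ∈ F_N`. -/
theorem coe_aeval_jF (N : ℕ) (R : Polynomial Qb) :
    ((Polynomial.aeval (S24.Modular.jF N) R : FN N) : LaurentSeries Qb) =
      R.eval₂ HahnSeries.C (jqModC Qb) := by
  have h1 : ((Polynomial.aeval (S24.Modular.jF N) R : FN N) : LaurentSeries Qb) =
      Polynomial.aeval ((S24.Modular.jF N : FN N) : LaurentSeries Qb) R :=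
    (Polynomial.aeval_algHom_apply (modularFunctionFieldBar N).val (S24.Modular.jF N) R).symm
  have hC : algebraMap Qb (LaurentSeries Qb) = (HahnSeries.C : Qb →+* LaurentSeries Qb) := by
    ext1 c
    rw [algebraMap_laurentSeries_eq_single, HahnSeries.C_apply]
  have hj : ((S24.Modular.jF N : FN N) : LaurentSeries Qb) = jqModC Qb := by
    show coeffEmb Qb jq = jqModC Qb
    rw [← jqModC_rat]
    exact map_jqModC (algebraMap ℚ Qb)
  rw [h1, Polynomial.aeval_def, hC, hj]

/-! ### The relation -/

/-- **Leaf (R) of MR.H.3.**  More than `[F_N : ℚ̄(j)]` integral `q`-series of `F_N` satisfy a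
nontrivial polynomial relation over `κ[j̄]` after reduction. -/
theorem exists_relation_int (N : ℕ) [NeZero N] (A : ValuationSubring Qb) {ι : Type} [Fintype ι]
    (hcard : Module.finrank (IntermediateField.adjoin Qb {S24.Modular.jF N}) (FN N)
      < Fintype.card ι)
    (Y : ι → LaurentSeries A) (hY : ∀ i, Congr.incl A (Y i) ∈ E4.Fb N) :
    ∃ P : ι → Polynomial (IsLocalRing.ResidueField A), (∃ i, P i ≠ 0) ∧
      ∑ i, (P i).eval₂ HahnSeries.C (jqModC (IsLocalRing.ResidueField A)) * Congr.red A (Y i)
        = 0 := by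
  classical
  -- the elements of `F_N`
  let y : ι → FN N := fun i => ⟨Congr.incl A (Y i), hY i⟩
  have hfin : Module.Finite (IntermediateField.adjoin Qb {S24.Modular.jF N}) (FN N) :=
    S24.Modular.finite_jF N
  have hdep : ¬ LinearIndependent (IntermediateField.adjoin Qb {S24.Modular.jF N}) y := by
    intro hli
    have := hli.fintype_card_le_finrank
    omega
  obtain ⟨g, hg, i₀, hi₀⟩ := Fintype.not_linearIndependent_iff.mp hdep
  -- numerators and denominators
  have key : ∀ i, ∃ r s : Polynomial Qb, Polynomial.aeval (S24.Modular.jF N) s ≠ 0 ∧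
      ((g i : IntermediateField.adjoin Qb {S24.Modular.jF N}) : FN N) *
        Polynomial.aeval (S24.Modular.jF N) s = Polynomial.aeval (S24.Modular.jF N) r := by
    intro i
    obtain ⟨r, s, hrs⟩ := (IntermediateField.mem_adjoin_simple_iff Qb _).mp (g i).2
    by_cases hs : Polynomial.aeval (S24.Modular.jF N) s = 0
    · refine ⟨0, 1, by simp, ?_⟩
      rw [hrs, hs, div_zero, zero_mul, map_zero]
    · exact ⟨r, s, hs, by rw [hrs, div_mul_cancel₀ _ hs]⟩
  choose r s hs hrs using key
  -- clear denominators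
  let R : ι → Polynomial Qb := fun i => r i * ∏ k ∈ Finset.univ.erase i, s k
  have hD : (∏ k, Polynomial.aeval (S24.Modular.jF N) (s k)) ≠ 0 :=
    Finset.prod_ne_zero_iff.mpr fun k _ => hs k
  have hR : ∀ i, Polynomial.aeval (S24.Modular.jF N) (R i) =
      ((g i : IntermediateField.adjoin Qb {S24.Modular.jF N}) : FN N) *
        ∏ k, Polynomial.aeval (S24.Modular.jF N) (s k) := by
    intro i
    rw [map_mul, map_prod, ← hrs i, mul_assoc,
      Finset.mul_prod_erase Finset.univ (fun k => Polynomial.aeval (S24.Modular.jF N) (s k))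
        (Finset.mem_univ i)]
  have hRne : R i₀ ≠ 0 := by
    intro h0
    have h1 := hR i₀
    rw [h0, map_zero] at h1
    rcases mul_eq_zero.mp h1.symm with h2 | h2
    · exact hi₀ (Subtype.ext h2)
    · exact hD h2
  have hsum : ∑ i, Polynomial.aeval (S24.Modular.jF N) (R i) * y i = 0 := by
    have h1 : ∑ i, Polynomial.aeval (S24.Modular.jF N) (R i) * y i =
        (∏ k, Polynomial.aeval (S24.Modular.jF N) (s k)) * ∑ i, g i • y i := by
      rw [Finset.mul_sum]
      refine Finset.sum_congr rfl fun i _ => ?_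
      rw [hR i, Algebra.smul_def, IntermediateField.algebraMap_apply]
      ring
    rw [h1, hg, mul_zero]
  -- scale into `A`
  obtain ⟨a, Q, ha, hQ, i₁, n₁, h1⟩ := exists_scale A R ⟨i₀, hRne⟩
  -- the integral relation
  have hZ : ∑ i, (Q i).eval₂ HahnSeries.C (jqModC A) * Y i = 0 := by
    apply Congr.incl_injective A
    rw [map_zero, map_sum]
    have h2 : ∀ i, Congr.incl A ((Q i).eval₂ HahnSeries.C (jqModC A) * Y i) =
        HahnSeries.C a * ((Polynomial.aeval (S24.Modular.jF N) (R i) * y i : FN N) :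
          LaurentSeries Qb) := by
      intro i
      rw [map_mul, incl_eval₂, hQ i, Polynomial.eval₂_mul, Polynomial.eval₂_C,
        MulMemClass.coe_mul, coe_aeval_jF, mul_assoc]
    rw [Finset.sum_congr rfl fun i _ => h2 i, ← Finset.mul_sum]
    have h3 : (∑ i, ((Polynomial.aeval (S24.Modular.jF N) (R i) * y i : FN N) :
        LaurentSeries Qb)) = ((∑ i, Polynomial.aeval (S24.Modular.jF N) (R i) * y i : FN N) :
          LaurentSeries Qb) := by
      rw [AddSubmonoidClass.coe_finsetSum]
    rw [h3, hsum]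
    simp
  -- reduce
  refine ⟨fun i => (Q i).map (IsLocalRing.residue A), ⟨i₁, fun h0 => ?_⟩, ?_⟩
  · have h2 := congrArg (fun p : Polynomial (IsLocalRing.ResidueField A) => p.coeff n₁) h0
    simp only [Polynomial.coeff_map, Polynomial.coeff_zero] at h2
    rw [h1, map_one] at h2
    exact one_ne_zero h2
  · have h2 := congrArg (Congr.red A) hZ
    rw [map_zero, map_sum] at h2
    rw [← h2]
    refine Finset.sum_congr rfl fun i _ => ?_
    rw [map_mul, red_eval₂]

end Fermat.Agent.S44.H.RedRel
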