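import Mathlib
import Fermat.Agent.S44.H.Bricks
import Fermat.Agent.S44.H.RedRel
import Fermat.Agent.S44.H.HeckeMem
import Fermat.Agent.S37.ConstEnd

/-!
# PROGRAM MR (S44), strand H, row MR.H.3: `RedFinStatement` (helper172)

The structure of the reduced function field `redField N A ⊆ κ((q))` (`A` a valuation subring of
`ℚ̄`, `κ` its residue field, `j̄ = jqModC κ`):

* it contains the constants `κ` and `j̄` (`C_mem_redSet`, `jqModC_mem_redSet`);
* the constants form an infinite subfield `κ₀` (`κ` is algebraically closed: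
  `S37.ConstEnd.isAlgClosed_residueField`);
* it is finite-dimensional over `κ₀(j̄)`, of degree at most `n = [F_N : ℚ̄(j)]`: more than `n`
  elements of the reduced set satisfy a nontrivial relation over `κ[j̄]`
  (`exists_relation_redSet`, from helper7's leaf `RedRel.exists_relation_int` by a common
  denominator), `j̄` is transcendental over `κ` (it has a pole), and every element of
  `redField N A` lies in the reduced set (`HeckeMem.mem_redField_iff`, helper142).

No hypothesis on the residue characteristic is used: `redFin_aux` holds for every valuation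
subring `A` of `ℚ̄` and every level `N ≠ 0`.
-/

set_option autoImplicit false

open HahnSeries ModularCurve Polynomial

namespace Fermat.Agent.S44.H.RedFin

open Fermat.Agent.S30 Fermat.Agent.S30.Producer Fermat.Agent.S44.Contract

variable (A : ValuationSubring Qb)

local notation "κ" => IsLocalRing.ResidueField A

/-! ### Constants and `j̄` lie in the reduced set -/

theorem jqModC_mem_Fb (N : ℕ) : jqModC Qb ∈ E4.Fb N := by
  have h := (Fermat.Agent.S24.Modular.jF N).2
  rw [← Fermat.Agent.S24.Puiseux.coeffEmb_jq]
  exact h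

theorem C_mem_Fb (N : ℕ) (c : Qb) : (HahnSeries.C c : LaurentSeries Qb) ∈ E4.Fb N :=
  E4.single_zero_mem_Fb N c

theorem one_mem_Fb (N : ℕ) : Congr.incl A 1 ∈ E4.Fb N := by
  rw [map_one]
  exact (E4.Fb N).one_mem

theorem red_one_ne_zero : Congr.red A 1 ≠ 0 := by
  rw [map_one]
  exact one_ne_zero

/-- The constants lie in the reduced set. -/
theorem C_mem_redSet (N : ℕ) (c : κ) : HahnSeries.C c ∈ redSet N A := by
  obtain ⟨a, rfl⟩ := IsLocalRing.residue_surjective c
  refine ⟨HahnSeries.C a, 1, ?_, one_mem_Fb A N, red_one_ne_zero A, ?_⟩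
  · rw [RedRel.incl_C]
    exact C_mem_Fb N _
  · rw [map_one, mul_one, RedRel.red_C]

/-- `j̄` lies in the reduced set. -/
theorem jqModC_mem_redSet (N : ℕ) : jqModC κ ∈ redSet N A := by
  refine ⟨jqModC A, 1, ?_, one_mem_Fb A N, red_one_ne_zero A, ?_⟩
  · rw [RedRel.incl_jqModC]
    exact jqModC_mem_Fb N
  · rw [map_one, mul_one, RedRel.red_jqModC]

/-! ### The dependence relation in the reduced set -/

/-- **(F)** More than `[Fb N : Qb(j)]` elements of the reduced set satisfy a nontrivial relation
with coefficients in `κ[j̄]`. -/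
theorem exists_relation_redSet (N : ℕ) [NeZero N] {ι : Type} [Fintype ι]
    (hcard : Module.finrank (IntermediateField.adjoin Qb {Fermat.Agent.S24.Modular.jF N}) (FN N)
      < Fintype.card ι)
    (x : ι → LaurentSeries κ) (hx : ∀ i, x i ∈ redSet N A) :
    ∃ P : ι → Polynomial κ, (∃ i, P i ≠ 0) ∧
      ∑ i, (P i).eval₂ HahnSeries.C (jqModC κ) * x i = 0 := by
  classical
  choose U V hU hV hV0 hUV using hx
  have hW0 : ∏ k, Congr.red A (V k) ≠ 0 := Finset.prod_ne_zero_iff.2 fun k _ => hV0 k
  have hYmem : ∀ i, Congr.incl A (U i * ∏ k ∈ Finset.univ.erase i, V k) ∈ E4.Fb N := by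
    intro i
    rw [map_mul, map_prod]
    exact (E4.Fb N).mul_mem (hU i) (prod_mem fun k _ => hV k)
  obtain ⟨P, hP0, hP⟩ := RedRel.exists_relation_int N A hcard
    (fun i => U i * ∏ k ∈ Finset.univ.erase i, V k) hYmem
  refine ⟨P, hP0, ?_⟩
  have hY : ∀ i, Congr.red A (U i * ∏ k ∈ Finset.univ.erase i, V k)
      = x i * ∏ k, Congr.red A (V k) := by
    intro i
    rw [map_mul, map_prod, ← hUV i, mul_assoc,
      Finset.mul_prod_erase Finset.univ (fun k => Congr.red A (V k)) (Finset.mem_univ i)]
  have h2 : (∑ i, (P i).eval₂ HahnSeries.C (jqModC κ) * x i) * ∏ k, Congr.red A (V k) = 0 := by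
    rw [Finset.sum_mul, ← hP]
    refine Finset.sum_congr rfl fun i _ => ?_
    rw [hY i, mul_assoc]
  exact (mul_eq_zero.1 h2).resolve_right hW0

/-! ### The statement -/

/-- **The structure of the reduced function field**, for every valuation subring `A` of `Qb` and
every level `N`, from "`redField N A ⊆ redSet N A`". -/
theorem redFin_aux (N : ℕ) [NeZero N]
    (hmem : ∀ x : LaurentSeries κ, x ∈ redField N A → x ∈ redSet N A) :
    ∃ (κ₀ : Subfield (redField N A)) (t : redField N A),
      (∀ x : redField N A, x ∈ κ₀ ↔ ∃ c : κ, (x : LaurentSeries κ) = HahnSeries.C c) ∧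
      (∀ c : κ, HahnSeries.C c ∈ redField N A) ∧
      (t : LaurentSeries κ) = jqModC κ ∧
      Infinite κ₀ ∧
      FiniteDimensional (IntermediateField.adjoin κ₀ {t}) (redField N A) := by
  classical
  have hC : ∀ c : κ, HahnSeries.C c ∈ redField N A := fun c =>
    Subfield.subset_closure (C_mem_redSet A N c)
  have hj : jqModC κ ∈ redField N A := Subfield.subset_closure (jqModC_mem_redSet A N)
  let κ₀ : Subfield (redField N A) :=
    (HahnSeries.C : κ →+* LaurentSeries κ).fieldRange.comap (redField N A).subtype
  let t : redField N A := ⟨jqModC κ, hj⟩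
  have hκ₀ : ∀ x : redField N A, x ∈ κ₀ ↔ ∃ c : κ, (x : LaurentSeries κ) = HahnSeries.C c := by
    intro x
    constructor
    · rintro ⟨c, hc⟩
      exact ⟨c, hc.symm⟩
    · rintro ⟨c, hc⟩
      exact ⟨c, hc.symm⟩
  refine ⟨κ₀, t, hκ₀, hC, rfl, ?_, ?_⟩
  · -- the constants are infinite
    have hac : IsAlgClosed κ := Fermat.Agent.S37.ConstEnd.isAlgClosed_residueField A
    have hinf : Infinite κ := inferInstance
    refine Infinite.of_injective
      (fun c : κ => (⟨⟨HahnSeries.C c, hC c⟩, (hκ₀ _).2 ⟨c, rfl⟩⟩ : κ₀)) ?_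
    intro c d hcd
    have h := congrArg (fun x : κ₀ => ((x : redField N A) : LaurentSeries κ)) hcd
    exact HahnSeries.C_injective h
  · -- finite over `κ₀(j̄)`
    have hrank : Module.rank (IntermediateField.adjoin κ₀ {t}) (redField N A)
        ≤ (Module.finrank (IntermediateField.adjoin Qb {Fermat.Agent.S24.Modular.jF N})
            (FN N) : ℕ) := by
      refine rank_le fun s hs => ?_
      by_contra hlt
      rw [not_le] at hlt
      obtain ⟨P, ⟨i₁, hi₁⟩, hP⟩ := exists_relation_redSet A N (ι := s)
        (by rwa [Fintype.card_coe])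
        (fun i => ((i : redField N A) : LaurentSeries κ))
        (fun i => hmem _ (i : redField N A).2)
      let cK : κ →+* redField N A :=
        (HahnSeries.C : κ →+* LaurentSeries κ).codRestrict (redField N A) hC
      let c₀ : κ →+* κ₀ := cK.codRestrict κ₀ (fun c => (hκ₀ _).2 ⟨c, rfl⟩)
      let tK : IntermediateField.adjoin κ₀ {t} :=
        ⟨t, IntermediateField.mem_adjoin_simple_self κ₀ t⟩
      let φ : κ →+* IntermediateField.adjoin κ₀ {t} :=
        (algebraMap κ₀ (IntermediateField.adjoin κ₀ {t})).comp c₀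
      let ψ : IntermediateField.adjoin κ₀ {t} →+* LaurentSeries κ :=
        (redField N A).subtype.comp (algebraMap (IntermediateField.adjoin κ₀ {t}) (redField N A))
      have hψ : ∀ Q : Polynomial κ,
          ψ (Q.eval₂ φ tK) = Q.eval₂ HahnSeries.C (jqModC κ) := by
        intro Q
        rw [Polynomial.hom_eval₂]
        have h1 : ψ.comp φ = HahnSeries.C := RingHom.ext fun c => rfl
        rw [h1]
        rfl
      have hzero : ∀ i : s, (P i).eval₂ φ tK = 0 := by
        refine Fintype.linearIndependent_iff.1 hs (fun i => (P i).eval₂ φ tK) ?_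
        have hinj : Function.Injective (redField N A).subtype := Subtype.val_injective
        apply hinj
        rw [map_sum, map_zero, ← hP]
        refine Finset.sum_congr rfl fun i _ => ?_
        rw [Algebra.smul_def, map_mul, ← hψ]
        rfl
      have h3 := hψ (P i₁)
      rw [hzero i₁, map_zero] at h3
      exact hi₁ (Fermat.Agent.S30.GaussBridge.eval₂_C_eq_zero _
        (by rw [Fermat.Agent.S24.Puiseux.order_jqModC]; norm_num) _ h3.symm)
    exact Module.rank_lt_aleph0_iff.1 (lt_of_le_of_lt hrank Cardinal.natCast_lt_aleph0)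

/-- **`RedFinStatement` from "`redField ⊆ redSet`"**. -/
theorem redFin_of_mem
    (hmem : ∀ (N : ℕ) (B : ValuationSubring Qb) (x : LaurentSeries (IsLocalRing.ResidueField B)),
      x ∈ redField N B → x ∈ redSet N B) : RedFinStatement :=
  fun _ N _ _ B _ => redFin_aux B N (hmem N B)

/-- **(H.3a) `RedFinStatement`**: the reduced function field contains the constants and `j̄`,
its constants form an infinite subfield `κ₀`, and it is finite-dimensional over `κ₀(j̄)`. -/
theorem redFin : RedFinStatement :=
  redFin_of_mem fun _ _ _ hx => HeckeMem.mem_redField_iff.1 hx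

end Fermat.Agent.S44.H.RedFin
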