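import Mathlib
import Fermat.Agent.S44.H.Bricks

/-!
# PROGRAM MR (S44), strand H, row H.6 (`DvrStatement`): the adapter

`DvrStatement` (valuation subrings of a field `k` finite over `κ₀(t)` which contain `κ₀` are
trivial or discrete) is reduced here to the level-free core of `S44/L/PlaceDVR` (helper87):
"bounded degree over `κ[X]`, `X` transcendental, `κ ⊆ w ≠ ⊤` ⟹ `w` is a discrete valuation
ring".  This file is the thin adapter (helper299, MR NOTE #2c):

* `eq_top_of_isIntegral_subfield` : if `k` is integral over a subfield contained in `w`, then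
  `w = ⊤` (the case `t` algebraic over `κ₀`);
* `bddDeg_of_finiteDimensional`   : if `k` is finite over `κ(t)` of degree `n`, every element of
  `k` is a root of a nonzero polynomial of degree `≤ n` with coefficients in `κ[t]`
  (minimal polynomial over `κ(t)`, denominators cleared);
* `dvr_of_core`                   : the core statement (as a hypothesis, in the literal shape of
  `PlaceDVR.isDiscreteValuationRing_of_bddDeg`) implies `DvrStatement`.

`BddDegCopy` is a verbatim copy of the body of `PlaceDVR.BddDeg`, so that this file does not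
depend on the core being landed; the two are definitionally equal.
-/

set_option autoImplicit false

open Polynomial

namespace Fermat.Agent.S44.H.DvrAdapter

/-- Copy of `PlaceDVR.BddDeg`: every `x : k` is a root of a nonzero polynomial of degree `≤ n`
with coefficients in `κ[X]` (evaluated at `X : k`). -/
def BddDegCopy (κ : Type*) {k : Type*} [Field κ] [Field k] [Algebra κ k] (X : k) (n : ℕ) :
    Prop :=
  ∀ x : k, ∃ c : ℕ → κ[X], (∃ i, i ≤ n ∧ c i ≠ 0) ∧
    ∑ i ∈ Finset.range (n + 1), aeval X (c i) * x ^ i = 0

/-- A valuation subring containing a subfield over which the whole field is integral is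
trivial. -/
theorem eq_top_of_isIntegral_subfield {k : Type*} [Field k] (κ₀ : Subfield k)
    (w : ValuationSubring k) (hκ : ∀ s : k, s ∈ κ₀ → s ∈ w) (hint : ∀ x : k, IsIntegral κ₀ x) :
    w = ⊤ := by
  rw [eq_top_iff]
  intro x _
  obtain ⟨p, hp, hpx⟩ := hint x
  let f : κ₀ →+* w := (κ₀.subtype).codRestrict w (fun s => hκ s s.2)
  have hint' : IsIntegral w x := by
    refine ⟨p.map f, hp.map f, ?_⟩
    rw [eval₂_map]
    have hcomp : (algebraMap w k).comp f = algebraMap κ₀ k := by
      ext s
      rfl
    rw [hcomp]
    exact hpx
  obtain ⟨y, hy⟩ := IsIntegrallyClosed.isIntegral_iff.1 hint'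
  rw [← hy]
  exact y.2

/-- If `k` is finite over `κ(t)` of degree `n`, every element of `k` is a root of a nonzero
polynomial of degree `≤ n` with coefficients in `κ[t]`. -/
theorem bddDeg_of_finiteDimensional {κ k : Type*} [Field κ] [Field k] [Algebra κ k] (t : k)
    [FiniteDimensional (IntermediateField.adjoin κ {t}) k] :
    BddDegCopy κ t (Module.finrank (IntermediateField.adjoin κ {t}) k) := by
  classical
  intro x
  set F := IntermediateField.adjoin κ {t} with hF
  set n := Module.finrank F k with hn
  have hxint : IsIntegral F x := Algebra.IsIntegral.isIntegral x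
  set P := minpoly F x with hP
  have hPmonic : P.Monic := minpoly.monic hxint
  have hdeg : P.natDegree ≤ n := minpoly.natDegree_le x
  have hPx : aeval x P = 0 := minpoly.aeval F x
  -- every element of `F` is a fraction of polynomials in `t`
  have hfrac : ∀ a : F, ∃ r s : κ[X], aeval t s ≠ 0 ∧ (a : k) * aeval t s = aeval t r := by
    intro a
    obtain ⟨r, s, hrs⟩ := (IntermediateField.mem_adjoin_simple_iff κ (a : k)).1 a.2
    by_cases hs : aeval t s = 0
    · refine ⟨0, 1, by simp, ?_⟩
      rw [hs, div_zero] at hrs
      simp [hrs]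
    · exact ⟨r, s, hs, by rw [hrs, div_mul_cancel₀ _ hs]⟩
  choose r s hs hrs using hfrac
  set D : κ[X] := ∏ j ∈ Finset.range (n + 1), s (P.coeff j) with hD
  refine ⟨fun i => r (P.coeff i) * ∏ j ∈ (Finset.range (n + 1)).erase i, s (P.coeff j),
    ⟨P.natDegree, hdeg, ?_⟩, ?_⟩
  · -- the leading coefficient gives a nonzero polynomial
    intro h0
    have h1 := congrArg (aeval t) h0
    rw [map_mul, map_zero, ← hrs, map_prod] at h1
    have hlead : ((P.coeff P.natDegree : F) : k) = 1 := by
      have : P.coeff P.natDegree = 1 := hPmonic.coeff_natDegree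
      rw [this]
      rfl
    rw [hlead, one_mul] at h1
    rcases mul_eq_zero.1 h1 with h2 | h2
    · exact hs _ h2
    · exact (Finset.prod_ne_zero_iff.2 fun j _ => hs _) h2
  · -- the relation
    have key : ∀ i ∈ Finset.range (n + 1),
        aeval t (r (P.coeff i) * ∏ j ∈ (Finset.range (n + 1)).erase i, s (P.coeff j)) * x ^ i
          = aeval t D * (((P.coeff i : F) : k) * x ^ i) := by
      intro i hi
      rw [map_mul, ← hrs, hD, ← Finset.mul_prod_erase _ _ hi, map_mul]
      ring
    rw [Finset.sum_congr rfl key, ← Finset.mul_sum]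
    have hsum : ∑ i ∈ Finset.range (n + 1), ((P.coeff i : F) : k) * x ^ i = 0 := by
      have h := aeval_eq_sum_range' (Nat.lt_succ_of_le hdeg) x (p := P)
      rw [hPx] at h
      rw [h]
      exact Finset.sum_congr rfl fun i _ => by rw [Algebra.smul_def]; rfl
    rw [hsum, mul_zero]

/-- **(H.6) `DvrStatement` from the level-free core** (the hypothesis is, verbatim up to the
copied definition, `PlaceDVR.isDiscreteValuationRing_of_bddDeg` at `Type`-valued fields). -/
theorem dvr_of_core
    (hcore : ∀ (κ k : Type) [Field κ] [Field k] [Algebra κ k] (X : k), Transcendental κ X →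
      ∀ n : ℕ, BddDegCopy κ X n → ∀ w : ValuationSubring k, (∀ c : κ, algebraMap κ k c ∈ w) →
        w ≠ ⊤ → IsDiscreteValuationRing w) :
    DvrStatement := by
  intro k _ κ₀ t hfin w hκ
  by_cases hw : w = ⊤
  · exact Or.inl hw
  right
  have htr : Transcendental κ₀ t := by
    intro halg
    apply hw
    have h1 : FiniteDimensional κ₀ (IntermediateField.adjoin κ₀ {t}) :=
      IntermediateField.adjoin.finiteDimensional halg.isIntegral
    have h2 : FiniteDimensional κ₀ k := Module.Finite.trans (IntermediateField.adjoin κ₀ {t}) k
    exact eq_top_of_isIntegral_subfield κ₀ w hκ (fun x => Algebra.IsIntegral.isIntegral x)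
  exact hcore κ₀ k t htr _ (bddDeg_of_finiteDimensional t) w (fun c => hκ c c.2) hw

end Fermat.Agent.S44.H.DvrAdapter
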