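import Mathlib
import Fermat.Agent.S44.H.DvrAdapter
import Fermat.Agent.S44.L.PlaceDVR

/-!
# PROGRAM MR (S44), strand H, row H.6: `DvrStatement`

`theorem dvr : DvrStatement` — a valuation subring of a field `k` finite over `κ₀(t)` which
contains `κ₀` is trivial or a discrete valuation ring.

Proof: the adapter `DvrAdapter.dvr_of_core` (helper299) applied to the level-free core
`PlaceDVR.isDiscreteValuationRing_of_bddDeg` (helper87).
-/

set_option autoImplicit false

namespace Fermat.Agent.S44.H.Dvr

/-- **(H.6) = (H.3c) of `S44/H/Bricks`.** -/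
theorem dvr : Fermat.Agent.S44.H.DvrStatement :=
  Fermat.Agent.S44.H.DvrAdapter.dvr_of_core fun _ _ _ _ _ X hX _ hdeg w hκ hw =>
    Fermat.Agent.S44.L.PlaceDVR.isDiscreteValuationRing_of_bddDeg X hX hdeg w hκ hw

end Fermat.Agent.S44.H.Dvr
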