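import Mathlib
import Fermat.Agent.S44.H.Bricks
import Fermat.Prelude.Thm_ModularCurve_coeff_jqModC_neg_one
import Fermat.Prelude.Thm_ModularCurve_coeff_jqModC_pow_of_lt

/-!
# PROGRAM MR (S44), strand H: the assembly of `HDivStatement` from the bricks

`assembly : Assembly` (helper170).  Instantiation of `VirtNormStatement` at
`k = redField N' A`, `LS = κ((q))`, `ι = Option (Fin ℓ)`, `φ = (q ↦ q^ℓ)`,
`c none = (q ↦ q^{ℓ²})`, `c (some i) = (q ↦ zⁱ q)`, `T = Congr.heckeMul ℓ _ z`,
`good = IsFinitePl N' A`.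
-/

set_option autoImplicit false

open HahnSeries ModularCurve

namespace Fermat.Agent.S44.H.Assembly

open Fermat.Agent.S30 Fermat.Agent.S30.Producer Fermat.Agent.S44.Contract
open Fermat.Agent.S44.L.Top Fermat.Agent.S44.H

section Formal

variable {R : Type*} [CommRing R]

theorem expand_expand (ℓ m : ℕ) (hℓ : 0 < ℓ) (hm : 0 < m) (x : LaurentSeries R) :
    Congr.expand ℓ hℓ (Congr.expand m hm x) = Congr.expand (ℓ * m) (Nat.mul_pos hℓ hm) x := by
  have hℓ' : (ℓ : ℤ) ≠ 0 := by exact_mod_cast hℓ.ne'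
  ext n
  by_cases h1 : (ℓ : ℤ) ∣ n
  · obtain ⟨a, rfl⟩ := h1
    rw [Congr.coeff_expand_mul]
    by_cases h2 : (m : ℤ) ∣ a
    · obtain ⟨b, rfl⟩ := h2
      rw [Congr.coeff_expand_mul]
      have h3 : (ℓ : ℤ) * ((m : ℤ) * b) = ((ℓ * m : ℕ) : ℤ) * b := by push_cast; ring
      rw [h3, Congr.coeff_expand_mul]
    · rw [Congr.coeff_expand_of_not_dvd _ _ _ h2, Congr.coeff_expand_of_not_dvd]
      rintro ⟨b, hb⟩
      apply h2
      refine ⟨b, mul_left_cancel₀ hℓ' ?_⟩
      rw [hb]; push_cast; ring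
  · rw [Congr.coeff_expand_of_not_dvd _ _ _ h1, Congr.coeff_expand_of_not_dvd]
    rintro ⟨b, hb⟩
    exact h1 ⟨(m : ℤ) * b, by rw [hb]; push_cast; ring⟩

theorem expand_C (ℓ : ℕ) (hℓ : 0 < ℓ) (c : R) :
    Congr.expand ℓ hℓ (HahnSeries.C c : LaurentSeries R) = HahnSeries.C c := by
  have h : (HahnSeries.C c : LaurentSeries R) = HahnSeries.single 0 c := rfl
  rw [h, Congr.expand_single, mul_zero]

theorem rescale_C (z : Rˣ) (c : R) :
    Congr.rescale z (HahnSeries.C c : LaurentSeries R) = HahnSeries.C c := by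
  have h : (HahnSeries.C c : LaurentSeries R) = HahnSeries.single 0 c := rfl
  ext n
  rw [Congr.coeff_rescale, h, HahnSeries.coeff_single]
  by_cases hn : n = 0
  · subst hn; simp
  · rw [if_neg hn, mul_zero]

end Formal

/-- A root of unity lies in every valuation subring. -/
theorem mem_of_pow_eq_one {K : Type*} [Field K] (w : ValuationSubring K) {x : K} {n : ℕ}
    (hn : 0 < n) (h : x ^ n = 1) : x ∈ w := by
  rcases w.mem_or_inv_mem x with h1 | h1
  · exact h1
  · have hx0 : x ≠ 0 := by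
      rintro rfl
      rw [zero_pow hn.ne'] at h
      exact zero_ne_one h
    have h2 : x = x⁻¹ ^ (n - 1) := by
      have h3 : x ^ n = x ^ (n - 1) * x := by
        rw [← pow_succ]; congr 1; omega
      rw [inv_pow]
      rw [h3] at h
      exact eq_inv_of_mul_eq_one_right h
    rw [h2]
    exact pow_mem h1 _

/-- `p`-th roots in a field of characteristic `p` all of whose nonzero elements are roots of
unity. -/
theorem exists_pow_eq_of_torsion {κ : Type*} [Field κ] (p : ℕ) [hp : Fact p.Prime] [CharP κ p]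
    (hκ : ∀ c : κ, c ≠ 0 → ∃ n : ℕ, 0 < n ∧ c ^ n = 1) (c : κ) : ∃ d : κ, d ^ p = c := by
  by_cases hc : c = 0
  · exact ⟨0, by rw [hc, zero_pow hp.out.ne_zero]⟩
  obtain ⟨n, hn, hcn⟩ := hκ c hc
  obtain ⟨a, n', hn', rfl⟩ := Nat.exists_eq_pow_mul_and_not_dvd hn.ne' p hp.out.ne_one
  have h1 : (c ^ n') ^ (p ^ a) = 1 := by rw [← pow_mul, mul_comm]; exact hcn
  have h2 : c ^ n' = 1 := by
    have h3 : iterateFrobenius κ p a (c ^ n') = iterateFrobenius κ p a 1 := by
      rw [iterateFrobenius_def, iterateFrobenius_def, h1, one_pow]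
    exact (iterateFrobenius κ p a).injective h3
  by_cases hn1 : n' = 1
  · refine ⟨1, ?_⟩
    rw [one_pow]
    rw [hn1, pow_one] at h2
    exact h2.symm
  have hn0 : n' ≠ 0 := by
    rintro rfl
    exact hn' (dvd_zero p)
  have hcop : Nat.Coprime p n' := (Nat.Prime.coprime_iff_not_dvd hp.out).2 hn'
  obtain ⟨m, -, hm⟩ := Nat.exists_mul_mod_eq_one_of_coprime hcop (by omega)
  refine ⟨c ^ m, ?_⟩
  have h4 : p * m = n' * (p * m / n') + 1 := by
    have := Nat.div_add_mod (p * m) n'
    omega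
  calc (c ^ m) ^ p = c ^ (p * m) := by rw [← pow_mul, mul_comm]
    _ = c ^ (n' * (p * m / n') + 1) := by rw [← h4]
    _ = (c ^ n') ^ (p * m / n') * c := by rw [_root_.pow_add, pow_mul, pow_one]
    _ = c := by rw [h2, one_pow, one_mul]


/-- A valuation subring of `κ((q))` containing the constants and `a` contains every element
integral over `κ[a]`. -/
theorem integral_mem {κ : Type*} [Field κ] (V : ValuationSubring (LaurentSeries κ))
    (hC : ∀ c : κ, (HahnSeries.C c : LaurentSeries κ) ∈ V) (a : LaurentSeries κ) (ha : a ∈ V)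
    (b : LaurentSeries κ) (hb : IsIntegral (Algebra.adjoin κ {a}) b) : b ∈ V := by
  have hC' : ∀ c : κ, algebraMap κ (LaurentSeries κ) c ∈ V.toSubring.toSubsemiring.carrier :=
    fun c => by
      have h : algebraMap κ (LaurentSeries κ) c = HahnSeries.C c :=
        ModularCurve.algebraMap_laurentSeries_eq_single κ c
      rw [h]
      exact hC c
  let S : Subalgebra κ (LaurentSeries κ) :=
    { V.toSubring with algebraMap_mem' := hC' }
  have hle : Algebra.adjoin κ {a} ≤ S := Algebra.adjoin_le (by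
    intro x hx
    rw [Set.mem_singleton_iff] at hx
    rw [hx]
    exact ha)
  obtain ⟨P, hPm, hPe⟩ := hb
  let ι : Algebra.adjoin κ {a} →+* V :=
    { toFun := fun x => ⟨x.1, hle x.2⟩
      map_one' := rfl
      map_mul' := fun _ _ => rfl
      map_zero' := rfl
      map_add' := fun _ _ => rfl }
  have hint : IsIntegral V b := by
    refine ⟨P.map ι, hPm.map ι, ?_⟩
    rw [Polynomial.eval₂_map]
    exact hPe
  obtain ⟨y, hy⟩ := (IsIntegrallyClosed.isIntegral_iff (R := V) (K := LaurentSeries κ)).1 hint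
  rw [← hy]
  exact y.2

/-- The order of `j̄` is `-1`. -/
theorem order_jq (κ : Type*) [Field κ] : (jqModC κ).order = -1 := by
  have h1 : (jqModC κ).coeff (-1) = 1 := ModularCurve.coeff_jqModC_neg_one κ
  have hne : jqModC κ ≠ 0 := by
    intro h
    rw [h, HahnSeries.coeff_zero] at h1
    exact zero_ne_one h1
  apply le_antisymm
  · exact HahnSeries.order_le_of_coeff_ne_zero (by rw [h1]; exact one_ne_zero)
  · by_contra hlt
    rw [not_le] at hlt
    have h2 : ((jqModC κ) ^ 1).coeff (jqModC κ).order = 0 :=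
      ModularCurve.coeff_jqModC_pow_of_lt κ (by simpa using hlt)
    rw [pow_one] at h2
    exact hne (HahnSeries.coeff_order_eq_zero.1 h2)

section Core

variable (p N' : ℕ) [NeZero N'] (A : ValuationSubring Qb)

/-- Constants of the reduced field are units of every valuation subring. -/
theorem const_mem (hκ : ∀ c : IsLocalRing.ResidueField A, c ≠ 0 → ∃ n : ℕ, 0 < n ∧ c ^ n = 1)
    {K : Subfield (LaurentSeries (IsLocalRing.ResidueField A))} (w : ValuationSubring K) (s : K)
    (c : IsLocalRing.ResidueField A)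
    (hs : (s : LaurentSeries (IsLocalRing.ResidueField A)) = HahnSeries.C c) : s ∈ w := by
  by_cases hc : c = 0
  · have : s = 0 := Subtype.ext (by rw [hs, hc, map_zero]; rfl)
    rw [this]
    exact zero_mem _
  · obtain ⟨n, hn, hcn⟩ := hκ c hc
    refine mem_of_pow_eq_one w hn (Subtype.ext ?_)
    push_cast
    rw [hs, ← map_pow, hcn, map_one]

/-- The three kinds of conjugate embeddings of the reduced field into `κ((q))`. -/
noncomputable def conjHom (ℓ : ℕ) (hℓ : 0 < ℓ) (z : (IsLocalRing.ResidueField A)ˣ) :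
    Option (Fin ℓ) → redField N' A →+* LaurentSeries (IsLocalRing.ResidueField A) :=
  fun x => x.elim ((Congr.expand (ℓ * ℓ) (Nat.mul_pos hℓ hℓ)).comp (redField N' A).subtype)
    (fun i => (Congr.rescale (z ^ (i : ℕ))).comp (redField N' A).subtype)

theorem hdiv_core (hp : p.Prime) (hA : A.LiesOverPrime p)
    (hκ : ∀ c : IsLocalRing.ResidueField A, c ≠ 0 → ∃ n : ℕ, 0 < n ∧ c ^ n = 1)
    (ℓ : ℕ) (hℓ : ℓ.Prime) (z : (IsLocalRing.ResidueField A)ˣ) (hz : IsPrimitiveRoot z ℓ)
    (hmem : ∀ b : LaurentSeries (IsLocalRing.ResidueField A), b ∈ redField N' A →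
      Congr.heckeMul ℓ hℓ.pos z b ∈ redField N' A)
    (h3a : RedFinStatement) (h3b : SepSeriesStatement) (h4 : ModEqStatement)
    (h3c : DvrStatement) (hV : VirtNormStatement)
    (g : redField N' A) (hg0 : g ≠ 0)
    (hfin : ∀ w : ValuationSubring (redField N' A), IsFinitePl N' A w → PDivAt p w g) :
    ∀ w : ValuationSubring (redField N' A), IsFinitePl N' A w →
      PDivAt p w (⟨Congr.heckeMul ℓ hℓ.pos z g, hmem g g.2⟩ : redField N' A) := by
  classical
  have : Fact p.Prime := ⟨hp⟩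
  have : CharP (IsLocalRing.ResidueField A) p := Congr.charP_residue A hA
  obtain ⟨κ₀, t, hκ₀, hconst, ht, hinf, hfd⟩ := h3a p N' hp A hA
  -- separability
  have ht0 : (t : LaurentSeries (IsLocalRing.ResidueField A)) ≠ 0 := by
    rw [ht]
    intro h
    have h1 := ModularCurve.coeff_jqModC_neg_one (IsLocalRing.ResidueField A)
    rw [h, HahnSeries.coeff_zero] at h1
    exact zero_ne_one h1
  have hord : ¬ (p : ℤ) ∣ (t : LaurentSeries (IsLocalRing.ResidueField A)).order := by
    rw [ht, order_jq]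
    intro h
    have h2 : (p : ℤ) ∣ 1 := (dvd_neg).1 h
    have h3 : p ∣ 1 := by exact_mod_cast h2
    exact hp.one_lt.ne' (Nat.dvd_one.1 h3)
  have halg : Algebra.IsAlgebraic (IntermediateField.adjoin κ₀ {t}) (redField N' A) :=
    Algebra.IsAlgebraic.of_finite _ _
  have hsep : Algebra.IsSeparable (IntermediateField.adjoin κ₀ {t}) (redField N' A) :=
    h3b (IsLocalRing.ResidueField A) p hp (exists_pow_eq_of_torsion p hκ) (redField N' A) κ₀ t
      hκ₀ hconst ht0 hord halg
  -- the embeddings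
  let φ : redField N' A →+* LaurentSeries (IsLocalRing.ResidueField A) :=
    (Congr.expand ℓ hℓ.pos).comp (redField N' A).subtype
  let T : redField N' A → redField N' A :=
    fun b => ⟨Congr.heckeMul ℓ hℓ.pos z b, hmem b b.2⟩
  have hagree : ∀ s : redField N' A, s ∈ κ₀ → ∀ x, conjHom N' A ℓ hℓ.pos z x s = φ s := by
    intro s hs x
    obtain ⟨c, hc⟩ := (hκ₀ s).1 hs
    have hφ : φ s = HahnSeries.C c := by
      show Congr.expand ℓ hℓ.pos (s : LaurentSeries (IsLocalRing.ResidueField A)) = _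
      rw [hc, expand_C]
    rw [hφ]
    cases x with
    | none =>
      show Congr.expand (ℓ * ℓ) (Nat.mul_pos hℓ.pos hℓ.pos)
        (s : LaurentSeries (IsLocalRing.ResidueField A)) = _
      rw [hc, expand_C]
    | some i =>
      show Congr.rescale (z ^ (i : ℕ)) (s : LaurentSeries (IsLocalRing.ResidueField A)) = _
      rw [hc, rescale_C]
  have hprod : ∀ b : redField N' A, φ (T b) = ∏ x, conjHom N' A ℓ hℓ.pos z x b := by
    intro b
    rw [Fintype.prod_option]
    show Congr.expand ℓ hℓ.pos (Congr.heckeMul ℓ hℓ.pos z (b : LaurentSeries _)) =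
      Congr.expand (ℓ * ℓ) (Nat.mul_pos hℓ.pos hℓ.pos) (b : LaurentSeries _) *
        ∏ i : Fin ℓ, Congr.rescale (z ^ (i : ℕ)) (b : LaurentSeries _)
    unfold Congr.heckeMul
    rw [map_mul, expand_expand, Congr.expand_normL ℓ hℓ.pos z hz]
    unfold Congr.conjProd
    rw [Fin.prod_univ_eq_prod_range (fun i => Congr.rescale (z ^ i) (b : LaurentSeries _)) ℓ]
  have hinj : Function.Injective (fun x => conjHom N' A ℓ hℓ.pos z x t) := by
    have hℓ2 : ¬ ((ℓ * ℓ : ℕ) : ℤ) ∣ (-1 : ℤ) := by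
      intro h
      have h1 : ((ℓ * ℓ : ℕ) : ℤ) ∣ 1 := (dvd_neg).1 h
      have h2 : ℓ * ℓ ∣ 1 := by exact_mod_cast h1
      have h3 : ℓ * ℓ = 1 := Nat.dvd_one.1 h2
      have h4 := hℓ.two_le
      nlinarith
    have hnone : (conjHom N' A ℓ hℓ.pos z none t).coeff (-1) = 0 := by
      show (Congr.expand (ℓ * ℓ) (Nat.mul_pos hℓ.pos hℓ.pos)
        (t : LaurentSeries (IsLocalRing.ResidueField A))).coeff (-1) = 0
      exact Congr.coeff_expand_of_not_dvd _ _ _ hℓ2
    have hsome : ∀ i : Fin ℓ, (conjHom N' A ℓ hℓ.pos z (some i) t).coeff (-1)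
        = (((z ^ (i : ℕ)) ^ (-1 : ℤ) : (IsLocalRing.ResidueField A)ˣ) :
            IsLocalRing.ResidueField A) := by
      intro i
      show (Congr.rescale (z ^ (i : ℕ))
        (t : LaurentSeries (IsLocalRing.ResidueField A))).coeff (-1) = _
      rw [Congr.coeff_rescale, ht, ModularCurve.coeff_jqModC_neg_one, mul_one]
    intro x y hxy
    have hxy' : (conjHom N' A ℓ hℓ.pos z x t).coeff (-1)
        = (conjHom N' A ℓ hℓ.pos z y t).coeff (-1) := congrArg (fun f => f.coeff (-1)) hxy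
    cases x with
    | none =>
      cases y with
      | none => rfl
      | some j =>
        rw [hnone, hsome] at hxy'
        exact absurd hxy'.symm (Units.ne_zero _)
    | some i =>
      cases y with
      | none =>
        rw [hnone, hsome] at hxy'
        exact absurd hxy' (Units.ne_zero _)
      | some j =>
        rw [hsome, hsome] at hxy'
        have h1 : (z ^ (i : ℕ)) ^ (-1 : ℤ) = (z ^ (j : ℕ)) ^ (-1 : ℤ) := Units.ext hxy'
        have h2 : z ^ (i : ℕ) = z ^ (j : ℕ) := by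
          rw [zpow_neg_one, zpow_neg_one] at h1
          exact inv_injective h1
        have h3 : (i : ℕ) = (j : ℕ) := hz.pow_inj i.2 j.2 h2
        exact congrArg some (Fin.ext h3)
  have hdvr : ∀ w : ValuationSubring (redField N' A), IsFinitePl N' A w →
      w = ⊤ ∨ IsDiscreteValuationRing w := fun w _ =>
    h3c (redField N' A) κ₀ t hfd w (fun s hs => by
      obtain ⟨c, hc⟩ := (hκ₀ s).1 hs
      exact const_mem A hκ w s c hc)
  have hCV : ∀ (V : ValuationSubring (LaurentSeries (IsLocalRing.ResidueField A)))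
      (c : IsLocalRing.ResidueField A),
      (HahnSeries.C c : LaurentSeries (IsLocalRing.ResidueField A)) ∈ V := by
    intro V c
    by_cases hc : c = 0
    · rw [hc, map_zero]; exact zero_mem _
    · obtain ⟨n, hn, hcn⟩ := hκ c hc
      exact mem_of_pow_eq_one V hn (by rw [← map_pow, hcn, map_one])
  have hgood : ∀ (x : Option (Fin ℓ))
      (V : ValuationSubring (LaurentSeries (IsLocalRing.ResidueField A))),
      IsFinitePl N' A (V.comap φ) →
        IsFinitePl N' A (V.comap (conjHom N' A ℓ hℓ.pos z x)) := by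
    rintro x V ⟨jb, hjb, hjV⟩
    refine ⟨jb, hjb, ?_⟩
    rw [ValuationSubring.mem_comap] at hjV ⊢
    have hjV' : Congr.expand ℓ hℓ.pos (jqModC (IsLocalRing.ResidueField A)) ∈ V := by
      rw [← hjb]; exact hjV
    obtain ⟨hm1, hm2⟩ := h4 (IsLocalRing.ResidueField A) ℓ hℓ z hz
    cases x with
    | none =>
      show Congr.expand (ℓ * ℓ) (Nat.mul_pos hℓ.pos hℓ.pos)
        (jb : LaurentSeries (IsLocalRing.ResidueField A)) ∈ V
      rw [hjb]
      exact integral_mem V (hCV V) _ hjV' _ hm1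
    | some i =>
      show Congr.rescale (z ^ (i : ℕ))
        (jb : LaurentSeries (IsLocalRing.ResidueField A)) ∈ V
      rw [hjb]
      exact integral_mem V (hCV V) _ hjV' _ (hm2 i)
  exact hV (redField N' A) (LaurentSeries (IsLocalRing.ResidueField A)) p (Option (Fin ℓ)) κ₀ φ
    (conjHom N' A ℓ hℓ.pos z) T t (IsFinitePl N' A) hinf hagree hprod hinj hsep hdvr hgood
    g hg0 hfin

end Core

/-- **The assembly of strand H.** -/
theorem assembly : Assembly := by
  intro hκ h1 h2 h3a h3b h4 h3c h6 h5 p N' _ _ hp _ hpN A hA ℓ hℓ hℓN G g g' hG hg hg' hfin w hw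
  obtain ⟨z, hz, hred⟩ := h1 p N' hp hpN A hA ℓ hℓ hℓN
  obtain ⟨c, hc, hgc⟩ := hred G g g' hG hg hg'
  have hmem := h2 p N' hp hpN A hA ℓ hℓ hℓN z hz
  have hκ' := hκ p hp A hA
  have hg0 : g ≠ 0 := by
    obtain ⟨c₀, U, V, -, hU, -, -, hgV⟩ := hg
    rintro rfl
    apply hU
    rw [← hgV]
    simp
  have key := hdiv_core p N' A hp hA hκ' ℓ hℓ z hz hmem h3a h3b h4 h3c (h6 h5) g hg0 hfin w hw
  obtain ⟨κ₀, t, hκ₀, hconst, -⟩ := h3a p N' hp A hA
  obtain ⟨u, h, huh, hu, hu'⟩ := key
  have hc' : c⁻¹ ≠ 0 := inv_ne_zero hc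
  refine ⟨⟨HahnSeries.C c, hconst c⟩ * u, h, ?_, ?_, ?_⟩
  · apply Subtype.ext
    have h1' := congrArg Subtype.val huh
    push_cast at h1' ⊢
    rw [hgc, mul_assoc, ← h1']
  · exact w.mul_mem _ _ (const_mem A hκ' w _ c rfl) hu
  · rw [mul_inv]
    refine w.mul_mem _ _ (const_mem A hκ' w _ c⁻¹ ?_) hu'
    push_cast
    rw [map_inv₀]

end Fermat.Agent.S44.H.Assembly
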