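/-
PROGRAM MR (S44), strand H (`L.HDIV`), brick (H-int) — helper206.

MUTUAL INTEGRALITY OF `j(q)` AND `j(q^ℓ)`, OVER EVERY COMMUTATIVE RING.

For a prime `ℓ`, in `S((q))` (`S` any commutative ring; `J = jqModC S`, `J_ℓ = qExpand S ℓ J`):

* `isIntegral_qExpand_jq`         : `J_ℓ` is integral over `S[J]`        (`S34.Sat.exists_modEq_int`);
* `isIntegral_jq_qExpand`         : `J` is integral over `S[J_ℓ]`        (the swap; NEW);
* `isIntegral_qExpand_qExpand_jq` : `j(q^(ℓ²))` is integral over `S[J_ℓ]`;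
* `isIntegral_rescale_jq`         : `j(z q)` is integral over `S[J_ℓ]` for `z ^ ℓ = 1`.

The last two say: the `ℓ + 1` conjugates `j(q^(ℓ²))`, `j(zⁱ q)` of the Hecke correspondence are
integral over `S[j(q^ℓ)]`, so a valuation ring containing `j(q^ℓ)` contains them (the
multiplicative Hecke operator maps finite places to finite places).

The swap needs no Atkin–Lehner involution: by `S34.PhiShape.IsShape` the modular equation is
`P = Y^(ℓ+1) + c X^(ℓ+1) - X^ℓ Y^ℓ + (lower terms)` with `c` a root of unity and all coefficients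
integral over `ℤ`, so it is monic up to a unit in `X` as well (`exists_modEq_int_swap`).
-/
import Mathlib
import Fermat.Agent.S34.Sat.ModEq
import Fermat.Agent.S30.Congr

set_option autoImplicit false
set_option linter.style.haveILetI false

open ModularCurve Polynomial

noncomputable section

namespace Fermat.Agent.S44.H.IntJ

local notation "Qb" => AlgebraicClosure ℚ

/-! ### Evaluation of integer polynomials at a Laurent series -/

/-- Evaluation of integer polynomials at a Laurent series `U`: `ℤ[X] → S((q))`, `X ↦ U`. -/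
def evalAt (S : Type*) [CommRing S] (U : LaurentSeries S) : Polynomial ℤ →+* LaurentSeries S :=
  Polynomial.eval₂RingHom (Int.castRingHom (LaurentSeries S)) U

theorem evalAt_X (S : Type*) [CommRing S] (U : LaurentSeries S) : evalAt S U X = U := by
  simp [evalAt]

theorem evalAt_C (S : Type*) [CommRing S] (U : LaurentSeries S) (n : ℤ) :
    evalAt S U (C n) = (n : LaurentSeries S) := by
  simp [evalAt]

/-- Any ring hom `ℤ[X] → S((q))` is `evalAt` at the image of `X`. -/
theorem eq_evalAt {S : Type*} [CommRing S] (f : Polynomial ℤ →+* LaurentSeries S) :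
    f = evalAt S (f X) := by
  refine Polynomial.ringHom_ext (fun n => ?_) ?_
  · rw [evalAt_C, ← map_intCast f n]
    simp
  · rw [evalAt_X]

theorem coeffMap_comp_evalAt {S T : Type*} [CommRing S] [CommRing T] (f : S →+* T)
    (U : LaurentSeries S) : (coeffMap f).comp (evalAt S U) = evalAt T (coeffMap f U) := by
  rw [eq_evalAt ((coeffMap f).comp (evalAt S U)), RingHom.comp_apply, evalAt_X]

theorem qExpand_comp_evalAt {S : Type*} [CommRing S] (n : ℕ) [NeZero n] (U : LaurentSeries S) :
    (qExpand S n).comp (evalAt S U) = evalAt S (qExpand S n U) := by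
  rw [eq_evalAt ((qExpand S n).comp (evalAt S U)), RingHom.comp_apply, evalAt_X]

theorem rescale_comp_evalAt {S : Type*} [CommRing S] (z : Sˣ) (U : LaurentSeries S) :
    (Fermat.Agent.S30.Congr.rescale z).comp (evalAt S U)
      = evalAt S (Fermat.Agent.S30.Congr.rescale z U) := by
  rw [eq_evalAt ((Fermat.Agent.S30.Congr.rescale z).comp (evalAt S U)), RingHom.comp_apply,
    evalAt_X]

theorem evalJ_eq_evalAt (S : Type*) [CommRing S] :
    Fermat.Agent.S34.Sat.evalJ S = evalAt S (jqModC S) := by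
  rw [eq_evalAt (Fermat.Agent.S34.Sat.evalJ S), Fermat.Agent.S34.Sat.evalJ_X]

/-- From a monic integer two-variable polynomial to integrality over `S[u]`. -/
theorem isIntegral_adjoin_of_evalAt {S : Type*} [CommRing S] (u y : LaurentSeries S)
    (Φ : Polynomial (Polynomial ℤ)) (hΦ : Φ.Monic) (h : Φ.eval₂ (evalAt S u) y = 0) :
    IsIntegral (Algebra.adjoin S {u}) y := by
  let ψ : Polynomial ℤ →+* ↥(Algebra.adjoin S {u}) :=
    eval₂RingHom (Int.castRingHom _) ⟨u, Algebra.subset_adjoin (Set.mem_singleton u)⟩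
  refine ⟨Φ.map ψ, hΦ.map ψ, ?_⟩
  rw [eval₂_map]
  have h1 : (algebraMap ↥(Algebra.adjoin S {u}) (LaurentSeries S)).comp ψ = evalAt S u := by
    refine Polynomial.ringHom_ext (fun n => ?_) ?_
    · simp [ψ, evalAt]
    · simp [ψ, evalAt]
  rw [h1]
  exact h

/-! ### The modular equation over `ℤ`, swapped -/

/-- **The swapped modular equation over `ℤ`**: `j(q)` is a root of a monic polynomial with
coefficients in `ℤ[j(q^ℓ)]`. -/
theorem exists_modEq_int_swap {ℓ : ℕ} [NeZero ℓ] (hℓ : ℓ.Prime) :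
    ∃ G : Polynomial (Polynomial ℤ), G.Monic ∧
      G.eval₂ (evalAt ℤ (qExpand ℤ ℓ (jqModC ℤ))) (jqModC ℤ) = 0 := by
  classical
  obtain ⟨P, hP⟩ := Fermat.Agent.S34.PhiShape.exists_isShape hℓ Qb
  set J : LaurentSeries Qb := jqModC Qb with hJdef
  set Jl : LaurentSeries Qb := qExpand Qb ℓ (jqModC Qb) with hJldef
  letI algZ : Algebra (Polynomial ℤ) (LaurentSeries Qb) := (evalAt Qb Jl).toAlgebra
  have hJl : Jl ∈ integralClosure (Polynomial ℤ) (LaurentSeries Qb) := by
    have h1 : Jl = algebraMap (Polynomial ℤ) (LaurentSeries Qb) X := (evalAt_X Qb Jl).symm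
    rw [h1]
    exact isIntegral_algebraMap
  have hC : ∀ c : Qb, IsIntegral ℤ c →
      (HahnSeries.C c : LaurentSeries Qb) ∈ integralClosure (Polynomial ℤ) (LaurentSeries Qb) := by
    intro c hc
    obtain ⟨p, hp, hpc⟩ := hc
    refine ⟨p.map (Polynomial.C : ℤ →+* Polynomial ℤ), hp.map _, ?_⟩
    rw [Polynomial.eval₂_map]
    have h1 : (algebraMap (Polynomial ℤ) (LaurentSeries Qb)).comp
        (Polynomial.C : ℤ →+* Polynomial ℤ)
        = (HahnSeries.C : Qb →+* LaurentSeries Qb).comp (algebraMap ℤ Qb) :=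
      Subsingleton.elim _ _
    rw [h1, ← Polynomial.hom_eval₂, hpc, map_zero]
  -- the coefficients of `P` and the coefficients of the swapped polynomial
  set a : ℕ → ℕ → Qb := fun k i => (P.coeff k).coeff i with ha
  set b : ℕ → LaurentSeries Qb :=
    fun i => ∑ k ∈ Finset.range (ℓ + 2), HahnSeries.C (a k i) * Jl ^ k with hbdef
  have hb : ∀ i, b i ∈ integralClosure (Polynomial ℤ) (LaurentSeries Qb) := fun i =>
    Subalgebra.sum_mem _ fun k _ =>
      Subalgebra.mul_mem _ (hC _ (hP.integral k i)) (Subalgebra.pow_mem _ hJl k)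
  have htop : P.coeff (ℓ + 1) = 1 := by
    have h1 := hP.monic.coeff_natDegree
    rwa [hP.natDegree_eq] at h1
  have hdeg : ∀ k, k < ℓ + 2 → (P.coeff k).natDegree < ℓ + 2 := by
    intro k hk
    rcases Nat.eq_zero_or_pos k with rfl | hk0
    · exact lt_of_le_of_lt hP.natDegree_coeff_zero_le (Nat.lt_succ_self _)
    · by_cases hkl : k ≤ ℓ
      · exact lt_of_le_of_lt (hP.natDegree_coeff_le k hk0 hkl) (by omega)
      · have hk1 : k = ℓ + 1 := by omega
        rw [hk1, htop, natDegree_one]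
        omega
  -- the root relation, regrouped by powers of `J`
  have hroot : ∑ i ∈ Finset.range (ℓ + 2), b i * J ^ i = 0 := by
    have h1 := hP.root
    rw [Fermat.Agent.S28.Defs.qE, dif_neg (NeZero.ne ℓ),
      Polynomial.eval₂_eq_sum_range' _ (by rw [hP.natDegree_eq]; omega : P.natDegree < ℓ + 2)]
      at h1
    have h2 : ∀ k ∈ Finset.range (ℓ + 2),
        (Polynomial.eval₂RingHom (HahnSeries.C : Qb →+* LaurentSeries Qb) (jqModC Qb))
            (P.coeff k) * qExpand Qb ℓ (jqModC Qb) ^ k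
          = ∑ i ∈ Finset.range (ℓ + 2), HahnSeries.C (a k i) * Jl ^ k * J ^ i := by
      intro k hk
      rw [Polynomial.coe_eval₂RingHom,
        Polynomial.eval₂_eq_sum_range' _ (hdeg k (Finset.mem_range.mp hk)), Finset.sum_mul]
      refine Finset.sum_congr rfl fun i _ => ?_
      ring
    rw [Finset.sum_congr rfl h2, Finset.sum_comm] at h1
    rw [← h1]
    refine Finset.sum_congr rfl fun i _ => ?_
    rw [hbdef, Finset.sum_mul]
  -- the top coefficient is a constant root of unity
  set c : Qb := a 0 (ℓ + 1) with hc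
  have hbtop : b (ℓ + 1) = HahnSeries.C c := by
    show ∑ k ∈ Finset.range (ℓ + 2), HahnSeries.C (a k (ℓ + 1)) * Jl ^ k = _
    rw [Finset.sum_eq_single 0]
    · rw [pow_zero, mul_one]
    · intro k hk hk0
      have hk2 : k < ℓ + 2 := Finset.mem_range.mp hk
      have hzero : a k (ℓ + 1) = 0 := by
        show (P.coeff k).coeff (ℓ + 1) = 0
        by_cases hkl : k ≤ ℓ
        · exact Polynomial.coeff_eq_zero_of_natDegree_lt
            (lt_of_le_of_lt (hP.natDegree_coeff_le k (Nat.pos_of_ne_zero hk0) hkl)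
              (Nat.lt_succ_self _))
        · have hk1 : k = ℓ + 1 := by omega
          rw [hk1, htop, Polynomial.coeff_one, if_neg (Nat.succ_ne_zero ℓ)]
      rw [hzero, map_zero, zero_mul]
    · intro h0
      exact absurd (Finset.mem_range.mpr (Nat.succ_pos _)) h0
  have hcpow : c ^ (2 * ℓ) = 1 := hP.unit
  set d : Qb := c ^ (2 * ℓ - 1) with hd
  have hdc : d * c = 1 := by
    rw [hd, ← pow_succ, ← hcpow]
    congr 1
    have := hℓ.pos
    omega
  have hdint : IsIntegral ℤ d := (hP.integral 0 (ℓ + 1)).pow _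
  -- `J` is integral over the integral closure of `ℤ[J_ℓ]`
  have hint : IsIntegral (integralClosure (Polynomial ℤ) (LaurentSeries Qb)) J := by
    set β : ℕ → ↥(integralClosure (Polynomial ℤ) (LaurentSeries Qb)) :=
      fun i => ⟨HahnSeries.C d * b i, Subalgebra.mul_mem _ (hC d hdint) (hb i)⟩ with hβ
    set r : Polynomial ↥(integralClosure (Polynomial ℤ) (LaurentSeries Qb)) :=
      ∑ i ∈ Finset.range (ℓ + 1), Polynomial.C (β i) * X ^ i with hr
    have hrdeg : r.degree < ((ℓ + 1 : ℕ) : WithBot ℕ) := by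
      refine lt_of_le_of_lt (Polynomial.degree_sum_le _ _) ?_
      rw [Finset.sup_lt_iff (WithBot.bot_lt_coe _)]
      intro i hi
      exact lt_of_le_of_lt (Polynomial.degree_C_mul_X_pow_le i (β i))
        (by exact_mod_cast Finset.mem_range.mp hi)
    refine ⟨X ^ (ℓ + 1) + r, Polynomial.monic_X_pow_add hrdeg, ?_⟩
    rw [Polynomial.eval₂_add, Polynomial.eval₂_X_pow, hr, Polynomial.eval₂_finsetSum]
    have h3 : ∀ i ∈ Finset.range (ℓ + 1),
        Polynomial.eval₂
            (algebraMap ↥(integralClosure (Polynomial ℤ) (LaurentSeries Qb)) (LaurentSeries Qb))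
            J (Polynomial.C (β i) * X ^ i)
          = HahnSeries.C d * (b i * J ^ i) := by
      intro i _
      rw [Polynomial.eval₂_mul, Polynomial.eval₂_C, Polynomial.eval₂_X_pow]
      show HahnSeries.C d * b i * J ^ i = _
      rw [mul_assoc]
    rw [Finset.sum_congr rfl h3, ← Finset.mul_sum]
    have h4 := hroot
    rw [Finset.sum_range_succ, hbtop] at h4
    have h5 : J ^ (ℓ + 1) = HahnSeries.C d * (HahnSeries.C c * J ^ (ℓ + 1)) := by
      rw [← mul_assoc, ← map_mul, hdc, map_one, one_mul]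
    rw [h5, ← mul_add, add_comm, h4, mul_zero]
  obtain ⟨G, hGm, hG⟩ := isIntegral_trans (R := Polynomial ℤ) _ hint
  refine ⟨G, hGm, ?_⟩
  apply Fermat.Agent.S30.GaussDescent.coeffMap_intCast_injective Qb
  rw [map_zero, Polynomial.hom_eval₂, coeffMap_comp_evalAt, coeffMap_qExpand, coeffMap_jqModC]
  exact hG

/-- The swapped modular equation over an arbitrary commutative ring. -/
theorem evalAt_modEq_swap {ℓ : ℕ} [NeZero ℓ] {G : Polynomial (Polynomial ℤ)}
    (hG : G.eval₂ (evalAt ℤ (qExpand ℤ ℓ (jqModC ℤ))) (jqModC ℤ) = 0) (S : Type*) [CommRing S] :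
    G.eval₂ (evalAt S (qExpand S ℓ (jqModC S))) (jqModC S) = 0 := by
  have h := congrArg (coeffMap (Int.castRingHom S)) hG
  rw [map_zero, Polynomial.hom_eval₂, coeffMap_comp_evalAt, coeffMap_qExpand,
    coeffMap_jqModC] at h
  exact h

/-! ### Integrality statements over an arbitrary commutative ring -/

/-- `q ↦ z q` fixes the series in `q^ℓ` when `z ^ ℓ = 1`. -/
theorem rescale_qExpand {S : Type*} [CommRing S] {ℓ : ℕ} [NeZero ℓ] (z : Sˣ) (hz : z ^ ℓ = 1)
    (x : LaurentSeries S) :
    Fermat.Agent.S30.Congr.rescale z (qExpand S ℓ x) = qExpand S ℓ x := by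
  ext n
  rw [Fermat.Agent.S30.Congr.coeff_rescale]
  by_cases hn : (ℓ : ℤ) ∣ n
  · obtain ⟨m, rfl⟩ := hn
    rw [zpow_mul, zpow_natCast, hz, one_zpow, Units.val_one, one_mul]
  · rw [qExpand_coeff_of_not_dvd ℓ x hn, mul_zero]

section Integral

variable {ℓ : ℕ} [NeZero ℓ] (hℓ : ℓ.Prime) (S : Type*) [CommRing S]

include hℓ

/-- **(a)** `j(q^ℓ)` is integral over `S[j(q)]`. -/
theorem isIntegral_qExpand_jq :
    IsIntegral (Algebra.adjoin S {jqModC S}) (qExpand S ℓ (jqModC S)) := by
  obtain ⟨G, hGm, hG⟩ := Fermat.Agent.S34.Sat.exists_modEq_int hℓ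
  have h := Fermat.Agent.S34.Sat.evalJ_modEq hG S
  rw [evalJ_eq_evalAt] at h
  exact isIntegral_adjoin_of_evalAt _ _ G hGm h

/-- **(b)** `j(q)` is integral over `S[j(q^ℓ)]`. -/
theorem isIntegral_jq_qExpand :
    IsIntegral (Algebra.adjoin S {qExpand S ℓ (jqModC S)}) (jqModC S) := by
  obtain ⟨G, hGm, hG⟩ := exists_modEq_int_swap hℓ
  exact isIntegral_adjoin_of_evalAt _ _ G hGm (evalAt_modEq_swap hG S)

/-- The conjugate at `∞`: `j(q^(ℓ²))` is integral over `S[j(q^ℓ)]`. -/
theorem isIntegral_qExpand_qExpand_jq :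
    IsIntegral (Algebra.adjoin S {qExpand S ℓ (jqModC S)})
      (qExpand S ℓ (qExpand S ℓ (jqModC S))) := by
  obtain ⟨G, hGm, hG⟩ := Fermat.Agent.S34.Sat.exists_modEq_int hℓ
  have h := Fermat.Agent.S34.Sat.evalJ_modEq hG S
  rw [evalJ_eq_evalAt] at h
  have h1 := congrArg (qExpand S ℓ) h
  rw [map_zero, Polynomial.hom_eval₂, qExpand_comp_evalAt] at h1
  exact isIntegral_adjoin_of_evalAt _ _ G hGm h1

/-- The finite conjugates: `j(z q)` is integral over `S[j(q^ℓ)]` for `z ^ ℓ = 1`. -/
theorem isIntegral_rescale_jq (z : Sˣ) (hz : z ^ ℓ = 1) :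
    IsIntegral (Algebra.adjoin S {qExpand S ℓ (jqModC S)})
      (Fermat.Agent.S30.Congr.rescale z (jqModC S)) := by
  obtain ⟨G, hGm, hG⟩ := exists_modEq_int_swap hℓ
  have h := evalAt_modEq_swap hG S
  have h1 := congrArg (Fermat.Agent.S30.Congr.rescale z) h
  rw [map_zero, Polynomial.hom_eval₂, rescale_comp_evalAt, rescale_qExpand z hz] at h1
  exact isIntegral_adjoin_of_evalAt _ _ G hGm h1

end Integral

end Fermat.Agent.S44.H.IntJ
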