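/-
PROGRAM MR (S44), strand H, brick (H.4)/(MR.H.5) `ModEqStatement` — helper206.

`j(q^(ℓ²))` and `j(zⁱ q)` are integral over `κ[j(q^ℓ)]`: a restatement of `S44/H/IntJ.lean`
(the swapped modular equation over `ℤ`) in the `Congr.expand` spelling of `S44/H/Bricks.lean`.
-/
import Mathlib
import Fermat.Agent.S44.H.Bricks
import Fermat.Agent.S44.H.IntJ

set_option autoImplicit false

open ModularCurve

namespace Fermat.Agent.S44.H.ModEqInt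

open Fermat.Agent.S30

/-- `Congr.expand ℓ` is the Prelude's `qExpand _ ℓ`. -/
theorem expand_eq_qExpand {R : Type*} [CommRing R] (ℓ : ℕ) [NeZero ℓ] (hℓ : 0 < ℓ)
    (x : LaurentSeries R) : Congr.expand ℓ hℓ x = qExpand R ℓ x := by
  ext n
  by_cases hn : (ℓ : ℤ) ∣ n
  · obtain ⟨m, rfl⟩ := hn
    rw [Congr.coeff_expand_mul, qExpand_coeff_mul]
  · rw [Congr.coeff_expand_of_not_dvd ℓ hℓ _ hn, qExpand_coeff_of_not_dvd _ _ hn]

/-- `Congr.expand (ℓ * ℓ)` is `qExpand _ ℓ` twice. -/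
theorem expand_mul_self_eq {R : Type*} [CommRing R] (ℓ : ℕ) [NeZero ℓ] (hℓ : 0 < ℓ * ℓ)
    (x : LaurentSeries R) :
    Congr.expand (ℓ * ℓ) hℓ x = qExpand R ℓ (qExpand R ℓ x) := by
  ext n
  by_cases hn : (((ℓ * ℓ : ℕ)) : ℤ) ∣ n
  · obtain ⟨m, rfl⟩ := hn
    rw [Congr.coeff_expand_mul]
    have h1 : (((ℓ * ℓ : ℕ)) : ℤ) * m = (ℓ : ℤ) * ((ℓ : ℤ) * m) := by push_cast; ring
    rw [h1, qExpand_coeff_mul, qExpand_coeff_mul]
  · rw [Congr.coeff_expand_of_not_dvd (ℓ * ℓ) hℓ _ hn]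
    by_cases h1 : (ℓ : ℤ) ∣ n
    · obtain ⟨k, rfl⟩ := h1
      rw [qExpand_coeff_mul]
      have h2 : ¬ (ℓ : ℤ) ∣ k := by
        rintro ⟨m, rfl⟩
        exact hn ⟨m, by push_cast; ring⟩
      rw [qExpand_coeff_of_not_dvd _ _ h2]
    · rw [qExpand_coeff_of_not_dvd _ _ h1]

/-- **(H.4) The modular equation, integral form.** -/
theorem modEq : ModEqStatement := by
  intro κ _ ℓ hℓ z hz
  have : NeZero ℓ := ⟨hℓ.ne_zero⟩
  rw [expand_eq_qExpand ℓ hℓ.pos, expand_mul_self_eq ℓ (Nat.mul_pos hℓ.pos hℓ.pos)]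
  refine ⟨IntJ.isIntegral_qExpand_qExpand_jq hℓ κ, fun i => ?_⟩
  refine IntJ.isIntegral_rescale_jq hℓ κ (z ^ i) ?_
  rw [← pow_mul, mul_comm, pow_mul, hz.pow_eq_one, one_pow]

end Fermat.Agent.S44.H.ModEqInt
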