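import Mathlib
import Fermat.Agent.S44.H.Bricks
import Fermat.Agent.S30.E4.NormDiv

/-!
# PROGRAM MR (S44), strand H, brick (H.5) = row MR.H.7: `NormPDivStatement` (helper192)

Norms preserve "unit times `p`-th power" over a discrete valuation subring.  Port of
`S30/E4/NormDiv.dvd_ord_norm` to a valuation subring `w` of `K` and a finite separable `L / K`:
`C := integralClosure w L` is a Dedekind domain with finitely many primes; for a prime `P` of `C`
the valuation subring of `P.valuation L` lies over `w` (direct computation), so `PDivAt` gives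
`p ∣ log (v_P y)`; `NormDiv.exists_pow_mul_unit` writes `y = u * g ^ p` with `u` a unit of `C`, and
the norm of a unit of `C` is a unit of `w`.
-/

set_option autoImplicit false

namespace Fermat.Agent.S44.H.NormPDiv

open IsDedekindDomain WithZero Fermat.Agent.S44.L.Top

theorem normPDiv_aux (K L : Type) [Field K] [Field L] [Algebra K L] [FiniteDimensional K L]
    [Algebra.IsSeparable K L] (p : ℕ) (w : ValuationSubring K) (hw : IsDiscreteValuationRing w)
    (y : L) (hy : y ≠ 0)
    (h : ∀ W : ValuationSubring L, W.comap (algebraMap K L) = w → PDivAt p W y) :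
    PDivAt p w (Algebra.norm K y) := by
  classical
  let _ : Algebra w L := ((algebraMap K L).comp (algebraMap w K)).toAlgebra
  have : IsScalarTower w K L := IsScalarTower.of_algebraMap_eq fun _ => rfl
  let C := integralClosure w L
  have : IsDedekindDomain C := integralClosure.isDedekindDomain w K L
  have : IsFractionRing C L := integralClosure.isFractionRing_of_finite_extension K L
  have : Module.IsTorsionFree w L := Module.IsTorsionFree.trans_faithfulSMul w K L
  have : Module.IsTorsionFree w C := IsIntegralClosure.isTorsionFree w L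
  -- primes of `C`
  have hunder : ∀ P : Ideal C, P.IsPrime → P ≠ ⊥ → P.under w = IsLocalRing.maximalIdeal w := by
    intro P hP hbot
    have hu : (P.under w).IsPrime := Ideal.IsPrime.under w P
    have hne : P.under w ≠ ⊥ := fun h0 => hbot (Ideal.eq_bot_of_comap_eq_bot h0)
    have hmax : (P.under w).IsMaximal := hu.isMaximal hne
    exact IsLocalRing.eq_maximalIdeal hmax
  have hfin : {I : Ideal C | I.IsPrime}.Finite := by
    have h1 : ((IsLocalRing.maximalIdeal w).primesOver C).Finite :=
      IsDedekindDomain.primesOver_finite (IsLocalRing.maximalIdeal w) C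
    refine (h1.union (Set.finite_singleton (⊥ : Ideal C))).subset ?_
    intro P hP
    have hP' : P.IsPrime := hP
    by_cases hbot : P = ⊥
    · right
      exact hbot
    · left
      exact ⟨hP', ⟨(hunder P hP' hbot).symm⟩⟩
  -- the valuation subrings of the primes lie over `w`
  have hcomap : ∀ P : HeightOneSpectrum C,
      ((P.valuation L).valuationSubring).comap (algebraMap K L) = w := by
    intro P
    ext x
    rw [ValuationSubring.mem_comap, Valuation.mem_valuationSubring_iff]
    constructor
    · intro hx
      by_contra hxw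
      have hx0 : x ≠ 0 := fun h0 => hxw (h0 ▸ w.zero_mem)
      have hxi : x⁻¹ ∈ w := (w.mem_or_inv_mem x).resolve_left hxw
      have hnu : ¬ IsUnit (⟨x⁻¹, hxi⟩ : w) := by
        intro hu
        obtain ⟨b, hb⟩ := hu.exists_right_inv
        have hb' : x⁻¹ * (b : K) = 1 := by
          have := congrArg Subtype.val hb
          simpa using this
        have hbx : (b : K) = x := by
          field_simp at hb'
          exact hb'
        exact hxw (hbx ▸ b.2)
      have hmem : algebraMap w C ⟨x⁻¹, hxi⟩ ∈ P.asIdeal := by
        have h1 : (⟨x⁻¹, hxi⟩ : w) ∈ P.asIdeal.under w := by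
          rw [hunder P.asIdeal P.isPrime P.ne_bot]
          exact (IsLocalRing.mem_maximalIdeal _).2 hnu
        exact h1
      have hlt0 := (P.valuation_lt_one_iff_mem (K := L) _).2 hmem
      have hlt : P.valuation L (algebraMap K L x⁻¹) < 1 := hlt0
      rw [map_inv₀, map_inv₀] at hlt
      have hx0' : P.valuation L (algebraMap K L x) ≠ 0 := by
        rw [Valuation.ne_zero_iff]
        exact (map_ne_zero _).2 hx0
      have h2 : (1 : ℤᵐ⁰) < P.valuation L (algebraMap K L x) := by
        rw [inv_lt_one₀ (zero_lt_iff.2 hx0')] at hlt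
        exact hlt
      exact absurd hx (not_le.2 h2)
    · intro hx
      have h1 := P.valuation_le_one (K := L) (algebraMap w C ⟨x, hx⟩)
      exact h1
  have hdiv : ∀ P : HeightOneSpectrum C, (p : ℤ) ∣ log (P.valuation L y) := by
    intro P
    obtain ⟨u, g, hyug, hu, hui⟩ := h _ (hcomap P)
    rw [Valuation.mem_valuationSubring_iff] at hu hui
    have hu0 : u ≠ 0 := by
      rintro rfl
      rw [zero_mul] at hyug
      exact hy hyug
    have hvu : P.valuation L u = 1 := by
      rw [map_inv₀] at hui
      have hne : P.valuation L u ≠ 0 := (Valuation.ne_zero_iff _).2 hu0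
      have h1 : 1 ≤ P.valuation L u := by
        rwa [inv_le_one₀ (zero_lt_iff.2 hne)] at hui
      exact le_antisymm hu h1
    rw [hyug, map_mul, hvu, one_mul, map_pow, WithZero.log_pow]
    exact Dvd.intro _ rfl
  obtain ⟨g, hg0, hg⟩ := Fermat.Agent.S30.E4.NormDiv.exists_pow_mul_unit hfin p y hy hdiv
  set u : L := y * (g ^ p)⁻¹ with hu
  have hu0 : u ≠ 0 := mul_ne_zero hy (inv_ne_zero (pow_ne_zero _ hg0))
  have hyu : y = u * g ^ p := by
    rw [hu, mul_assoc, inv_mul_cancel₀ (pow_ne_zero _ hg0), mul_one]
  have hint : ∀ x : L, (∀ P : HeightOneSpectrum C, P.valuation L x = 1) → IsIntegral w x := by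
    intro x hx
    obtain ⟨c, rfl⟩ := HeightOneSpectrum.mem_integers_of_valuation_le_one L x
      (fun P => (hx P).le)
    exact c.2
  have hu_int : IsIntegral w u := hint u hg
  have hui_int : IsIntegral w u⁻¹ := hint u⁻¹ fun P => by
    rw [map_inv₀, hg P, inv_one]
  have hmemw : ∀ x : K, IsIntegral w x → x ∈ w := by
    intro x hx
    obtain ⟨c, rfl⟩ := (IsIntegrallyClosed.isIntegral_iff (R := w) (K := K)).1 hx
    exact c.2
  have hNu : Algebra.norm K u ∈ w := hmemw _ (Algebra.isIntegral_norm K hu_int)
  have hNui : Algebra.norm K u⁻¹ ∈ w := hmemw _ (Algebra.isIntegral_norm K hui_int)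
  have hinv : Algebra.norm K u⁻¹ = (Algebra.norm K u)⁻¹ := by
    apply eq_inv_of_mul_eq_one_right
    rw [← map_mul, mul_inv_cancel₀ hu0, map_one]
  refine ⟨Algebra.norm K u, Algebra.norm K g, ?_, hNu, hinv ▸ hNui⟩
  rw [hyu, map_mul, map_pow]

theorem normPDiv : NormPDivStatement :=
  fun K L _ _ _ _ _ p w hw y hy h => normPDiv_aux K L p w hw y hy h

end Fermat.Agent.S44.H.NormPDiv
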