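import Mathlib
import Fermat.Agent.S44.H.Bricks
import Fermat.Agent.S44.L.ThetaLog

/-!
# PROGRAM MR (S44), strand H, brick (H.1): reduction commutes with the Hecke operator

`redHecke : RedHeckeStatement` (literal of `S44/H/Bricks.lean`): with `z̄` the residue of the
chosen primitive `ℓ`-th root of unity `E4.zetaU ℓ` (a primitive `ℓ`-th root of unity of `κ`
because `ℓ ≠ p`), if `g` is a reduction of `G` and `g'` a reduction of `T_ℓ G`, then
`g' = c · T_ℓ g` for a nonzero constant `c ∈ κ`.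

Pieces (all for an arbitrary level `N`):

* `heckeMul_C` : `T_ℓ` of a constant `c` is the constant `c ^ (ℓ + 1)` (formal);
* `zbar A ℓ`, `isPrimitiveRoot_zbar` : the residue of `E4.zetaU ℓ`, primitive when `(ℓ : κ) ≠ 0`;
* `red_heckeMul` : `Congr.red` commutes with `Congr.heckeMul`;
* `redAt_heckeFb` : `RedAt N A G g → RedAt N A (E4.heckeFb N ℓ G) (T_ℓ g)`;
* `redAt_unique` : two reductions of the same function differ by a nonzero constant.
-/

set_option autoImplicit false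

open HahnSeries ModularCurve

namespace Fermat.Agent.S44.H.RedHecke

open Fermat.Agent.S30 Fermat.Agent.S30.Producer Fermat.Agent.S44.Contract
open Fermat.Agent.S44.L.Top

/-! ### Formal lemmas: the Hecke operator on constants -/

section Formal

variable {R : Type*} [CommRing R]

theorem expand_C (ℓ : ℕ) (hℓ : 0 < ℓ) (c : R) :
    Congr.expand ℓ hℓ (HahnSeries.C c : LaurentSeries R) = HahnSeries.C c := by
  rw [HahnSeries.C_apply, Congr.expand_single, mul_zero]

theorem rescale_C (z : Rˣ) (c : R) :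
    Congr.rescale z (HahnSeries.C c : LaurentSeries R) = HahnSeries.C c := by
  ext n
  rw [Congr.coeff_rescale, HahnSeries.C_apply, HahnSeries.coeff_single]
  split_ifs with h
  · subst h
    simp
  · simp

theorem conjProd_C (ℓ : ℕ) (z : Rˣ) (c : R) :
    Congr.conjProd ℓ z (HahnSeries.C c : LaurentSeries R) = HahnSeries.C (c ^ ℓ) := by
  unfold Congr.conjProd
  rw [Finset.prod_congr rfl fun i _ => rescale_C (z ^ i) c, Finset.prod_const, Finset.card_range,
    map_pow]

theorem contract_C (ℓ : ℕ) (hℓ : 0 < ℓ) (c : R) :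
    Congr.contract ℓ hℓ (HahnSeries.C c : LaurentSeries R) = HahnSeries.C c := by
  ext n
  rw [Congr.coeff_contract, HahnSeries.C_apply, HahnSeries.coeff_single, HahnSeries.coeff_single]
  have hℓ' : (ℓ : ℤ) ≠ 0 := by exact_mod_cast hℓ.ne'
  by_cases hn : n = 0
  · subst hn
    simp
  · rw [if_neg hn, if_neg (mul_ne_zero hℓ' hn)]

/-- The multiplicative Hecke operator on a constant: `T_ℓ c = c ^ (ℓ + 1)`. -/
theorem heckeMul_C (ℓ : ℕ) (hℓ : 0 < ℓ) (z : Rˣ) (c : R) :
    Congr.heckeMul ℓ hℓ z (HahnSeries.C c : LaurentSeries R) = HahnSeries.C (c ^ (ℓ + 1)) := by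
  unfold Congr.heckeMul Congr.normL
  rw [expand_C, conjProd_C, contract_C, ← map_mul, pow_succ']

end Formal

/-! ### The residue of the chosen root of unity -/

section Zbar

variable (A : ValuationSubring Qb)

theorem zetaU_pow (ℓ : ℕ) (hℓ : 0 < ℓ) : ((E4.zetaU ℓ : Qbˣ) : Qb) ^ ℓ = 1 := by
  have h := (E4.zetaU_spec hℓ).pow_eq_one
  have h2 := congrArg (fun u : Qbˣ => (u : Qb)) h
  simpa using h2

/-- The residue of the chosen primitive `ℓ`-th root of unity `E4.zetaU ℓ`, as a unit of the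
residue field of `A`. -/
noncomputable def zbar (ℓ : ℕ) (hℓ : 0 < ℓ) : (IsLocalRing.ResidueField A)ˣ :=
  Units.map ((IsLocalRing.residue A : A →+* IsLocalRing.ResidueField A) :
    A →* IsLocalRing.ResidueField A) (Congr.unitA A hℓ (zetaU_pow ℓ hℓ))

theorem zbar_pow (ℓ : ℕ) (hℓ : 0 < ℓ) : zbar A ℓ hℓ ^ ℓ = 1 := by
  unfold zbar
  rw [← map_pow]
  have h : Congr.unitA A hℓ (zetaU_pow ℓ hℓ) ^ ℓ = 1 := by
    apply Units.ext
    apply Subtype.ext
    simp only [Units.val_pow_eq_pow_val, Units.val_one]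
    show ((E4.zetaU ℓ : Qbˣ) : Qb) ^ ℓ = 1
    exact zetaU_pow ℓ hℓ
  rw [h, map_one]

/-- The residue of `E4.zetaU ℓ` is a primitive `ℓ`-th root of unity of `κ` when `ℓ` is a prime
that is nonzero in `κ`. -/
theorem isPrimitiveRoot_zbar {ℓ : ℕ} (hℓ : ℓ.Prime)
    (hℓκ : (ℓ : IsLocalRing.ResidueField A) ≠ 0) : IsPrimitiveRoot (zbar A ℓ hℓ.pos) ℓ := by
  have : Fact ℓ.Prime := ⟨hℓ⟩
  -- the root of unity of `A`
  have h0 : IsPrimitiveRoot ((E4.zetaU ℓ : Qbˣ) : Qb) ℓ :=
    IsPrimitiveRoot.coe_units_iff.2 (E4.zetaU_spec hℓ.pos)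
  have hA : IsPrimitiveRoot (((Congr.unitA A hℓ.pos (zetaU_pow ℓ hℓ.pos) : Aˣ) : A)) ℓ :=
    IsPrimitiveRoot.of_map_of_injective (f := A.subtype) h0 Subtype.val_injective
  have hsum := hA.geom_sum_eq_zero hℓ.one_lt
  have hne : zbar A ℓ hℓ.pos ≠ 1 := by
    intro h1
    have h2 : IsLocalRing.residue A ((Congr.unitA A hℓ.pos (zetaU_pow ℓ hℓ.pos) : Aˣ) : A) = 1 := by
      have h3 := congrArg (fun u : (IsLocalRing.ResidueField A)ˣ => (u : IsLocalRing.ResidueField A)) h1
      simpa [zbar] using h3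
    have h4 := congrArg (IsLocalRing.residue A) hsum
    rw [map_sum, map_zero] at h4
    simp only [map_pow, h2, one_pow, Finset.sum_const, Finset.card_range, nsmul_eq_mul,
      mul_one] at h4
    exact hℓκ h4
  have h5 := IsPrimitiveRoot.orderOf (zbar A ℓ hℓ.pos)
  rwa [orderOf_eq_prime (zbar_pow A ℓ hℓ.pos) hne] at h5

/-- A prime different from the residue characteristic is nonzero in the residue field. -/
theorem natCast_residue_ne_zero {p : ℕ} (hp : p.Prime) (hA : A.LiesOverPrime p) {ℓ : ℕ}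
    (hℓ : ℓ.Prime) (hℓp : ℓ ≠ p) : (ℓ : IsLocalRing.ResidueField A) ≠ 0 := by
  have : Fact p.Prime := ⟨hp⟩
  have := Congr.charP_residue A hA
  intro h
  rw [CharP.cast_eq_zero_iff (IsLocalRing.ResidueField A) p] at h
  exact hℓp ((Nat.prime_dvd_prime_iff_eq hp hℓ).1 h).symm

/-- Reduction commutes with the multiplicative Hecke operator. -/
theorem red_heckeMul (ℓ : ℕ) (hℓ : 0 < ℓ) (u : LaurentSeries A) :
    Congr.red A (Congr.heckeMul ℓ hℓ (Congr.unitA A hℓ (zetaU_pow ℓ hℓ)) u)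
      = Congr.heckeMul ℓ hℓ (zbar A ℓ hℓ) (Congr.red A u) := by
  unfold Congr.red zbar
  rw [Congr.coeffMap_heckeMul]

end Zbar

/-! ### Reductions of `T_ℓ G` -/

section Red

variable (A : ValuationSubring Qb)

/-- A function with a reduction is nonzero. -/
theorem ne_zero_of_redAt {N : ℕ} {x : FN N} {f : LaurentSeries (IsLocalRing.ResidueField A)}
    (h : RedAt N A x f) : (x : LaurentSeries Qb) ≠ 0 := by
  obtain ⟨c, U, V, hc, hU, hV, hxV, hf⟩ := h
  intro hx
  rw [hx, zero_mul] at hxV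
  have hC : (HahnSeries.C c : LaurentSeries Qb) ≠ 0 :=
    (map_ne_zero (HahnSeries.C : Qb →+* LaurentSeries Qb)).2 hc
  have hU0 : Congr.incl A U = 0 := by
    rcases mul_eq_zero.1 hxV.symm with h1 | h1
    · exact absurd h1 hC
    · exact h1
  have hU1 : U = 0 := Congr.incl_injective A (by rw [hU0, map_zero])
  exact hU (by rw [hU1, map_zero])

/-- **`T_ℓ` of a reduction is a reduction of `T_ℓ`.** -/
theorem redAt_heckeFb (N : ℕ) [NeZero N] {ℓ : ℕ} (hℓ : ℓ.Prime) (hℓN : ¬ ℓ ∣ N)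
    (hℓκ : (ℓ : IsLocalRing.ResidueField A) ≠ 0) (G : FN N)
    (g : LaurentSeries (IsLocalRing.ResidueField A)) (hg : RedAt N A G g) :
    RedAt N A (E4.heckeFb N ℓ G) (Congr.heckeMul ℓ hℓ.pos (zbar A ℓ hℓ.pos) g) := by
  obtain ⟨c, U, V, hc, hU, hV, hGV, hgV⟩ := hg
  have hz0 : IsPrimitiveRoot (E4.zetaU ℓ) ℓ := E4.zetaU_spec hℓ.pos
  have hzb : IsPrimitiveRoot (zbar A ℓ hℓ.pos) ℓ := isPrimitiveRoot_zbar A hℓ hℓκ
  refine ⟨c ^ (ℓ + 1),
    Congr.heckeMul ℓ hℓ.pos (Congr.unitA A hℓ.pos (zetaU_pow ℓ hℓ.pos)) U,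
    Congr.heckeMul ℓ hℓ.pos (Congr.unitA A hℓ.pos (zetaU_pow ℓ hℓ.pos)) V,
    pow_ne_zero _ hc, ?_, ?_, ?_, ?_⟩
  · rw [red_heckeMul]
    exact Fermat.Agent.S44.L.ThetaLog.heckeMul_ne_zero ℓ hℓ.pos _ hzb hU
  · rw [red_heckeMul]
    exact Fermat.Agent.S44.L.ThetaLog.heckeMul_ne_zero ℓ hℓ.pos _ hzb hV
  · rw [E4.coe_heckeFb N hℓ hℓN, Congr.incl_heckeMul A hℓ.pos (E4.zetaU ℓ) (zetaU_pow ℓ hℓ.pos),
      Congr.incl_heckeMul A hℓ.pos (E4.zetaU ℓ) (zetaU_pow ℓ hℓ.pos),
      ← Congr.heckeMul_mul ℓ hℓ.pos _ hz0, hGV, Congr.heckeMul_mul ℓ hℓ.pos _ hz0, heckeMul_C]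
  · rw [red_heckeMul, red_heckeMul, ← Congr.heckeMul_mul ℓ hℓ.pos _ hzb, hgV]

theorem incl_C (a : A) :
    Congr.incl A (HahnSeries.C a : LaurentSeries A) = HahnSeries.C (a : Qb) := by
  unfold Congr.incl
  simp only [HahnSeries.C_apply]
  rw [coeffMap_single]
  rfl

theorem red_C (a : A) :
    Congr.red A (HahnSeries.C a : LaurentSeries A) = HahnSeries.C (IsLocalRing.residue A a) := by
  unfold Congr.red
  simp only [HahnSeries.C_apply]
  rw [coeffMap_single]

/-- Two integral series with nonzero reductions that are proportional over `ℚ̄` have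
proportional reductions. -/
theorem red_eq_C_mul_of_incl {X Y : LaurentSeries A} {d : Qb} (hd : d ≠ 0)
    (hX : Congr.red A X ≠ 0) (hY : Congr.red A Y ≠ 0)
    (h : Congr.incl A X = HahnSeries.C d * Congr.incl A Y) :
    ∃ e : IsLocalRing.ResidueField A, e ≠ 0 ∧
      Congr.red A X = HahnSeries.C e * Congr.red A Y := by
  have key : ∀ (X Y : LaurentSeries A) (d : Qb) (hdA : d ∈ A),
      Congr.incl A X = HahnSeries.C d * Congr.incl A Y →
      Congr.red A X = HahnSeries.C (IsLocalRing.residue A ⟨d, hdA⟩) * Congr.red A Y := by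
    intro X Y d hdA h
    have h1 : X = HahnSeries.C (⟨d, hdA⟩ : A) * Y := by
      apply Congr.incl_injective A
      rw [h, map_mul, incl_C]
    rw [h1, map_mul, red_C]
  rcases A.mem_or_inv_mem d with hdA | hdA
  · have h1 := key X Y d hdA h
    refine ⟨_, ?_, h1⟩
    intro h0
    rw [h0, map_zero, zero_mul] at h1
    exact hX h1
  · have h' : Congr.incl A Y = HahnSeries.C d⁻¹ * Congr.incl A X := by
      rw [h, ← mul_assoc, ← map_mul, inv_mul_cancel₀ hd, map_one, one_mul]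
    have h1 := key Y X d⁻¹ hdA h'
    have hne : IsLocalRing.residue A ⟨d⁻¹, hdA⟩ ≠ 0 := by
      intro h0
      rw [h0, map_zero, zero_mul] at h1
      exact hY h1
    refine ⟨(IsLocalRing.residue A ⟨d⁻¹, hdA⟩)⁻¹, inv_ne_zero hne, ?_⟩
    rw [h1, ← mul_assoc, ← map_mul, inv_mul_cancel₀ hne, map_one, one_mul]

/-- **Uniqueness of the reduction up to a nonzero constant.** -/
theorem redAt_unique {N : ℕ} {x : FN N} {f f' : LaurentSeries (IsLocalRing.ResidueField A)}
    (h : RedAt N A x f) (h' : RedAt N A x f') :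
    ∃ e : IsLocalRing.ResidueField A, e ≠ 0 ∧ f' = HahnSeries.C e * f := by
  have hx : (x : LaurentSeries Qb) ≠ 0 := ne_zero_of_redAt A h
  obtain ⟨c, U, V, hc, hU, hV, hxV, hfV⟩ := h
  obtain ⟨c', U', V', hc', hU', hV', hxV', hfV'⟩ := h'
  -- `incl (V * U') = C (c / c') * incl (U * V')`
  have hcross : Congr.incl A (V * U') = HahnSeries.C (c / c') * Congr.incl A (U * V') := by
    have hC' : (HahnSeries.C c' : LaurentSeries Qb) ≠ 0 :=
      (map_ne_zero (HahnSeries.C : Qb →+* LaurentSeries Qb)).2 hc'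
    have h1 : (x : LaurentSeries Qb) * (HahnSeries.C c' * Congr.incl A (V * U'))
        = (x : LaurentSeries Qb) * (HahnSeries.C c * Congr.incl A (U * V')) := by
      rw [map_mul, map_mul]
      calc (x : LaurentSeries Qb) * (HahnSeries.C c' * (Congr.incl A V * Congr.incl A U'))
          = ((x : LaurentSeries Qb) * Congr.incl A V) * (HahnSeries.C c' * Congr.incl A U') := by
            ring
        _ = (HahnSeries.C c * Congr.incl A U) * ((x : LaurentSeries Qb) * Congr.incl A V') := by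
            rw [hxV, hxV']
        _ = (x : LaurentSeries Qb) * (HahnSeries.C c * (Congr.incl A U * Congr.incl A V')) := by
            ring
    have h2 := mul_left_cancel₀ hx h1
    have h3 : (HahnSeries.C (c / c') : LaurentSeries Qb) = (HahnSeries.C c')⁻¹ * HahnSeries.C c := by
      rw [div_eq_inv_mul, map_mul, map_inv₀]
    rw [h3, mul_assoc, ← h2, ← mul_assoc, inv_mul_cancel₀ hC', one_mul]
  obtain ⟨e, he, hred⟩ := red_eq_C_mul_of_incl A (div_ne_zero hc hc')
    (by rw [map_mul]; exact mul_ne_zero hV hU') (by rw [map_mul]; exact mul_ne_zero hU hV') hcross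
  refine ⟨e, he, ?_⟩
  rw [map_mul, map_mul] at hred
  have hVV : Congr.red A V' * Congr.red A V ≠ 0 := mul_ne_zero hV' hV
  apply mul_right_cancel₀ hVV
  calc f' * (Congr.red A V' * Congr.red A V)
      = (f' * Congr.red A V') * Congr.red A V := by ring
    _ = Congr.red A V * Congr.red A U' := by rw [hfV']; ring
    _ = HahnSeries.C e * (Congr.red A U * Congr.red A V') := hred
    _ = HahnSeries.C e * ((f * Congr.red A V) * Congr.red A V') := by rw [hfV]
    _ = HahnSeries.C e * f * (Congr.red A V' * Congr.red A V) := by ring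

end Red

/-! ### The brick -/

/-- **(H.1)** Reduction commutes with the Hecke operator, up to a nonzero constant. -/
theorem redHecke : RedHeckeStatement := by
  intro p N' _ _ hp hpN' A hA ℓ hℓ hℓN
  have hℓp : ℓ ≠ p := by
    rintro rfl
    exact hℓN (Dvd.intro_left _ rfl)
  have hℓκ : (ℓ : IsLocalRing.ResidueField A) ≠ 0 := natCast_residue_ne_zero A hp hA hℓ hℓp
  refine ⟨zbar A ℓ hℓ.pos, isPrimitiveRoot_zbar A hℓ hℓκ, ?_⟩
  intro G g g' _ hg hg'
  exact redAt_unique A (redAt_heckeFb A (N' * p) hℓ hℓN hℓκ G g hg) hg'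

end Fermat.Agent.S44.H.RedHecke
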