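import Mathlib
import Fermat.Agent.S44.H.Assembly
import Fermat.Agent.S44.H.RedHecke
import Fermat.Agent.S44.H.ModEqInt
import Fermat.Agent.S44.H.NormPDiv
import Fermat.Agent.S44.H.SepSeries
import Fermat.Agent.S44.L.Kappa

/-!
# PROGRAM MR (S44), strand H: the compiled chain to `L.Top.HDivStatement`

`hDivStatement_of` (helper170): `HDivStatement` from the four bricks of `S44/H/Bricks.lean` that
are still open; the landed bricks (`Kappa.kappaStatement`, `RedHecke.redHecke`,
`SepSeries.sepSeries`, `ModEqInt.modEq`, `NormPDiv.normPDiv`, `Assembly.assembly`) are plugged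
in.  The final `S44/H/Exit.lean` is this theorem applied to the four remaining theorems.
-/

set_option autoImplicit false

namespace Fermat.Agent.S44.H.ExitOf

open Fermat.Agent.S44.L.Top Fermat.Agent.S44.H

/-- Strand H from its four open bricks. -/
theorem hDivStatement_of (h2 : HeckeMemStatement) (h3a : RedFinStatement) (h3c : DvrStatement)
    (h6 : NormPDivStatement → VirtNormStatement) : HDivStatement :=
  Assembly.assembly Fermat.Agent.S44.L.Kappa.kappaStatement RedHecke.redHecke h2 h3a
    SepSeries.sepSeries ModEqInt.modEq h3c h6 NormPDiv.normPDiv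

end Fermat.Agent.S44.H.ExitOf
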