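import Mathlib
import Fermat.Agent.S44.H.Bricks

/-!
# PROGRAM MR (S44), strand H, row MR.H.8: virtual norms preserve `PDivAt` (helper130)

`virtNorm : NormPDivStatement → VirtNormStatement`.

Setting (`VirtNormStatement`): `φ, c x : k →+* LS` field embeddings (`x` in a finite type `ι`)
agreeing on an infinite subfield `κ₀` of `k`, one element `t` with the `c x t` pairwise distinct,
and `T : k → k` with `φ (T b) = ∏ x, c x b`.  A predicate `good` on valuation subrings of `k`
(good ⇒ trivial or discrete; a valuation subring of `LS` which is good along `φ` is good along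
every `c x`).  Then `T` preserves "`PDivAt p w` at every good `w`".

Proof (characteristic-free port of `S48/G1/F1/VirtNormDiv`; nothing is imported from there):

* `k` acts on `LS` through `φ`.  By interpolation at `card ι + 1` elements of `κ₀` the polynomial
  `∏ x, (X - c x b)` has coefficients in `φ k` (`exists_poly_of_mul`).
* `E_x := φ(k)(c_x(k))` is algebraic over `φ(k)`, and SEPARABLE: for `b : k` and all but finitely
  many `s ∈ κ₀` the element `t + s b` again separates the `c x`, so `c x (t + s b)` is a simple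
  root of a polynomial over `φ k`, and `c x b = φ(s)⁻¹ (c x (t + s b) - c x t)`
  (`isSeparable_c`; the separability of `k` over `κ₀(t)` is not needed).
* Every `φ(k)`-embedding of `E_x` is `c x ↦ c y` for exactly one `y` (a vector space over the
  infinite field `κ₀` is not a finite union of proper subspaces), so `E_x` is finite over `φ(k)`
  and `φ (T b) = ∏_{classes} N_{E_x / φ(k)} (c x b)` (`exists_factorization`).
* For a valuation subring `W` of `E_x` over `w`: `W = V ∩ E_x` for a valuation subring `V` of
  `LS` (`exists_valuationSubring_comap_eq`, from `LocalSubring.exists_le_valuationSubring`);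
  `V.comap φ = w` is good, hence so is `V.comap (c x)`, where `b = u h ^ p`; apply `c x`.
* `NormPDivStatement` at `K := k`, `L := E_x`, and `PDivAt` is multiplicative.

Exits: `virtNorm_of_inj` (no separability hypothesis) and `virtNorm` (the literal of `Bricks`).
-/

set_option autoImplicit false
set_option linter.style.haveILetI false

noncomputable section

namespace Fermat.Agent.S44.H.VirtNorm

open Polynomial
open Fermat.Agent.S44.L.Top (PDivAt)

/-! ### Part 0: `PDivAt` is multiplicative -/

section PDiv

variable {K : Type*} [Field K]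

theorem pdivAt_one (p : ℕ) (w : ValuationSubring K) : PDivAt p w (1 : K) :=
  ⟨1, 1, by rw [one_pow, mul_one], one_mem w, by rw [inv_one]; exact one_mem w⟩

theorem pdivAt_mul {p : ℕ} {w : ValuationSubring K} {f g : K} (hf : PDivAt p w f)
    (hg : PDivAt p w g) : PDivAt p w (f * g) := by
  obtain ⟨u, h, rfl, hu, hu'⟩ := hf
  obtain ⟨u', h', rfl, hv, hv'⟩ := hg
  refine ⟨u * u', h * h', by rw [mul_pow]; ring, mul_mem hu hv, ?_⟩
  rw [mul_inv]
  exact mul_mem hu' hv'

theorem pdivAt_prod {p : ℕ} {w : ValuationSubring K} {α : Type*} (S : Finset α) (g : α → K)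
    (h : ∀ x ∈ S, PDivAt p w (g x)) : PDivAt p w (∏ x ∈ S, g x) := by
  classical
  induction S using Finset.induction_on with
  | empty =>
    rw [Finset.prod_empty]
    exact pdivAt_one p w
  | insert a S ha ih =>
    rw [Finset.prod_insert ha]
    exact pdivAt_mul (h a (Finset.mem_insert_self a S))
      (ih fun x hx => h x (Finset.mem_insert_of_mem hx))

theorem pdivAt_top (p : ℕ) (f : K) : PDivAt p (⊤ : ValuationSubring K) f :=
  ⟨f, 1, by rw [one_pow, mul_one], ValuationSubring.mem_top _, ValuationSubring.mem_top _⟩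

end PDiv

/-! ### Part 1: field theory -/

section FieldTheory

variable {k LS : Type*} [Field k] [Field LS] [Algebra k LS]
variable {ι : Type*} (c : ι → k →+* LS)

/-- The field generated over `k` by the image of the `x`-th virtual conjugate. -/
def Ex (x : ι) : IntermediateField k LS := IntermediateField.adjoin k (Set.range (c x))

theorem mem_Ex (x : ι) (b : k) : c x b ∈ Ex c x :=
  IntermediateField.subset_adjoin k _ ⟨b, rfl⟩

/-- The `x`-th virtual conjugate, as a ring hom into `Ex c x`. -/
def genHom (x : ι) : k →+* Ex c x := (c x).codRestrict (Ex c x) (mem_Ex c x)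

@[simp]
theorem coe_genHom (x : ι) (b : k) : ((genHom c x b : Ex c x) : LS) = c x b := rfl

/-- The equaliser of two ring homs agreeing on a subfield `κ₀`, as a `κ₀`-subspace. -/
def eqSub (κ₀ : Subfield k) {Ω : Type*} [Field Ω] (f g : k →+* Ω)
    (hfg : ∀ s : k, s ∈ κ₀ → f s = g s) : Subspace κ₀ k where
  carrier := {b | f b = g b}
  add_mem' := by
    intro a b ha hb
    have ha' : f a = g a := ha
    have hb' : f b = g b := hb
    show f (a + b) = g (a + b)
    rw [map_add, map_add, ha', hb']
  zero_mem' := by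
    show f 0 = g 0
    rw [map_zero, map_zero]
  smul_mem' := by
    intro s b hb
    have hb' : f b = g b := hb
    show f ((s : k) * b) = g ((s : k) * b)
    rw [map_mul, map_mul, hb', hfg _ s.2]

/-- The relation "conjugate over `k`" on the indices. -/
def Rel (x y : ι) : Prop := ∀ b : k, minpoly k (c x b) = minpoly k (c y b)

theorem rel_refl (x : ι) : Rel c x x := fun _ => rfl

theorem rel_symm {x y : ι} (h : Rel c x y) : Rel c y x := fun b => (h b).symm

theorem rel_trans {x y z : ι} (h : Rel c x y) (h' : Rel c y z) : Rel c x z :=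
  fun b => (h b).trans (h' b)

/-- The setoid of conjugacy classes of indices. -/
def relSetoid : Setoid ι := ⟨Rel c, rel_refl c, rel_symm c, rel_trans c⟩

variable [Fintype ι]

variable (hsym : ∀ b : k, ∃ P : k[X], P.map (algebraMap k LS) = ∏ x, (X - C (c x b)))

include hsym in
theorem isIntegral_c (x : ι) (b : k) : IsIntegral k (c x b) := by
  classical
  obtain ⟨P, hP⟩ := hsym b
  have hmonic : P.Monic := by
    apply Polynomial.monic_of_injective (algebraMap k LS).injective
    rw [hP]
    exact Polynomial.monic_prod_of_monic _ _ fun y _ => monic_X_sub_C _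
  refine ⟨P, hmonic, ?_⟩
  rw [← Polynomial.eval_map, hP, Polynomial.eval_prod]
  exact Finset.prod_eq_zero (Finset.mem_univ x) (by simp)

include hsym in
theorem isAlgebraic_Ex (x : ι) : Algebra.IsAlgebraic k (Ex c x) :=
  IntermediateField.isAlgebraic_adjoin (by
    rintro _ ⟨b, rfl⟩
    exact isIntegral_c c hsym x b)

include hsym in
/-- Every `k`-embedding of `Ex c x` sends `c x b` to some `c y b`. -/
theorem exists_conj (x : ι) (σ : Ex c x →ₐ[k] AlgebraicClosure LS) (b : k) :
    ∃ y, σ (genHom c x b) = algebraMap LS (AlgebraicClosure LS) (c y b) := by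
  classical
  obtain ⟨P, hP⟩ := hsym b
  have h0 : aeval (genHom c x b) P = 0 := by
    apply Subtype.ext
    have h1 : ((aeval (genHom c x b) P : Ex c x) : LS) = aeval (c x b) P := by
      rw [← coe_genHom c x b]
      exact (Polynomial.aeval_algHom_apply (Ex c x).val (genHom c x b) P).symm
    rw [h1, aeval_def, ← Polynomial.eval_map, hP, Polynomial.eval_prod]
    exact Finset.prod_eq_zero (Finset.mem_univ x) (by simp)
  have h2 : (P.map (algebraMap k (AlgebraicClosure LS))).eval (σ (genHom c x b)) = 0 := by
    rw [Polynomial.eval_map, ← aeval_def, Polynomial.aeval_algHom_apply, h0, map_zero]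
  have h3 : P.map (algebraMap k (AlgebraicClosure LS))
      = ∏ y, (X - C (algebraMap LS (AlgebraicClosure LS) (c y b))) := by
    rw [IsScalarTower.algebraMap_eq k LS (AlgebraicClosure LS), ← Polynomial.map_map, hP,
      Polynomial.map_prod]
    simp
  rw [h3, Polynomial.eval_prod, Finset.prod_eq_zero_iff] at h2
  obtain ⟨y, -, hy⟩ := h2
  rw [eval_sub, eval_X, eval_C, sub_eq_zero] at hy
  exact ⟨y, hy⟩

include hsym in
/-- A separating element gives separable virtual conjugates. -/
theorem isSeparable_of_injective {b : k} (hb : Function.Injective fun x => c x b) (x : ι) :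
    IsSeparable k (c x b) := by
  classical
  obtain ⟨P, hP⟩ := hsym b
  have hsepP : P.Separable := by
    rw [← Polynomial.separable_map (algebraMap k LS), hP]
    exact Polynomial.separable_prod_X_sub_C_iff.mpr hb
  have h0 : aeval (c x b) P = 0 := by
    rw [aeval_def, ← Polynomial.eval_map, hP, Polynomial.eval_prod]
    exact Finset.prod_eq_zero (Finset.mem_univ x) (by simp)
  exact hsepP.of_dvd (minpoly.dvd k (c x b) h0)

variable (κ₀ : Subfield k) [Infinite κ₀]
variable (hc : ∀ s : k, s ∈ κ₀ → ∀ x, c x s = algebraMap k LS s)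

include hc in
/-- **Symmetric functions by interpolation** at elements of `κ₀`. -/
theorem exists_poly_of_mul (T : k → k) (hT : ∀ b, algebraMap k LS (T b) = ∏ x, c x b) (b : k) :
    ∃ P : k[X], P.map (algebraMap k LS) = ∏ x, (X - C (c x b)) := by
  classical
  set n := Fintype.card ι with hn
  let e : ℕ ↪ κ₀ := Infinite.natEmbedding κ₀
  let s : Finset ℕ := Finset.range (n + 1)
  let v : ℕ → k := fun i => ((e i : κ₀) : k)
  let r : ℕ → k := fun i => T (v i - b)
  have hvs : Set.InjOn v s := fun i _ j _ h => e.injective (Subtype.ext h)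
  have hvs' : Set.InjOn (fun i : ℕ => algebraMap k LS (v i)) s :=
    fun i hi j hj h => hvs hi hj ((algebraMap k LS).injective h)
  have hcard : s.card = n + 1 := Finset.card_range _
  refine ⟨Lagrange.interpolate s v r, ?_⟩
  refine Polynomial.eq_of_degrees_lt_of_eval_index_eq s hvs' ?_ ?_ ?_
  · exact (Polynomial.degree_map_le).trans_lt (Lagrange.degree_interpolate_lt r hvs)
  · have h1 : (∏ x : ι, (X - C (c x b))).natDegree = n := by
      rw [Polynomial.natDegree_prod_of_monic _ _ fun x _ => monic_X_sub_C _]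
      simp [hn]
    refine (Polynomial.degree_le_natDegree).trans_lt ?_
    rw [h1, hcard]
    exact_mod_cast Nat.lt_succ_self n
  · intro i hi
    rw [Polynomial.eval_map, Polynomial.eval₂_at_apply,
      Lagrange.eval_interpolate_at_node r hvs hi, hT, eval_prod]
    refine Finset.prod_congr rfl fun x _ => ?_
    rw [eval_sub, eval_X, eval_C, map_sub, hc _ (e i).2 x]

include hc in
/-- For all but finitely many `s ∈ κ₀` the element `b₀ + s b` is again separating. -/
theorem exists_injective_add {b₀ : k} (hb₀ : Function.Injective fun x => c x b₀) (b : k) :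
    ∃ s : k, s ∈ κ₀ ∧ s ≠ 0 ∧ Function.Injective fun x => c x (b₀ + s * b) := by
  classical
  let bad : {q : ι × ι // q.1 ≠ q.2} → Set κ₀ := fun q =>
    {s | c q.1.1 (b₀ + (s : k) * b) = c q.1.2 (b₀ + (s : k) * b)}
  have key : ∀ (q : {q : ι × ι // q.1 ≠ q.2}) (s : κ₀), s ∈ bad q →
      c q.1.1 b₀ + algebraMap k LS (s : k) * c q.1.1 b
        = c q.1.2 b₀ + algebraMap k LS (s : k) * c q.1.2 b := by
    intro q s hs
    have h : c q.1.1 (b₀ + (s : k) * b) = c q.1.2 (b₀ + (s : k) * b) := hs
    rw [map_add, map_add, map_mul, map_mul, hc _ s.2 q.1.1, hc _ s.2 q.1.2] at h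
    exact h
  have hsub : ∀ q, (bad q).Subsingleton := by
    intro q s hs s' hs'
    have e := key q s hs
    have e' := key q s' hs'
    by_contra hne
    have hd : c q.1.1 b = c q.1.2 b := by
      have h1 : (algebraMap k LS (s : k) - algebraMap k LS (s' : k))
          * (c q.1.1 b - c q.1.2 b) = 0 := by
        linear_combination e - e'
      rcases mul_eq_zero.mp h1 with h2 | h2
      · exfalso
        exact hne (Subtype.ext ((algebraMap k LS).injective (sub_eq_zero.mp h2)))
      · exact sub_eq_zero.mp h2
    rw [hd] at e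
    exact q.2 (hb₀ (add_right_cancel e))
  have hfin : (⋃ q, bad q).Finite := Set.finite_iUnion fun q => (hsub q).finite
  obtain ⟨s, -, hs⟩ :=
    (Set.infinite_univ.sdiff (hfin.union (Set.finite_singleton (0 : κ₀)))).nonempty
  have hs1 : ∀ q, s ∉ bad q := fun q hq => hs (Or.inl (Set.mem_iUnion.mpr ⟨q, hq⟩))
  have hs2 : s ≠ 0 := fun h0 => hs (Or.inr (Set.mem_singleton_iff.mpr h0))
  refine ⟨(s : k), s.2, fun h => hs2 (Subtype.ext h), fun x y hxy => ?_⟩
  by_contra hne
  exact hs1 ⟨(x, y), hne⟩ hxy

include hsym hc in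
/-- **Every virtual conjugate is separable over `k`** (through `algebraMap k LS`). -/
theorem isSeparable_c (hsep : ∃ b₀ : k, Function.Injective fun x => c x b₀) (x : ι) (b : k) :
    IsSeparable k (c x b) := by
  obtain ⟨b₀, hb₀⟩ := hsep
  obtain ⟨s, hs, hs0, hinj⟩ := exists_injective_add c κ₀ hc hb₀ b
  have h1 : c x (b₀ + s * b) ∈ separableClosure k LS :=
    mem_separableClosure_iff.mpr (isSeparable_of_injective c hsym hinj x)
  have h2 : c x b₀ ∈ separableClosure k LS :=
    mem_separableClosure_iff.mpr (isSeparable_of_injective c hsym hb₀ x)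
  have h3 : c x b = algebraMap k LS (s⁻¹) * (c x (b₀ + s * b) - c x b₀) := by
    rw [map_add, map_mul, hc s hs x, add_sub_cancel_left, ← mul_assoc, ← map_mul,
      inv_mul_cancel₀ hs0, map_one, one_mul]
  have h4 : c x b ∈ separableClosure k LS := by
    rw [h3]
    exact mul_mem (IntermediateField.algebraMap_mem _ _) (sub_mem h1 h2)
  exact mem_separableClosure_iff.mp h4

include hsym hc in
theorem isSeparable_Ex (hsep : ∃ b₀ : k, Function.Injective fun x => c x b₀) (x : ι) :
    Algebra.IsSeparable k (Ex c x) :=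
  (IntermediateField.isSeparable_adjoin_iff_isSeparable k LS).mpr (by
    rintro _ ⟨b, rfl⟩
    exact isSeparable_c c hsym κ₀ hc hsep x b)

include hsym hc in
/-- The index can be chosen uniformly in `b`. -/
theorem exists_conj_uniform (x : ι) (σ : Ex c x →ₐ[k] AlgebraicClosure LS) :
    ∃ y, ∀ b, σ (genHom c x b) = algebraMap LS (AlgebraicClosure LS) (c y b) := by
  classical
  have hagree : ∀ (y : ι) (s : k), s ∈ κ₀ →
      ((σ : Ex c x →+* AlgebraicClosure LS).comp (genHom c x)) s
        = ((algebraMap LS (AlgebraicClosure LS)).comp (c y)) s := by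
    intro y s hs
    have h1 : genHom c x s = algebraMap k (Ex c x) s := Subtype.ext (hc s hs x)
    show σ (genHom c x s) = algebraMap LS (AlgebraicClosure LS) (c y s)
    rw [h1, σ.commutes, hc s hs y, ← IsScalarTower.algebraMap_apply k LS (AlgebraicClosure LS)]
  let p : ι → Subspace κ₀ k := fun y =>
    eqSub κ₀ ((σ : Ex c x →+* AlgebraicClosure LS).comp (genHom c x))
      ((algebraMap LS (AlgebraicClosure LS)).comp (c y)) (hagree y)
  have hcov : ⋃ y, (p y : Set k) = Set.univ := by
    rw [Set.iUnion_eq_univ_iff]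
    intro b
    obtain ⟨y, hy⟩ := exists_conj c hsym x σ b
    exact ⟨y, hy⟩
  obtain ⟨y, hy⟩ := Subspace.exists_eq_top_of_iUnion_eq_univ hcov
  refine ⟨y, fun b => ?_⟩
  have hb : b ∈ p y := by
    rw [hy]
    exact Submodule.mem_top
  exact hb

include hsym hc in
/-- The index attached to a `k`-embedding of `Ex c x`. -/
def idx (x : ι) (σ : Ex c x →ₐ[k] AlgebraicClosure LS) : ι :=
  (exists_conj_uniform c hsym κ₀ hc x σ).choose

theorem idx_spec (x : ι) (σ : Ex c x →ₐ[k] AlgebraicClosure LS) (b : k) :
    σ (genHom c x b) = algebraMap LS (AlgebraicClosure LS) (c (idx c hsym κ₀ hc x σ) b) :=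
  (exists_conj_uniform c hsym κ₀ hc x σ).choose_spec b

theorem idx_injective (x : ι) : Function.Injective (idx c hsym κ₀ hc x) := by
  intro σ τ h
  refine IntermediateField.algHom_ext_of_eq_adjoin k (S := Ex c x) (s := Set.range (c x)) rfl ?_
  rintro _ ⟨b, rfl⟩
  have h1 := idx_spec c hsym κ₀ hc x σ b
  have h2 := idx_spec c hsym κ₀ hc x τ b
  rw [h] at h1
  exact h1.trans h2.symm

include hsym hc in
/-- `Ex c x` is finite over `k`: it is separable with at most `card ι` embeddings. -/
theorem finiteDimensional_Ex (hsep : ∃ b₀ : k, Function.Injective fun x => c x b₀) (x : ι) :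
    FiniteDimensional k (Ex c x) := by
  haveI := isAlgebraic_Ex c hsym x
  haveI := isSeparable_Ex c hsym κ₀ hc hsep x
  haveI : Finite (Ex c x →ₐ[k] AlgebraicClosure LS) :=
    Finite.of_injective _ (idx_injective c hsym κ₀ hc x)
  haveI : Nonempty (Ex c x →ₐ[k] AlgebraicClosure LS) :=
    ⟨(IsScalarTower.toAlgHom k LS (AlgebraicClosure LS)).comp (Ex c x).val⟩
  have h1 : Field.finSepDegree k (Ex c x) = Nat.card (Ex c x →ₐ[k] AlgebraicClosure LS) :=
    Field.finSepDegree_eq_of_isAlgClosed k (Ex c x) (AlgebraicClosure LS)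
  have h2 : Field.finSepDegree k (Ex c x) = Module.finrank k (Ex c x) :=
    Field.finSepDegree_eq_finrank_of_isSeparable k (Ex c x)
  have h3 : 0 < Module.finrank k (Ex c x) := by
    rw [← h2, h1]
    exact Nat.card_pos
  exact Module.finite_of_finrank_pos h3

/-- An embedding with index `y` forces `x ∼ y`. -/
theorem rel_idx (x : ι) (σ : Ex c x →ₐ[k] AlgebraicClosure LS) :
    Rel c x (idx c hsym κ₀ hc x σ) := by
  intro b
  have h1 : minpoly k (algebraMap LS (AlgebraicClosure LS) (c (idx c hsym κ₀ hc x σ) b))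
      = minpoly k (c (idx c hsym κ₀ hc x σ) b) :=
    minpoly.algebraMap_eq (algebraMap LS (AlgebraicClosure LS)).injective _
  have h2 : minpoly k (σ (genHom c x b)) = minpoly k (genHom c x b) :=
    minpoly.algHom_eq σ σ.injective _
  have h3 : minpoly k (genHom c x b) = minpoly k (c x b) :=
    IntermediateField.minpoly_eq (genHom c x b)
  rw [← h3, ← h2, idx_spec c hsym κ₀ hc x σ b, h1]

/-- Conversely every `y ∼ x` is the index of an embedding. -/
theorem exists_idx_eq_of_rel (hsep : ∃ b₀ : k, Function.Injective fun x => c x b₀) {x y : ι}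
    (h : Rel c x y) : ∃ σ : Ex c x →ₐ[k] AlgebraicClosure LS, idx c hsym κ₀ hc x σ = y := by
  classical
  -- for every `b` an embedding sending `c x b` to `c y b`
  have hemb : ∀ b : k, ∃ σ : Ex c x →ₐ[k] AlgebraicClosure LS,
      σ (genHom c x b) = algebraMap LS (AlgebraicClosure LS) (c y b) := by
    intro b
    have hK : ∀ s ∈ Set.range (c x), IsIntegral k s ∧
        ((minpoly k s).map (algebraMap k (AlgebraicClosure LS))).Splits := by
      rintro _ ⟨b', rfl⟩
      exact ⟨isIntegral_c c hsym x b', IsAlgClosed.splits _⟩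
    have hy : aeval (algebraMap LS (AlgebraicClosure LS) (c y b)) (minpoly k (c x b)) = 0 := by
      rw [h b, ← minpoly.algebraMap_eq (algebraMap LS (AlgebraicClosure LS)).injective (c y b)]
      exact minpoly.aeval k _
    exact IntermediateField.exists_algHom_adjoin_of_splits_of_aeval hK
      (IntermediateField.subset_adjoin k _ ⟨b, rfl⟩) hy
  let p : {y' : ι // ∃ σ : Ex c x →ₐ[k] AlgebraicClosure LS, idx c hsym κ₀ hc x σ = y'} →
      Subspace κ₀ k := fun y' =>
    eqSub κ₀ (c y'.1) (c y) (fun s hs => by rw [hc s hs, hc s hs])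
  have hcov : ⋃ y', (p y' : Set k) = Set.univ := by
    rw [Set.iUnion_eq_univ_iff]
    intro b
    obtain ⟨σ, hσ⟩ := hemb b
    refine ⟨⟨idx c hsym κ₀ hc x σ, σ, rfl⟩, ?_⟩
    show c (idx c hsym κ₀ hc x σ) b = c y b
    apply (algebraMap LS (AlgebraicClosure LS)).injective
    rw [← idx_spec c hsym κ₀ hc x σ b, hσ]
  obtain ⟨y', hy'⟩ := Subspace.exists_eq_top_of_iUnion_eq_univ hcov
  obtain ⟨b₀, hb₀⟩ := hsep
  have hb : b₀ ∈ p y' := by
    rw [hy']
    exact Submodule.mem_top
  have hyy : y'.1 = y := hb₀ hb
  obtain ⟨σ, hσ⟩ := y'.2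
  exact ⟨σ, hσ.trans hyy⟩

open Classical in
/-- The class of `x`. -/
def cls (x : ι) : Finset ι := Finset.univ.filter fun y => Rel c x y

include hsym hc in
/-- **The norm of a virtual conjugate is the product over its class.** -/
theorem algebraMap_norm_genHom (hsep : ∃ b₀ : k, Function.Injective fun x => c x b₀) (x : ι)
    (b : k) : algebraMap k LS (Algebra.norm k (genHom c x b)) = ∏ y ∈ cls c x, c y b := by
  classical
  haveI := finiteDimensional_Ex c hsym κ₀ hc hsep x
  haveI := isSeparable_Ex c hsym κ₀ hc hsep x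
  apply (algebraMap LS (AlgebraicClosure LS)).injective
  rw [← IsScalarTower.algebraMap_apply k LS (AlgebraicClosure LS),
    Algebra.norm_eq_prod_embeddings k (AlgebraicClosure LS) (genHom c x b), map_prod]
  have h1 : ∏ σ : Ex c x →ₐ[k] AlgebraicClosure LS, σ (genHom c x b)
      = ∏ σ : Ex c x →ₐ[k] AlgebraicClosure LS,
          algebraMap LS (AlgebraicClosure LS) (c (idx c hsym κ₀ hc x σ) b) :=
    Finset.prod_congr rfl fun σ _ => idx_spec c hsym κ₀ hc x σ b
  rw [h1, ← Finset.prod_image (s := Finset.univ) (g := idx c hsym κ₀ hc x)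
    (f := fun y => algebraMap LS (AlgebraicClosure LS) (c y b))
    (fun σ _ τ _ hστ => idx_injective c hsym κ₀ hc x hστ)]
  refine Finset.prod_congr ?_ fun _ _ => rfl
  ext y
  simp only [Finset.mem_image, Finset.mem_univ, true_and, cls, Finset.mem_filter]
  constructor
  · rintro ⟨σ, rfl⟩
    exact rel_idx c hsym κ₀ hc x σ
  · intro h
    exact exists_idx_eq_of_rel c hsym κ₀ hc hsep h

include hsym hc in
/-- **Factorisation into norms**: the product of all virtual conjugates of `b` is a product of
norms of virtual conjugates, one for each class. -/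
theorem exists_factorization (hsep : ∃ b₀ : k, Function.Injective fun x => c x b₀) :
    ∃ S : Finset ι, ∀ b : k,
      ∏ x, c x b = algebraMap k LS (∏ x ∈ S, Algebra.norm k (genHom c x b)) := by
  classical
  let s : Setoid ι := relSetoid c
  refine ⟨Finset.univ.image (fun q : Quotient s => q.out), fun b => ?_⟩
  rw [Finset.prod_image (fun q _ q' _ h => Quotient.out_injective h), map_prod,
    ← Finset.prod_fiberwise Finset.univ (fun x : ι => (⟦x⟧ : Quotient s)) (fun x => c x b)]
  refine Finset.prod_congr rfl fun q _ => ?_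
  rw [algebraMap_norm_genHom c hsym κ₀ hc hsep q.out b]
  refine Finset.prod_congr ?_ fun _ _ => rfl
  ext y
  simp only [Finset.mem_filter, Finset.mem_univ, true_and, cls]
  constructor
  · intro h
    have h1 : (⟦y⟧ : Quotient s) = ⟦q.out⟧ := by rw [h, Quotient.out_eq]
    exact rel_symm c (Quotient.exact h1)
  · intro h
    have h1 : (⟦y⟧ : Quotient s) = ⟦q.out⟧ := Quotient.sound (rel_symm c h)
    rw [h1, Quotient.out_eq]

end FieldTheory

/-! ### Part 2: extension of valuation subrings -/

section Valuation

variable {E L : Type*} [Field E] [Field L]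

/-- **Chevalley's extension theorem** along a field embedding: every valuation subring of `E` is
the preimage of a valuation subring of `L`. -/
theorem exists_valuationSubring_comap_eq (f : E →+* L) (W : ValuationSubring E) :
    ∃ V : ValuationSubring L, V.comap f = W := by
  obtain ⟨V, hle, hloc⟩ := (LocalSubring.map f W.toLocalSubring).exists_le_valuationSubring
  refine ⟨V, ?_⟩
  ext y
  rw [ValuationSubring.mem_comap]
  constructor
  · intro hy
    by_contra hyW
    have hyi : y⁻¹ ∈ W := (W.mem_or_inv_mem y).resolve_left hyW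
    have hy0 : y ≠ 0 := fun h0 => hyW (h0 ▸ W.zero_mem)
    have hfy : f y⁻¹ * f y = 1 := by rw [← map_mul, inv_mul_cancel₀ hy0, map_one]
    have hmem : f y⁻¹ ∈ (LocalSubring.map f W.toLocalSubring).toSubring := ⟨y⁻¹, hyi, rfl⟩
    have hunit : IsUnit (Subring.inclusion hle ⟨f y⁻¹, hmem⟩) :=
      isUnit_iff_exists_inv.mpr ⟨⟨f y, hy⟩, Subtype.ext hfy⟩
    have ha : IsUnit (⟨f y⁻¹, hmem⟩ : (LocalSubring.map f W.toLocalSubring).toSubring) :=
      hloc.map_nonunit _ hunit
    obtain ⟨⟨b', hb'⟩, hb⟩ := isUnit_iff_exists_inv.mp ha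
    obtain ⟨z, hz, rfl⟩ := hb'
    have h1 : f y⁻¹ * f z = 1 := congrArg Subtype.val hb
    have h2 : f z = f y := by
      have hne : f y⁻¹ ≠ 0 := left_ne_zero_of_mul_eq_one hfy
      exact mul_left_cancel₀ hne (h1.trans hfy.symm)
    have h3 : z = y := f.injective h2
    exact hyW (h3 ▸ hz)
  · intro hy
    exact hle ⟨y, hy, rfl⟩

end Valuation

/-! ### The main theorem -/

/-- **Row MR.H.8, strong form**: `VirtNormStatement` WITHOUT the hypothesis
`Algebra.IsSeparable (IntermediateField.adjoin κ₀ {t}) k` (everything else verbatim): one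
separating element `t` suffices. -/
theorem virtNorm_of_inj (hN : NormPDivStatement) :
    ∀ (k LS : Type) [Field k] [Field LS] (p : ℕ) (ι : Type) [Fintype ι]
      (κ₀ : Subfield k) (φ : k →+* LS) (c : ι → k →+* LS) (T : k → k) (t : k)
      (good : ValuationSubring k → Prop),
      Infinite κ₀ →
      (∀ s : k, s ∈ κ₀ → ∀ x, c x s = φ s) →
      (∀ b : k, φ (T b) = ∏ x, c x b) →
      Function.Injective (fun x => c x t) →
      (∀ w : ValuationSubring k, good w → w = ⊤ ∨ IsDiscreteValuationRing w) →
      (∀ (x : ι) (V : ValuationSubring LS), good (V.comap φ) → good (V.comap (c x))) →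
      ∀ b : k, b ≠ 0 → (∀ w : ValuationSubring k, good w → PDivAt p w b) →
        ∀ w : ValuationSubring k, good w → PDivAt p w (T b) := by
  intro k LS _ _ p ι _ κ₀ φ c T t good hinf hcκ hT hsep hgood hstab b hb hdiv w hw
  classical
  rcases hgood w hw with rfl | hdvr
  · exact pdivAt_top p (T b)
  letI : Algebra k LS := φ.toAlgebra
  haveI : Infinite κ₀ := hinf
  have hc : ∀ s : k, s ∈ κ₀ → ∀ x, c x s = algebraMap k LS s := hcκ
  have hT' : ∀ b, algebraMap k LS (T b) = ∏ x, c x b := hT
  have hsym : ∀ b : k, ∃ P : k[X], P.map (algebraMap k LS) = ∏ x, (X - C (c x b)) :=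
    fun b => exists_poly_of_mul c κ₀ hc T hT' b
  have hsep' : ∃ b₀ : k, Function.Injective fun x => c x b₀ := ⟨t, hsep⟩
  obtain ⟨S, hS⟩ := exists_factorization c hsym κ₀ hc hsep'
  have hTb : T b = ∏ x ∈ S, Algebra.norm k (genHom c x b) := by
    apply (algebraMap k LS).injective
    rw [← hS b]
    exact hT' b
  rw [hTb]
  refine pdivAt_prod S _ fun x _ => ?_
  haveI := finiteDimensional_Ex c hsym κ₀ hc hsep' x
  haveI := isSeparable_Ex c hsym κ₀ hc hsep' x
  refine hN k (Ex c x) p w hdvr (genHom c x b) ((map_ne_zero (genHom c x)).mpr hb)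
    fun W hW => ?_
  obtain ⟨V, hV⟩ := exists_valuationSubring_comap_eq (algebraMap (Ex c x) LS) W
  have hVφ : V.comap φ = w := by
    rw [← hW, ← hV]
    ext z
    exact Iff.rfl
  have hg : good (V.comap (c x)) := hstab x V (by rw [hVφ]; exact hw)
  obtain ⟨u, h, hbu, hu, hu'⟩ := hdiv _ hg
  refine ⟨genHom c x u, genHom c x h, by rw [hbu, map_mul, map_pow], ?_, ?_⟩
  · rw [← hV]
    exact hu
  · rw [← hV, ← map_inv₀]
    exact hu'

/-- **Row MR.H.8**: virtual norms preserve `PDivAt` at good places (literal of `H/Bricks.lean`;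
the separability hypothesis is not used). -/
theorem virtNorm : NormPDivStatement → VirtNormStatement :=
  fun hN k LS _ _ p ι _ κ₀ φ c T t good hinf hcκ hT hsep _ =>
    virtNorm_of_inj hN k LS p ι κ₀ φ c T t good hinf hcκ hT hsep

end Fermat.Agent.S44.H.VirtNorm
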