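import Mathlib
import Fermat.Agent.S44.H.ExitOf
import Fermat.Agent.S44.H.HeckeMem
import Fermat.Agent.S44.H.Dvr
import Fermat.Agent.S44.H.VirtNorm
import Fermat.Agent.S44.L.ThetaKerFin

/-!
# Strand H of PROGRAM MR — the exit

`hDivStatement : L.Top.HDivStatement`: for `ℓ ∤ N' p`, the Hecke operator `T_ℓ` preserves
"unit times a `p`-th power at every valuation subring" for the elements of the reduced function
field `redField N' A`.

All bricks of `S44/H/Bricks.lean` are theorems:
`RedHecke.redHecke`, `HeckeMem.heckeMem`, `L.ThetaKerFin.redFinStatement` (`RedFinStatement`),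
`SepSeries.sepSeries`, `ModEqInt.modEq`, `Dvr.dvr`, `NormPDiv.normPDiv`, `VirtNorm.virtNorm`,
`Assembly.assembly`; the first, fourth, fifth, seventh and last are plugged in by
`ExitOf.hDivStatement_of`.
-/

set_option autoImplicit false

namespace Fermat.Agent.S44.H.Exit

/-- **Strand H: `HDivStatement`.** -/
theorem hDivStatement : Fermat.Agent.S44.L.Top.HDivStatement :=
  Fermat.Agent.S44.H.ExitOf.hDivStatement_of
    Fermat.Agent.S44.H.HeckeMem.heckeMem
    Fermat.Agent.S44.L.ThetaKerFin.redFinStatement
    Fermat.Agent.S44.H.Dvr.dvr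
    Fermat.Agent.S44.H.VirtNorm.virtNorm

end Fermat.Agent.S44.H.Exit
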