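/-
PROGRAM MR (S44), strand H — helper206.  Membership form of `ModEqStatement`:

a valuation subring `V` of `κ((q))` that contains the constants and `j(q^ℓ)` contains
`j(q^(ℓ²))` and every `j(zⁱ q)` (`z` a primitive `ℓ`-th root of unity).  This is the step
"good along `φ` ⇒ good along every `c x`" of the assembly of strand H.
-/
import Mathlib
import Fermat.Agent.S44.H.ModEqInt

set_option autoImplicit false

open ModularCurve

namespace Fermat.Agent.S44.H.ModEqMem

open Fermat.Agent.S30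

/-- A valuation subring contains every root of unity. -/
theorem mem_of_pow_eq_one {K : Type*} [Field K] (V : ValuationSubring K) {x : K} {n : ℕ}
    (hn : 0 < n) (h : x ^ n = 1) : x ∈ V := by
  rw [← V.valuation_le_one_iff]
  by_contra hlt
  have h1 : 1 < V.valuation x := lt_of_not_ge hlt
  have h2 : 1 < V.valuation x ^ n := one_lt_pow₀ h1 hn.ne'
  rw [← map_pow, h, map_one] at h2
  exact lt_irrefl _ h2

/-- If every nonzero constant is a root of unity, every valuation subring of `κ((q))` contains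
the constants. -/
theorem C_mem_of_kappa {κ : Type*} [Field κ] (hκ : ∀ c : κ, c ≠ 0 → ∃ n : ℕ, 0 < n ∧ c ^ n = 1)
    (V : ValuationSubring (LaurentSeries κ)) (c : κ) : (HahnSeries.C c : LaurentSeries κ) ∈ V := by
  rcases eq_or_ne c 0 with rfl | hc
  · rw [map_zero]
    exact V.zero_mem
  · obtain ⟨n, hn, hcn⟩ := hκ c hc
    exact mem_of_pow_eq_one V hn (by rw [← map_pow, hcn, map_one])

/-- An element of `κ((q))` integral over `κ[u]` lies in every valuation subring that contains the
constants and `u`. -/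
theorem mem_of_isIntegral_adjoin {κ : Type*} [Field κ] (V : ValuationSubring (LaurentSeries κ))
    (hC : ∀ c : κ, (HahnSeries.C c : LaurentSeries κ) ∈ V) {u y : LaurentSeries κ} (hu : u ∈ V)
    (hy : IsIntegral (Algebra.adjoin κ {u}) y) : y ∈ V := by
  have hle : ∀ x : LaurentSeries κ, x ∈ Algebra.adjoin κ {u} → x ∈ V := by
    intro x hx
    induction hx using Algebra.adjoin_induction with
    | mem x hx =>
      rw [Set.mem_singleton_iff] at hx
      rw [hx]
      exact hu
    | algebraMap r =>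
      have h0 : algebraMap κ (LaurentSeries κ) r = HahnSeries.C r := by
        simp [RingHom.algebraMap_toAlgebra]
      rw [h0]
      exact hC r
    | add x y _ _ hx hy => exact V.add_mem _ _ hx hy
    | mul x y _ _ hx hy => exact V.mul_mem _ _ hx hy
  let φ : ↥(Algebra.adjoin κ {u}) →+* ↥V :=
    { toFun := fun x => ⟨x.1, hle x.1 x.2⟩
      map_one' := rfl
      map_mul' := fun _ _ => rfl
      map_zero' := rfl
      map_add' := fun _ _ => rfl }
  have h1 : IsIntegral (↥V) y :=
    IsIntegral.map_of_comp_eq φ (RingHom.id (LaurentSeries κ)) (RingHom.ext fun _ => rfl) hy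
  obtain ⟨v, hv⟩ := (IsIntegrallyClosed.isIntegral_iff (R := ↥V) (K := LaurentSeries κ)).mp h1
  rw [← hv]
  exact v.2

/-- **Membership form of the modular equation.**  A valuation subring of `κ((q))` that contains
the constants and `j(q^ℓ)` contains `j(q^(ℓ²))` and every `j(zⁱ q)`. -/
theorem mem_of_expand_mem {κ : Type} [Field κ] (ℓ : ℕ) (hℓ : ℓ.Prime) (z : κˣ)
    (hz : IsPrimitiveRoot z ℓ) (V : ValuationSubring (LaurentSeries κ))
    (hC : ∀ c : κ, (HahnSeries.C c : LaurentSeries κ) ∈ V)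
    (h : Congr.expand ℓ hℓ.pos (jqModC κ) ∈ V) :
    Congr.expand (ℓ * ℓ) (Nat.mul_pos hℓ.pos hℓ.pos) (jqModC κ) ∈ V ∧
      ∀ i : ℕ, Congr.rescale (z ^ i) (jqModC κ) ∈ V := by
  obtain ⟨h1, h2⟩ := ModEqInt.modEq κ ℓ hℓ z hz
  exact ⟨mem_of_isIntegral_adjoin V hC h h1, fun i => mem_of_isIntegral_adjoin V hC h (h2 i)⟩

/-- The same with `KappaStatement`-type input instead of `hC`. -/
theorem mem_of_expand_mem_of_kappa {κ : Type} [Field κ]
    (hκ : ∀ c : κ, c ≠ 0 → ∃ n : ℕ, 0 < n ∧ c ^ n = 1) (ℓ : ℕ) (hℓ : ℓ.Prime) (z : κˣ)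
    (hz : IsPrimitiveRoot z ℓ) (V : ValuationSubring (LaurentSeries κ))
    (h : Congr.expand ℓ hℓ.pos (jqModC κ) ∈ V) :
    Congr.expand (ℓ * ℓ) (Nat.mul_pos hℓ.pos hℓ.pos) (jqModC κ) ∈ V ∧
      ∀ i : ℕ, Congr.rescale (z ^ i) (jqModC κ) ∈ V :=
  mem_of_expand_mem ℓ hℓ z hz V (C_mem_of_kappa hκ V) h

end Fermat.Agent.S44.H.ModEqMem
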