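import Mathlib
import Fermat.Agent.S44.H.RedFin

/-!
# PROGRAM MR (S44), strand H, row MR.H.3, addendum: the degree bound (helper172)

`A` a valuation subring of `ℚ̄`, `κ` its residue field, `N ≠ 0`.  For ANY subfield `κ₀` of
`redField N A` that is the field of constants (`x ∈ κ₀ ↔ x = C c`) and ANY `t` with
`t = j̄ = jqModC κ` (the binder shape of `H.RedFinStatement`, `H.DvrStatement`, ...):

* `rank_le`    : `[redField N A : κ₀(t)] ≤ [F_N : ℚ̄(j)]` (as cardinals);
* `finite`     : `redField N A` is finite-dimensional over `κ₀(t)`;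
* `finrank_le` : the same bound for `Module.finrank`;
* `card_le_of_linearIndependent` : a `κ₀(t)`-linearly independent family of `m` elements of
  `redField N A` has `m ≤ [F_N : ℚ̄(j)]`.

Only the direction "constants lie in `κ₀`" of the description of `κ₀` is used.  The proof is the
dependence relation `RedFin.exists_relation_redSet` and the transcendence of `j̄` over `κ`.
-/

set_option autoImplicit false

open HahnSeries ModularCurve Polynomial

namespace Fermat.Agent.S44.H.RedFinBound

open Fermat.Agent.S30 Fermat.Agent.S30.Producer Fermat.Agent.S44.Contract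

variable {A : ValuationSubring Qb} {N : ℕ} [NeZero N]
  (κ₀ : Subfield (redField N A)) (t : redField N A)

local notation "κ" => IsLocalRing.ResidueField A

/-- **The degree bound**, cardinal form: `[redField N A : κ₀(j̄)] ≤ [F_N : ℚ̄(j)]`. -/
theorem rank_le
    (hκ₀ : ∀ x : redField N A, x ∈ κ₀ ↔ ∃ c : κ, (x : LaurentSeries κ) = HahnSeries.C c)
    (ht : (t : LaurentSeries κ) = jqModC κ) :
    Module.rank (IntermediateField.adjoin κ₀ {t}) (redField N A)
      ≤ (Module.finrank (IntermediateField.adjoin Qb {Fermat.Agent.S24.Modular.jF N})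
          (FN N) : ℕ) := by
  classical
  have hC : ∀ c : κ, HahnSeries.C c ∈ redField N A := fun c =>
    Subfield.subset_closure (RedFin.C_mem_redSet A N c)
  refine _root_.rank_le fun s hs => ?_
  by_contra hlt
  rw [not_le] at hlt
  obtain ⟨P, ⟨i₁, hi₁⟩, hP⟩ := RedFin.exists_relation_redSet A N (ι := s)
    (by rwa [Fintype.card_coe])
    (fun i => ((i : redField N A) : LaurentSeries κ))
    (fun i => HeckeMem.mem_redField_iff.1 (i : redField N A).2)
  let cK : κ →+* redField N A :=
    (HahnSeries.C : κ →+* LaurentSeries κ).codRestrict (redField N A) hC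
  let c₀ : κ →+* κ₀ := cK.codRestrict κ₀ (fun c => (hκ₀ _).2 ⟨c, rfl⟩)
  let tK : IntermediateField.adjoin κ₀ {t} :=
    ⟨t, IntermediateField.mem_adjoin_simple_self κ₀ t⟩
  let φ : κ →+* IntermediateField.adjoin κ₀ {t} :=
    (algebraMap κ₀ (IntermediateField.adjoin κ₀ {t})).comp c₀
  let ψ : IntermediateField.adjoin κ₀ {t} →+* LaurentSeries κ :=
    (redField N A).subtype.comp (algebraMap (IntermediateField.adjoin κ₀ {t}) (redField N A))
  have hψ : ∀ Q : Polynomial κ,
      ψ (Q.eval₂ φ tK) = Q.eval₂ HahnSeries.C (jqModC κ) := by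
    intro Q
    rw [Polynomial.hom_eval₂]
    have h1 : ψ.comp φ = HahnSeries.C := RingHom.ext fun c => rfl
    have h2 : ψ tK = jqModC κ := ht
    rw [h1, h2]
  have hzero : ∀ i : s, (P i).eval₂ φ tK = 0 := by
    refine Fintype.linearIndependent_iff.1 hs (fun i => (P i).eval₂ φ tK) ?_
    have hinj : Function.Injective (redField N A).subtype := Subtype.val_injective
    apply hinj
    rw [map_sum, map_zero, ← hP]
    refine Finset.sum_congr rfl fun i _ => ?_
    rw [Algebra.smul_def, map_mul, ← hψ]
    rfl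
  have h3 := hψ (P i₁)
  rw [hzero i₁, map_zero] at h3
  exact hi₁ (Fermat.Agent.S30.GaussBridge.eval₂_C_eq_zero _
    (by rw [Fermat.Agent.S24.Puiseux.order_jqModC]; norm_num) _ h3.symm)

/-- `redField N A` is finite-dimensional over `κ₀(j̄)`, for any `κ₀`, `t` as above. -/
theorem finite
    (hκ₀ : ∀ x : redField N A, x ∈ κ₀ ↔ ∃ c : κ, (x : LaurentSeries κ) = HahnSeries.C c)
    (ht : (t : LaurentSeries κ) = jqModC κ) :
    FiniteDimensional (IntermediateField.adjoin κ₀ {t}) (redField N A) :=
  Module.rank_lt_aleph0_iff.1 (lt_of_le_of_lt (rank_le κ₀ t hκ₀ ht) Cardinal.natCast_lt_aleph0)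

/-- **The degree bound**, `finrank` form. -/
theorem finrank_le
    (hκ₀ : ∀ x : redField N A, x ∈ κ₀ ↔ ∃ c : κ, (x : LaurentSeries κ) = HahnSeries.C c)
    (ht : (t : LaurentSeries κ) = jqModC κ) :
    Module.finrank (IntermediateField.adjoin κ₀ {t}) (redField N A)
      ≤ Module.finrank (IntermediateField.adjoin Qb {Fermat.Agent.S24.Modular.jF N}) (FN N) :=
  Module.finrank_le_of_rank_le (rank_le κ₀ t hκ₀ ht)

/-- **The degree bound**, family form. -/
theorem card_le_of_linearIndependent
    (hκ₀ : ∀ x : redField N A, x ∈ κ₀ ↔ ∃ c : κ, (x : LaurentSeries κ) = HahnSeries.C c)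
    (ht : (t : LaurentSeries κ) = jqModC κ) {m : ℕ} (φ : Fin m → redField N A)
    (hφ : LinearIndependent (IntermediateField.adjoin κ₀ {t}) φ) :
    m ≤ Module.finrank (IntermediateField.adjoin Qb {Fermat.Agent.S24.Modular.jF N}) (FN N) := by
  have hfin : Module.Finite (IntermediateField.adjoin κ₀ {t}) (redField N A) :=
    finite κ₀ t hκ₀ ht
  have h1 := hφ.fintype_card_le_finrank
  rw [Fintype.card_fin] at h1
  exact h1.trans (finrank_le κ₀ t hκ₀ ht)

end Fermat.Agent.S44.H.RedFinBound
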