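import Mathlib
import Fermat.Agent.S30.E4.NormDiv

/-!
# S44 / strand H: "virtual norms" preserve `p ∣ ord` at valuation subrings, any characteristic

Level-free core of `(L.HDIV)`.  Characteristic-free port of `S48/G1/F1/VirtNormDiv` (which is
stated for the Prelude places of a function field of characteristic zero), with valuation
subrings and the order-free predicate `PDiv p w f : f = u * h ^ p`, `u` a unit of `w`.

Let `K` be an infinite field, `k / K` a field, `φ, c x : k →ₐ[K] LS` embeddings into a field
(`x` in a finite type), the `c x` separated by one element, and `T : k → k` with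
`φ (T b) = ∏ x, c x b` for all `b`.  Assume

* every virtual conjugate value `c x b` is SEPARABLE over `φ k` (essential: for an inseparable
  correspondence the statement is false);
* `j : k`, and every `c x j` is integral over `K[φ j]` ("finite places go to finite places");
* the elements of `K` lie in every valuation subring of `k`;
* every valuation subring `w ≠ ⊤` of `k` containing `j` is a discrete valuation ring.

Then `T` preserves "`PDiv p w` at every valuation subring `w ∋ j`": `pdiv_T_of_virtual`.

Proof: `T f` is a product of norms `N_{E_x / φ k} (c x f)`, one for each conjugacy class of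
virtual conjugates (`exists_factorization`); the integral closure of a DVR in a finite separable
extension is a semilocal Dedekind domain, hence a PID, so `c x f = unit * y ^ p` there and the
norm of a unit is a unit (`pdiv_norm`).
-/

set_option autoImplicit false
set_option linter.style.haveILetI false

noncomputable section

namespace Fermat.Agent.S44.H.VirtNormP

open Polynomial

/-! ### The predicate `PDiv` -/

/-- `p ∣ ord_w f`, order-free: `f = u * h ^ p` with `u` a unit of the valuation subring `w`. -/
def PDiv (p : ℕ) {F : Type*} [Field F] (w : ValuationSubring F) (f : F) : Prop :=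
  ∃ u h : F, f = u * h ^ p ∧ u ∈ w ∧ u⁻¹ ∈ w

theorem PDiv.one (p : ℕ) {F : Type*} [Field F] (w : ValuationSubring F) : PDiv p w (1 : F) :=
  ⟨1, 1, by simp, w.one_mem, by rw [inv_one]; exact w.one_mem⟩

theorem PDiv.mul {p : ℕ} {F : Type*} [Field F] {w : ValuationSubring F} {f g : F}
    (hf : PDiv p w f) (hg : PDiv p w g) : PDiv p w (f * g) := by
  obtain ⟨u, h, rfl, hu, hu'⟩ := hf
  obtain ⟨u', h', rfl, hv, hv'⟩ := hg
  refine ⟨u * u', h * h', by ring, w.mul_mem _ _ hu hv, ?_⟩
  rw [mul_inv]
  exact w.mul_mem _ _ hu' hv'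

theorem PDiv.prod {p : ℕ} {F : Type*} [Field F] {w : ValuationSubring F} {α : Type*}
    (S : Finset α) (g : α → F) (h : ∀ x ∈ S, PDiv p w (g x)) : PDiv p w (∏ x ∈ S, g x) := by
  classical
  induction S using Finset.induction_on with
  | empty =>
    rw [Finset.prod_empty]
    exact PDiv.one p w
  | insert a S ha ih =>
    rw [Finset.prod_insert ha]
    exact (h a (Finset.mem_insert_self a S)).mul
      (ih fun x hx => h x (Finset.mem_insert_of_mem hx))

theorem PDiv.top (p : ℕ) {F : Type*} [Field F] (f : F) : PDiv p (⊤ : ValuationSubring F) f :=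
  ⟨f, 1, by simp, ValuationSubring.mem_top _, ValuationSubring.mem_top _⟩

/-! ### Part 1: field theory -/

section FieldTheory

variable {K : Type*} [Field K] [Infinite K]
variable {k LS : Type*} [Field k] [Field LS] [Algebra k LS] [Algebra K k]
variable {ι : Type*} (c : ι → k →+* LS)

/-- The field generated over `k` by the image of the `x`-th virtual conjugate. -/
def Ex (x : ι) : IntermediateField k LS := IntermediateField.adjoin k (Set.range (c x))

theorem mem_Ex (x : ι) (b : k) : c x b ∈ Ex c x :=
  IntermediateField.subset_adjoin k _ ⟨b, rfl⟩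

/-- The `x`-th virtual conjugate, as a ring hom into `Ex c x`. -/
def genHom (x : ι) : k →+* Ex c x := (c x).codRestrict (Ex c x) (mem_Ex c x)

@[simp]
theorem coe_genHom (x : ι) (b : k) : ((genHom c x b : Ex c x) : LS) = c x b := rfl

omit [Infinite K] [Algebra k LS] in
/-- The equaliser of two ring homs agreeing on the constants, as a `K`-subspace. -/
def eqSubK {Ω : Type*} [Field Ω] (f g : k →+* Ω)
    (hfg : ∀ a : K, f (algebraMap K k a) = g (algebraMap K k a)) : Subspace K k where
  carrier := {b | f b = g b}
  add_mem' := by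
    intro a b ha hb
    have ha' : f a = g a := ha
    have hb' : f b = g b := hb
    show f (a + b) = g (a + b)
    rw [map_add, map_add, ha', hb']
  zero_mem' := by
    show f 0 = g 0
    rw [map_zero, map_zero]
  smul_mem' := by
    intro a b hb
    have hb' : f b = g b := hb
    show f (a • b) = g (a • b)
    rw [Algebra.smul_def, map_mul, map_mul, hb', hfg]

omit [Infinite K] [Algebra k LS] in
theorem mem_eqSubK {Ω : Type*} [Field Ω] (f g : k →+* Ω)
    (hfg : ∀ a : K, f (algebraMap K k a) = g (algebraMap K k a)) (b : k) :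
    b ∈ eqSubK f g hfg ↔ f b = g b := Iff.rfl

/-- The relation "conjugate over `k`" on the indices. -/
def Rel (x y : ι) : Prop := ∀ b : k, minpoly k (c x b) = minpoly k (c y b)

theorem rel_refl (x : ι) : Rel c x x := fun _ => rfl

theorem rel_symm {x y : ι} (h : Rel c x y) : Rel c y x := fun b => (h b).symm

theorem rel_trans {x y z : ι} (h : Rel c x y) (h' : Rel c y z) : Rel c x z :=
  fun b => (h b).trans (h' b)

/-- The setoid of conjugacy classes of indices. -/
def relSetoid : Setoid ι := ⟨Rel c, rel_refl c, rel_symm c, rel_trans c⟩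

variable [Fintype ι]

variable (hsym : ∀ b : k, ∃ P : k[X], P.map (algebraMap k LS) = ∏ x, (X - C (c x b)))

include hsym in
theorem isIntegral_c (x : ι) (b : k) : IsIntegral k (c x b) := by
  classical
  obtain ⟨P, hP⟩ := hsym b
  have hmonic : P.Monic := by
    apply Polynomial.monic_of_injective (algebraMap k LS).injective
    rw [hP]
    exact Polynomial.monic_prod_of_monic _ _ fun y _ => monic_X_sub_C _
  refine ⟨P, hmonic, ?_⟩
  rw [← Polynomial.eval_map, hP, Polynomial.eval_prod]
  exact Finset.prod_eq_zero (Finset.mem_univ x) (by simp)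

include hsym in
theorem isAlgebraic_Ex (x : ι) : Algebra.IsAlgebraic k (Ex c x) :=
  IntermediateField.isAlgebraic_adjoin (by
    rintro _ ⟨b, rfl⟩
    exact isIntegral_c c hsym x b)

include hsym in
/-- Every `k`-embedding of `Ex c x` sends `c x b` to some `c y b`. -/
theorem exists_conj (x : ι) (σ : Ex c x →ₐ[k] AlgebraicClosure LS) (b : k) :
    ∃ y, σ (genHom c x b) = algebraMap LS (AlgebraicClosure LS) (c y b) := by
  classical
  obtain ⟨P, hP⟩ := hsym b
  have h0 : aeval (genHom c x b) P = 0 := by
    apply Subtype.ext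
    have h1 : ((aeval (genHom c x b) P : Ex c x) : LS) = aeval (c x b) P := by
      rw [← coe_genHom c x b]
      exact (Polynomial.aeval_algHom_apply (Ex c x).val (genHom c x b) P).symm
    rw [h1, aeval_def, ← Polynomial.eval_map, hP, Polynomial.eval_prod]
    exact Finset.prod_eq_zero (Finset.mem_univ x) (by simp)
  have h2 : (P.map (algebraMap k (AlgebraicClosure LS))).eval (σ (genHom c x b)) = 0 := by
    rw [Polynomial.eval_map, ← aeval_def, Polynomial.aeval_algHom_apply, h0, map_zero]
  have h3 : P.map (algebraMap k (AlgebraicClosure LS))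
      = ∏ y, (X - C (algebraMap LS (AlgebraicClosure LS) (c y b))) := by
    rw [IsScalarTower.algebraMap_eq k LS (AlgebraicClosure LS), ← Polynomial.map_map, hP,
      Polynomial.map_prod]
    simp
  rw [h3, Polynomial.eval_prod, Finset.prod_eq_zero_iff] at h2
  obtain ⟨y, -, hy⟩ := h2
  rw [eval_sub, eval_X, eval_C, sub_eq_zero] at hy
  exact ⟨y, hy⟩

variable (hcK : ∀ (x : ι) (a : K), c x (algebraMap K k a) = algebraMap k LS (algebraMap K k a))

include hsym hcK in
/-- The index can be chosen uniformly in `b`. -/
theorem exists_conj_uniform (x : ι) (σ : Ex c x →ₐ[k] AlgebraicClosure LS) :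
    ∃ y, ∀ b, σ (genHom c x b) = algebraMap LS (AlgebraicClosure LS) (c y b) := by
  classical
  have hagree : ∀ (y : ι) (a : K),
      ((σ : Ex c x →+* AlgebraicClosure LS).comp (genHom c x)) (algebraMap K k a)
        = ((algebraMap LS (AlgebraicClosure LS)).comp (c y)) (algebraMap K k a) := by
    intro y a
    have h1 : genHom c x (algebraMap K k a) = algebraMap k (Ex c x) (algebraMap K k a) :=
      Subtype.ext (hcK x a)
    show σ (genHom c x (algebraMap K k a))
      = algebraMap LS (AlgebraicClosure LS) (c y (algebraMap K k a))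
    rw [h1, σ.commutes, hcK y a, ← IsScalarTower.algebraMap_apply k LS (AlgebraicClosure LS)]
  let p : ι → Subspace K k := fun y =>
    eqSubK ((σ : Ex c x →+* AlgebraicClosure LS).comp (genHom c x))
      ((algebraMap LS (AlgebraicClosure LS)).comp (c y)) (hagree y)
  have hcov : ⋃ y, (p y : Set k) = Set.univ := by
    rw [Set.iUnion_eq_univ_iff]
    intro b
    obtain ⟨y, hy⟩ := exists_conj c hsym x σ b
    exact ⟨y, hy⟩
  obtain ⟨y, hy⟩ := Subspace.exists_eq_top_of_iUnion_eq_univ hcov
  refine ⟨y, fun b => ?_⟩
  have hb : b ∈ p y := by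
    rw [hy]
    exact Submodule.mem_top
  exact hb

include hsym hcK in
/-- The index attached to a `k`-embedding of `Ex c x`. -/
def idx (x : ι) (σ : Ex c x →ₐ[k] AlgebraicClosure LS) : ι :=
  (exists_conj_uniform c hsym hcK x σ).choose

theorem idx_spec (x : ι) (σ : Ex c x →ₐ[k] AlgebraicClosure LS) (b : k) :
    σ (genHom c x b) = algebraMap LS (AlgebraicClosure LS) (c (idx c hsym hcK x σ) b) :=
  (exists_conj_uniform c hsym hcK x σ).choose_spec b

theorem idx_injective (x : ι) : Function.Injective (idx c hsym hcK x) := by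
  intro σ τ h
  refine IntermediateField.algHom_ext_of_eq_adjoin k (S := Ex c x) (s := Set.range (c x)) rfl ?_
  rintro _ ⟨b, rfl⟩
  have h1 := idx_spec c hsym hcK x σ b
  have h2 := idx_spec c hsym hcK x τ b
  rw [h] at h1
  exact h1.trans h2.symm

variable (hsepE : ∀ (x : ι) (b : k), IsSeparable k (c x b))

omit [Fintype ι] in
include hsepE in
theorem isSeparable_Ex (x : ι) : Algebra.IsSeparable k (Ex c x) :=
  (IntermediateField.isSeparable_adjoin_iff_isSeparable k LS).2 (by
    rintro _ ⟨b, rfl⟩
    exact hsepE x b)

include hsym hcK hsepE in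
/-- `Ex c x` is finite over `k`: it is separable and has at most `card ι` embeddings. -/
theorem finiteDimensional_Ex (x : ι) : FiniteDimensional k (Ex c x) := by
  have := isAlgebraic_Ex c hsym x
  have := isSeparable_Ex c hsepE x
  have : Finite (Ex c x →ₐ[k] AlgebraicClosure LS) :=
    Finite.of_injective _ (idx_injective c hsym hcK x)
  have : Nonempty (Ex c x →ₐ[k] AlgebraicClosure LS) :=
    ⟨(IsScalarTower.toAlgHom k LS (AlgebraicClosure LS)).comp (Ex c x).val⟩
  have h1 : Field.finSepDegree k (Ex c x) = Nat.card (Ex c x →ₐ[k] AlgebraicClosure LS) :=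
    Field.finSepDegree_eq_of_isAlgClosed k (Ex c x) (AlgebraicClosure LS)
  have h2 : Field.finSepDegree k (Ex c x) = Module.finrank k (Ex c x) :=
    Field.finSepDegree_eq_finrank_of_isSeparable k (Ex c x)
  have h3 : 0 < Module.finrank k (Ex c x) := by
    rw [← h2, h1]
    exact Nat.card_pos
  exact Module.finite_of_finrank_pos h3

/-- An embedding with index `y` forces `x ∼ y`. -/
theorem rel_idx (x : ι) (σ : Ex c x →ₐ[k] AlgebraicClosure LS) :
    Rel c x (idx c hsym hcK x σ) := by
  intro b
  have h1 : minpoly k (algebraMap LS (AlgebraicClosure LS) (c (idx c hsym hcK x σ) b))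
      = minpoly k (c (idx c hsym hcK x σ) b) :=
    minpoly.algebraMap_eq (algebraMap LS (AlgebraicClosure LS)).injective _
  have h2 : minpoly k (σ (genHom c x b)) = minpoly k (genHom c x b) :=
    minpoly.algHom_eq σ σ.injective _
  have h3 : minpoly k (genHom c x b) = minpoly k (c x b) :=
    IntermediateField.minpoly_eq (genHom c x b)
  rw [← h3, ← h2, idx_spec c hsym hcK x σ b, h1]

variable (hsep : ∃ b₀ : k, Function.Injective fun x => c x b₀)

include hsep in
/-- Conversely every `y ∼ x` is the index of an embedding. -/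
theorem exists_idx_eq_of_rel {x y : ι} (h : Rel c x y) :
    ∃ σ : Ex c x →ₐ[k] AlgebraicClosure LS, idx c hsym hcK x σ = y := by
  classical
  -- for every `b` an embedding sending `c x b` to `c y b`
  have hemb : ∀ b : k, ∃ σ : Ex c x →ₐ[k] AlgebraicClosure LS,
      σ (genHom c x b) = algebraMap LS (AlgebraicClosure LS) (c y b) := by
    intro b
    have hK : ∀ s ∈ Set.range (c x), IsIntegral k s ∧
        ((minpoly k s).map (algebraMap k (AlgebraicClosure LS))).Splits := by
      rintro _ ⟨b', rfl⟩
      exact ⟨isIntegral_c c hsym x b', IsAlgClosed.splits _⟩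
    have hy : aeval (algebraMap LS (AlgebraicClosure LS) (c y b)) (minpoly k (c x b)) = 0 := by
      rw [h b, ← minpoly.algebraMap_eq (algebraMap LS (AlgebraicClosure LS)).injective (c y b)]
      exact minpoly.aeval k _
    exact IntermediateField.exists_algHom_adjoin_of_splits_of_aeval hK
      (IntermediateField.subset_adjoin k _ ⟨b, rfl⟩) hy
  have hagree : ∀ (y' : ι) (a : K), (c y') (algebraMap K k a) = (c y) (algebraMap K k a) :=
    fun y' a => by rw [hcK y' a, hcK y a]
  let p : {y' : ι // ∃ σ : Ex c x →ₐ[k] AlgebraicClosure LS, idx c hsym hcK x σ = y'} →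
      Subspace K k := fun y' => eqSubK (c y'.1) (c y) (hagree y'.1)
  have hcov : ⋃ y', (p y' : Set k) = Set.univ := by
    rw [Set.iUnion_eq_univ_iff]
    intro b
    obtain ⟨σ, hσ⟩ := hemb b
    refine ⟨⟨idx c hsym hcK x σ, σ, rfl⟩, ?_⟩
    show c (idx c hsym hcK x σ) b = c y b
    apply (algebraMap LS (AlgebraicClosure LS)).injective
    rw [← idx_spec c hsym hcK x σ b, hσ]
  obtain ⟨y', hy'⟩ := Subspace.exists_eq_top_of_iUnion_eq_univ hcov
  obtain ⟨b₀, hb₀⟩ := hsep
  have hb : b₀ ∈ p y' := by
    rw [hy']
    exact Submodule.mem_top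
  have hyy : y'.1 = y := hb₀ hb
  obtain ⟨σ, hσ⟩ := y'.2
  exact ⟨σ, hσ.trans hyy⟩

open Classical in
/-- The class of `x`. -/
def cls (x : ι) : Finset ι := Finset.univ.filter fun y => Rel c x y

include hsym hcK hsepE hsep in
/-- **The norm of a virtual conjugate is the product over its class.** -/
theorem algebraMap_norm_genHom (x : ι) (b : k) :
    algebraMap k LS (Algebra.norm k (genHom c x b)) = ∏ y ∈ cls c x, c y b := by
  classical
  have := finiteDimensional_Ex c hsym hcK hsepE x
  have := isAlgebraic_Ex c hsym x
  have := isSeparable_Ex c hsepE x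
  apply (algebraMap LS (AlgebraicClosure LS)).injective
  rw [← IsScalarTower.algebraMap_apply k LS (AlgebraicClosure LS),
    Algebra.norm_eq_prod_embeddings k (AlgebraicClosure LS) (genHom c x b), map_prod]
  have h1 : ∏ σ : Ex c x →ₐ[k] AlgebraicClosure LS, σ (genHom c x b)
      = ∏ σ : Ex c x →ₐ[k] AlgebraicClosure LS,
          algebraMap LS (AlgebraicClosure LS) (c (idx c hsym hcK x σ) b) :=
    Finset.prod_congr rfl fun σ _ => idx_spec c hsym hcK x σ b
  rw [h1, ← Finset.prod_image (s := Finset.univ) (g := idx c hsym hcK x)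
    (f := fun y => algebraMap LS (AlgebraicClosure LS) (c y b))
    (fun σ _ τ _ hστ => idx_injective c hsym hcK x hστ)]
  refine Finset.prod_congr ?_ fun _ _ => rfl
  ext y
  simp only [Finset.mem_image, Finset.mem_univ, true_and, cls, Finset.mem_filter]
  constructor
  · rintro ⟨σ, rfl⟩
    exact rel_idx c hsym hcK x σ
  · intro h
    exact exists_idx_eq_of_rel c hsym hcK hsep h

include hsym hcK hsepE hsep in
/-- **Factorisation into norms**: the product of all virtual conjugates of `b` is a product of
norms of virtual conjugates, one for each class. -/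
theorem exists_factorization :
    ∃ S : Finset ι, ∀ b : k,
      ∏ x, c x b = algebraMap k LS (∏ x ∈ S, Algebra.norm k (genHom c x b)) := by
  classical
  let s : Setoid ι := relSetoid c
  refine ⟨Finset.univ.image (fun q : Quotient s => q.out), fun b => ?_⟩
  rw [Finset.prod_image (fun q _ q' _ h => Quotient.out_injective h), map_prod,
    ← Finset.prod_fiberwise Finset.univ (fun x : ι => (⟦x⟧ : Quotient s)) (fun x => c x b)]
  refine Finset.prod_congr rfl fun q _ => ?_
  rw [algebraMap_norm_genHom c hsym hcK hsepE hsep q.out b]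
  refine Finset.prod_congr ?_ fun _ _ => rfl
  ext y
  simp only [Finset.mem_filter, Finset.mem_univ, true_and, cls]
  constructor
  · intro h
    have h1 : (⟦y⟧ : Quotient s) = ⟦q.out⟧ := by rw [h, Quotient.out_eq]
    exact rel_symm c (Quotient.exact h1)
  · intro h
    have h1 : (⟦y⟧ : Quotient s) = ⟦q.out⟧ := Quotient.sound (rel_symm c h)
    rw [h1, Quotient.out_eq]

omit [Algebra k LS] hsym hcK hsepE hsep in
/-- **Symmetric functions by interpolation**, over an infinite field of constants: if the
product `∏ x, c x b` of the virtual conjugates is `φ₀ (T b)` for every `b`, then all coefficients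
of `∏ x, (X - c x b)` lie in `φ₀ k`. -/
theorem exists_poly_of_mulK (φ₀ : k →+* LS) (T : k → k)
    (hcK' : ∀ (x : ι) (a : K), c x (algebraMap K k a) = φ₀ (algebraMap K k a))
    (hT : ∀ b, φ₀ (T b) = ∏ x, c x b) (b : k) :
    ∃ P : k[X], P.map φ₀ = ∏ x, (X - C (c x b)) := by
  classical
  set n := Fintype.card ι with hn
  let e : ℕ ↪ K := Infinite.natEmbedding K
  let s : Finset ℕ := Finset.range (n + 1)
  let v : ℕ → k := fun i => algebraMap K k (e i)
  let r : ℕ → k := fun i => T (algebraMap K k (e i) - b)
  have hvs : Set.InjOn v s := fun i _ j _ h => e.injective ((algebraMap K k).injective h)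
  have hvs' : Set.InjOn (fun i : ℕ => φ₀ (v i)) s := fun i hi j hj h =>
    hvs hi hj (φ₀.injective h)
  have hcard : s.card = n + 1 := Finset.card_range _
  refine ⟨Lagrange.interpolate s v r, ?_⟩
  refine Polynomial.eq_of_degrees_lt_of_eval_index_eq s hvs' ?_ ?_ ?_
  · exact (Polynomial.degree_map_le).trans_lt (Lagrange.degree_interpolate_lt r hvs)
  · have h1 : (∏ x : ι, (X - C (c x b))).natDegree = n := by
      rw [Polynomial.natDegree_prod_of_monic _ _ fun x _ => monic_X_sub_C _]
      simp [hn]
    refine (Polynomial.degree_le_natDegree).trans_lt ?_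
    rw [h1, hcard]
    exact_mod_cast Nat.lt_succ_self n
  · intro i hi
    rw [Polynomial.eval_map, Polynomial.eval₂_at_apply,
      Lagrange.eval_interpolate_at_node r hvs hi, hT, eval_prod]
    refine Finset.prod_congr rfl fun x _ => ?_
    rw [eval_sub, eval_X, eval_C, map_sub, hcK' x]

end FieldTheory

/-! ### Part 2: norms preserve `PDiv` at a discrete valuation ring -/

section Norm

open IsDedekindDomain WithZero

variable {F E : Type*} [Field F] [Field E] [Algebra F E] [FiniteDimensional F E]
  [Algebra.IsSeparable F E]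

/-- **Norms preserve `PDiv`.**  `E / F` finite separable, `w` a valuation subring of `F` which
is a discrete valuation ring.  If `g ≠ 0` is `unit * p-th power` at every valuation subring of
`E` containing the image of `w`, then its norm is `unit * p-th power` at `w`. -/
theorem pdiv_norm (p : ℕ) (w : ValuationSubring F) [IsDiscreteValuationRing w]
    (g : E) (hg : g ≠ 0)
    (h : ∀ W : ValuationSubring E, (∀ x : F, x ∈ w → algebraMap F E x ∈ W) → PDiv p W g) :
    PDiv p w (Algebra.norm F g) := by
  classical
  let A : Type _ := w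
  let _ : Algebra A E := ((algebraMap F E).comp (algebraMap A F)).toAlgebra
  have : IsScalarTower A F E := IsScalarTower.of_algebraMap_eq fun _ => rfl
  let C := integralClosure A E
  have : IsDedekindDomain C := integralClosure.isDedekindDomain A F E
  have : IsFractionRing C E := integralClosure.isFractionRing_of_finite_extension F E
  have : Algebra.IsIntegral A C := inferInstance
  have : Module.IsTorsionFree A E := Module.IsTorsionFree.trans_faithfulSMul A F E
  have : Module.IsTorsionFree A C := IsIntegralClosure.isTorsionFree A E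
  -- finitely many primes
  have hfin : {I : Ideal C | I.IsPrime}.Finite := by
    have hm : (IsLocalRing.maximalIdeal A).IsMaximal := IsLocalRing.maximalIdeal.isMaximal A
    have h1 : ((IsLocalRing.maximalIdeal A).primesOver C).Finite :=
      IsDedekindDomain.primesOver_finite (IsLocalRing.maximalIdeal A) C
    refine (h1.union (Set.finite_singleton (⊥ : Ideal C))).subset ?_
    intro P hP
    have hP' : P.IsPrime := hP
    by_cases hbot : P = ⊥
    · right
      exact hbot
    · left
      refine ⟨hP', ⟨?_⟩⟩
      have hu : (P.under A).IsPrime := Ideal.IsPrime.under A P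
      have hne : P.under A ≠ ⊥ := fun h0 => hbot (Ideal.eq_bot_of_comap_eq_bot h0)
      have hmax : (P.under A).IsMaximal := hu.isMaximal hne
      exact (IsLocalRing.eq_maximalIdeal hmax).symm
  -- valuations of `g`
  have hdiv : ∀ v : HeightOneSpectrum C, (p : ℤ) ∣ log (v.valuation E g) := by
    intro v
    have hW : ∀ x : F, x ∈ w → algebraMap F E x ∈ (v.valuation E).valuationSubring := by
      intro x hx
      have hint : IsIntegral A (algebraMap F E x) := by
        have h1 : algebraMap F E x = algebraMap A E (⟨x, hx⟩ : A) := rfl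
        rw [h1]
        exact isIntegral_algebraMap
      have h2 : algebraMap F E x = algebraMap C E ⟨algebraMap F E x, hint⟩ := rfl
      rw [Valuation.mem_valuationSubring_iff, h2]
      exact v.valuation_le_one _
    obtain ⟨u, y, hgu, hu, hu'⟩ := h _ hW
    rw [Valuation.mem_valuationSubring_iff] at hu hu'
    have hu0 : u ≠ 0 := by
      rintro rfl
      rw [zero_mul] at hgu
      exact hg hgu
    have hu1 : v.valuation E u = 1 := by
      refine le_antisymm hu ?_
      rw [map_inv₀] at hu'
      have h3 : v.valuation E u ≠ 0 := (Valuation.ne_zero_iff _).mpr hu0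
      exact (inv_le_one₀ (zero_lt_iff.mpr h3)).mp hu'
    rw [hgu, map_mul, hu1, one_mul, map_pow, WithZero.log_pow, nsmul_eq_mul]
    exact Dvd.intro _ rfl
  obtain ⟨y, hy0, hy⟩ := Fermat.Agent.S30.E4.NormDiv.exists_pow_mul_unit hfin p g hg hdiv
  set u : E := g * (y ^ p)⁻¹ with hu
  have hu0 : u ≠ 0 := mul_ne_zero hg (inv_ne_zero (pow_ne_zero _ hy0))
  have hgu : g = u * y ^ p := by
    rw [hu, mul_assoc, inv_mul_cancel₀ (pow_ne_zero _ hy0), mul_one]
  -- `u` and `u⁻¹` are integral over `A`
  have hint : ∀ x : E, (∀ v : HeightOneSpectrum C, v.valuation E x = 1) → IsIntegral A x := by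
    intro x hx
    obtain ⟨c, rfl⟩ := HeightOneSpectrum.mem_integers_of_valuation_le_one E x
      (fun v => (hx v).le)
    exact c.2
  have hu_int : IsIntegral A u := hint u hy
  have hui_int : IsIntegral A u⁻¹ := hint u⁻¹ fun v => by
    rw [map_inv₀, hy v, inv_one]
  have hmem : ∀ x : F, IsIntegral A x → x ∈ w := by
    intro x hx
    obtain ⟨a, rfl⟩ := (IsIntegrallyClosed.isIntegral_iff (R := A) (K := F)).mp hx
    exact a.2
  have hNu : Algebra.norm F u ∈ w := hmem _ (Algebra.isIntegral_norm F hu_int)
  have hNui : Algebra.norm F u⁻¹ ∈ w := hmem _ (Algebra.isIntegral_norm F hui_int)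
  have hinv : Algebra.norm F u⁻¹ = (Algebra.norm F u)⁻¹ := by
    apply eq_inv_of_mul_eq_one_right
    rw [← map_mul, mul_inv_cancel₀ hu0, map_one]
  refine ⟨Algebra.norm F u, Algebra.norm F y, ?_, hNu, ?_⟩
  · rw [hgu, map_mul, map_pow]
  · rw [← hinv]
    exact hNui

end Norm

/-! ### Part 3: the main theorem -/

section Main

/-- A root of a monic polynomial with coefficients in a valuation subring lies in it. -/
theorem mem_of_monic_of_eval_eq_zero {E : Type*} [Field E] (W : ValuationSubring E) (Q : E[X])
    (hQ : Q.Monic) (hc : ∀ i, Q.coeff i ∈ W) (y : E) (hy : Q.eval y = 0) : y ∈ W := by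
  classical
  rw [← W.valuation_le_one_iff]
  by_contra hlt
  rw [not_le] at hlt
  set v := W.valuation with hv
  set n := Q.natDegree with hn
  have h1 : y ^ n = -∑ i ∈ Finset.range n, Q.coeff i * y ^ i := by
    rw [Polynomial.eval_eq_sum_range, Finset.sum_range_succ, ← hn, hQ.coeff_natDegree,
      one_mul] at hy
    exact eq_neg_of_add_eq_zero_right hy
  have hy0 : v y ≠ 0 := fun h0 => by
    rw [h0] at hlt
    exact absurd hlt (not_lt.mpr zero_le_one)
  have h2 : v (∑ i ∈ Finset.range n, Q.coeff i * y ^ i) < v y ^ n := by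
    refine Valuation.map_sum_lt v (pow_ne_zero n hy0) fun i hi => ?_
    rw [Finset.mem_range] at hi
    rw [map_mul, map_pow]
    have h3 : v (Q.coeff i) ≤ 1 := (W.valuation_le_one_iff _).mpr (hc i)
    calc v (Q.coeff i) * v y ^ i ≤ 1 * v y ^ i := mul_le_mul_left h3 _
      _ = v y ^ i := one_mul _
      _ < v y ^ n := pow_lt_pow_right₀ hlt hi
  have h4 : v (y ^ n) = v y ^ n := map_pow _ _ _
  rw [h1, Valuation.map_neg] at h4
  exact absurd h4 h2.ne

/-- **Virtual norms preserve `p ∣ ord` at the valuation subrings containing `j`.**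
`K` an infinite field, `φ, c x : k →ₐ[K] LS` embeddings (`x` in a finite type) separated by one
element, `T : k → k` with `φ (T b) = ∏ x, c x b`; every `c x b` separable over `φ k`; every
`c x j` integral over `K[φ j]`; `K` inside every valuation subring of `k`; every valuation
subring `≠ ⊤` containing `j` a DVR.  Then `T` preserves "`PDiv p w` for all `w ∋ j`". -/
theorem pdiv_T_of_virtual {K k LS : Type*} [Field K] [Infinite K] [Field k] [Field LS]
    [Algebra K k] [Algebra K LS] {ι : Type*} [Fintype ι]
    (φ : k →ₐ[K] LS) (c : ι → k →ₐ[K] LS)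
    (hsep : ∃ b₀ : k, Function.Injective fun x => c x b₀)
    (T : k → k) (hT : ∀ b, φ (T b) = ∏ x, c x b)
    (hsepE : ∀ (x : ι) (b : k), ∃ P : k[X], P.Separable ∧ P.eval₂ (φ : k →+* LS) (c x b) = 0)
    (j : k)
    (hint : ∀ x : ι, ∃ P : k[X], P.Monic ∧ (∀ i, P.coeff i ∈ Algebra.adjoin K {j}) ∧
      P.eval₂ (φ : k →+* LS) (c x j) = 0)
    (hK : ∀ (w : ValuationSubring k) (a : K), algebraMap K k a ∈ w)
    (hdvr : ∀ w : ValuationSubring k, j ∈ w → w ≠ ⊤ → IsDiscreteValuationRing w)
    (p : ℕ) (f : k) (hf : f ≠ 0) (hdiv : ∀ w : ValuationSubring k, j ∈ w → PDiv p w f) :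
    ∀ w : ValuationSubring k, j ∈ w → PDiv p w (T f) := by
  classical
  letI : Algebra k LS := φ.toRingHom.toAlgebra
  haveI : IsScalarTower K k LS := IsScalarTower.of_algebraMap_eq fun a => (φ.commutes a).symm
  let c' : ι → k →+* LS := fun x => (c x : k →+* LS)
  have hcK : ∀ (x : ι) (a : K),
      c' x (algebraMap K k a) = algebraMap k LS (algebraMap K k a) := by
    intro x a
    show c x (algebraMap K k a) = φ (algebraMap K k a)
    rw [(c x).commutes, φ.commutes]
  have hsym : ∀ b : k, ∃ P : k[X], P.map (algebraMap k LS) = ∏ x, (X - C (c' x b)) := fun b =>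
    exists_poly_of_mulK c' (algebraMap k LS) T hcK hT b
  have hsepE' : ∀ (x : ι) (b : k), IsSeparable k (c' x b) := by
    intro x b
    obtain ⟨P, hP, h0⟩ := hsepE x b
    have h1 : minpoly k (c' x b) ∣ P := minpoly.dvd k _ h0
    exact hP.of_dvd h1
  obtain ⟨S, hS⟩ := exists_factorization c' hsym hcK hsepE' hsep
  have hTf : T f = ∏ x ∈ S, Algebra.norm k (genHom c' x f) := by
    apply (algebraMap k LS).injective
    rw [← hS f]
    exact hT f
  intro w hw
  by_cases htop : w = ⊤
  · subst htop
    exact PDiv.top p _
  haveI := hdvr w hw htop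
  rw [hTf]
  refine PDiv.prod S _ fun x _ => ?_
  haveI := finiteDimensional_Ex c' hsym hcK hsepE' x
  haveI := isSeparable_Ex c' hsepE' x
  refine pdiv_norm p w (genHom c' x f) ((map_ne_zero (genHom c' x)).mpr hf) fun W hW => ?_
  -- `j` goes into `W`
  have hj : genHom c' x j ∈ W := by
    obtain ⟨P, hPm, hPc, hP0⟩ := hint x
    have hcoef : ∀ i, P.coeff i ∈ w := by
      intro i
      refine Algebra.adjoin_induction (p := fun y _ => y ∈ w) ?_ ?_ ?_ ?_ (hPc i)
      · intro y hy
        rw [Set.mem_singleton_iff] at hy
        rw [hy]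
        exact hw
      · intro a
        exact hK w a
      · intro y z _ _ hy hz
        exact w.add_mem _ _ hy hz
      · intro y z _ _ hy hz
        exact w.mul_mem _ _ hy hz
    refine mem_of_monic_of_eval_eq_zero W (P.map (algebraMap k (Ex c' x))) (hPm.map _) ?_ _ ?_
    · intro i
      rw [Polynomial.coeff_map]
      exact hW _ (hcoef i)
    · rw [Polynomial.eval_map, ← Polynomial.aeval_def]
      apply Subtype.ext
      have h1 : ((aeval (genHom c' x j) P : Ex c' x) : LS) = aeval (c' x j) P := by
        rw [← coe_genHom c' x j]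
        exact (Polynomial.aeval_algHom_apply (Ex c' x).val (genHom c' x j) P).symm
      rw [h1, Polynomial.aeval_def]
      exact hP0
  obtain ⟨u, h, hfu, hu, hu'⟩ := hdiv (W.comap (genHom c' x)) hj
  refine ⟨genHom c' x u, genHom c' x h, by rw [hfu, map_mul, map_pow], hu, ?_⟩
  rw [← map_inv₀]
  exact hu'

end Main

end Fermat.Agent.S44.H.VirtNormP
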