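import Mathlib
import Fermat.Agent.S44.H.VirtNormP

/-!
# S44 / strand H: the virtual conjugates are automatically separable

In the setting of `S44/H/VirtNormP` (virtual conjugates `c x : k →+* LS` agreeing on an infinite
field of constants `K`, with `∏ x, (X - c x b) ∈ k[X]` for every `b`): if ONE element `b₀`
separates the conjugates, then every `c x b` is separable over `k` (helper130's remark: for all
but finitely many constants `a` the element `b₀ + a b` is again separating, so `c x (b₀ + a b)`
and `c x b₀` are simple roots of polynomials over `k`, and `c x b` is a `k`-combination of them).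

Consequently the separability hypothesis of `VirtNormP.pdiv_T_of_virtual` can be dropped:
`pdiv_T_of_sep`.
-/

set_option autoImplicit false
set_option linter.style.haveILetI false

noncomputable section

namespace Fermat.Agent.S44.H.VirtNormSep

open Polynomial Fermat.Agent.S44.H.VirtNormP

section

variable {K : Type*} [Field K] [Infinite K]
variable {k LS : Type*} [Field k] [Field LS] [Algebra k LS] [Algebra K k]
variable {ι : Type*} [Fintype ι] (c : ι → k →+* LS)

omit [Infinite K] [Algebra K k] in
/-- A separating element has separable conjugates. -/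
theorem isSeparable_of_injective
    (hsym : ∀ b : k, ∃ P : k[X], P.map (algebraMap k LS) = ∏ x, (X - C (c x b)))
    {b₁ : k} (hb₁ : Function.Injective fun x => c x b₁) (x : ι) : IsSeparable k (c x b₁) := by
  classical
  obtain ⟨P, hP⟩ := hsym b₁
  have h1 : (P.map (algebraMap k LS)).Separable := by
    rw [hP]
    exact separable_prod_X_sub_C_iff.mpr hb₁
  have h2 : P.Separable := (separable_map (algebraMap k LS)).mp h1
  have h3 : aeval (c x b₁) P = 0 := by
    rw [aeval_def, ← Polynomial.eval_map, hP, Polynomial.eval_prod]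
    exact Finset.prod_eq_zero (Finset.mem_univ x) (by simp)
  exact h2.of_dvd (minpoly.dvd k _ h3)

/-- **One separating element makes every conjugate value separable.** -/
theorem isSeparable_c_of_sep
    (hsym : ∀ b : k, ∃ P : k[X], P.map (algebraMap k LS) = ∏ x, (X - C (c x b)))
    (hcK : ∀ (x : ι) (a : K), c x (algebraMap K k a) = algebraMap k LS (algebraMap K k a))
    (hsep : ∃ b₀ : k, Function.Injective fun x => c x b₀) (x : ι) (b : k) :
    IsSeparable k (c x b) := by
  classical
  obtain ⟨b₀, hb₀⟩ := hsep
  -- the bad constants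
  let bad : ι × ι → Set K := fun xy =>
    {a | xy.1 ≠ xy.2 ∧ c xy.1 (b₀ + algebraMap K k a * b) = c xy.2 (b₀ + algebraMap K k a * b)}
  have hval : ∀ (y : ι) (a : K), c y (b₀ + algebraMap K k a * b)
      = c y b₀ + algebraMap k LS (algebraMap K k a) * c y b := by
    intro y a
    rw [map_add, map_mul, hcK]
  have hsub : ∀ xy : ι × ι, (bad xy).Subsingleton := by
    rintro ⟨y, z⟩ a ⟨hne, ha⟩ a' ⟨-, ha'⟩
    simp only at hne ha ha'
    rw [hval, hval] at ha ha'
    have hd : c y b - c z b ≠ 0 := by
      intro h0
      have h1 : c y b = c z b := sub_eq_zero.mp h0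
      rw [h1] at ha
      exact hne (hb₀ (add_right_cancel ha))
    have h2 : (algebraMap k LS (algebraMap K k a) - algebraMap k LS (algebraMap K k a'))
        * (c y b - c z b) = 0 := by
      linear_combination ha - ha'
    rcases mul_eq_zero.mp h2 with h3 | h3
    · exact (algebraMap K k).injective ((algebraMap k LS).injective (sub_eq_zero.mp h3))
    · exact absurd h3 hd
  have hfin : ((⋃ xy : ι × ι, bad xy) ∪ {0}).Finite :=
    (Set.finite_iUnion fun xy => (hsub xy).finite).union (Set.finite_singleton 0)
  obtain ⟨a, ha⟩ := hfin.infinite_compl.nonempty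
  have ha0 : a ≠ 0 := fun h0 => ha (Or.inr (by rw [h0]; rfl))
  have hinj : Function.Injective fun y => c y (b₀ + algebraMap K k a * b) := by
    intro y z hyz
    by_contra hne
    exact ha (Or.inl (Set.mem_iUnion.mpr ⟨(y, z), hne, hyz⟩))
  have h1 : IsSeparable k (c x (b₀ + algebraMap K k a * b)) :=
    isSeparable_of_injective c hsym hinj x
  have h2 : IsSeparable k (c x b₀) := isSeparable_of_injective c hsym hb₀ x
  have hu : algebraMap k LS (algebraMap K k a) ≠ 0 :=
    (map_ne_zero (algebraMap k LS)).mpr ((map_ne_zero (algebraMap K k)).mpr ha0)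
  have h3 : c x b = algebraMap k LS ((algebraMap K k a)⁻¹)
      * (c x (b₀ + algebraMap K k a * b) - c x b₀) := by
    rw [hval, add_sub_cancel_left, map_inv₀, ← mul_assoc, inv_mul_cancel₀ hu, one_mul]
  rw [h3]
  exact Field.isSeparable_mul (isSeparable_algebraMap _) (Field.isSeparable_sub h1 h2)

end

/-- **Virtual norms preserve `p ∣ ord` at the valuation subrings containing `j`** — the form of
`VirtNormP.pdiv_T_of_virtual` without the separability hypothesis. -/
theorem pdiv_T_of_sep {K k LS : Type*} [Field K] [Infinite K] [Field k] [Field LS]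
    [Algebra K k] [Algebra K LS] {ι : Type*} [Fintype ι]
    (φ : k →ₐ[K] LS) (c : ι → k →ₐ[K] LS)
    (hsep : ∃ b₀ : k, Function.Injective fun x => c x b₀)
    (T : k → k) (hT : ∀ b, φ (T b) = ∏ x, c x b)
    (j : k)
    (hint : ∀ x : ι, ∃ P : k[X], P.Monic ∧ (∀ i, P.coeff i ∈ Algebra.adjoin K {j}) ∧
      P.eval₂ (φ : k →+* LS) (c x j) = 0)
    (hK : ∀ (w : ValuationSubring k) (a : K), algebraMap K k a ∈ w)
    (hdvr : ∀ w : ValuationSubring k, j ∈ w → w ≠ ⊤ → IsDiscreteValuationRing w)
    (p : ℕ) (f : k) (hf : f ≠ 0) (hdiv : ∀ w : ValuationSubring k, j ∈ w → PDiv p w f) :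
    ∀ w : ValuationSubring k, j ∈ w → PDiv p w (T f) := by
  classical
  refine pdiv_T_of_virtual φ c hsep T hT ?_ j hint hK hdvr p f hf hdiv
  letI : Algebra k LS := φ.toRingHom.toAlgebra
  haveI : IsScalarTower K k LS := IsScalarTower.of_algebraMap_eq fun a => (φ.commutes a).symm
  let c' : ι → k →+* LS := fun x => (c x : k →+* LS)
  have hcK : ∀ (x : ι) (a : K),
      c' x (algebraMap K k a) = algebraMap k LS (algebraMap K k a) := by
    intro x a
    show c x (algebraMap K k a) = φ (algebraMap K k a)
    rw [(c x).commutes, φ.commutes]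
  have hsym : ∀ b : k, ∃ P : k[X], P.map (algebraMap k LS) = ∏ x, (X - C (c' x b)) := fun b =>
    exists_poly_of_mulK c' (algebraMap k LS) T hcK hT b
  intro x b
  have h1 : IsSeparable k (c' x b) := isSeparable_c_of_sep c' hsym hcK hsep x b
  exact ⟨minpoly k (c' x b), h1, minpoly.aeval k (c' x b)⟩

end Fermat.Agent.S44.H.VirtNormSep
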